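import Fermat.Agent.LocalEC.Formulas
import Mathlib.AlgebraicGeometry.EllipticCurve.VariableChange

/-!
The homomorphism on points induced by an admissible change of variables.
-/

set_option autoImplicit false

namespace FLTAgent.LocalEC

open WeierstrassCurve WeierstrassCurve.Affine

variable {K : Type*} [Field K] {W W' : WeierstrassCurve.Affine K}

/-- `W'` is obtained from `W` by `(x, y) = (u²x' + r, u³y' + su²x' + t)`. -/
structure PointChange (W W' : WeierstrassCurve.Affine K) where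
  u : K
  r : K
  s : K
  t : K
  hu : u ≠ 0
  h₁ : u * W'.a₁ = W.a₁ + 2 * s
  h₂ : u ^ 2 * W'.a₂ = W.a₂ - s * W.a₁ + 3 * r - s ^ 2
  h₃ : u ^ 3 * W'.a₃ = W.a₃ + r * W.a₁ + 2 * t
  h₄ : u ^ 4 * W'.a₄ =
    W.a₄ - s * W.a₃ + 2 * r * W.a₂ - (t + r * s) * W.a₁ + 3 * r ^ 2 - 2 * s * t
  h₆ : u ^ 6 * W'.a₆ =
    W.a₆ + r * W.a₄ + r ^ 2 * W.a₂ + r ^ 3 - t * W.a₃ - t ^ 2 - r * t * W.a₁

namespace PointChange

variable (C : PointChange W W')

/-- The abscissa in `W` of a point of `W'`. -/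
def X (x : K) : K := C.u ^ 2 * x + C.r

/-- The ordinate in `W` of a point of `W'`. -/
def Y (x y : K) : K := C.u ^ 3 * y + C.s * C.u ^ 2 * x + C.t

lemma X_injective : Function.Injective C.X := fun x x' h => by
  simp only [X, add_left_inj] at h
  exact mul_left_cancel₀ (pow_ne_zero 2 C.hu) h

lemma equation_iff_map (x y : K) : W.Equation (C.X x) (C.Y x y) ↔ W'.Equation x y := by
  rw [equation_iff', equation_iff']
  have e : C.Y x y ^ 2 + W.a₁ * C.X x * C.Y x y + W.a₃ * C.Y x y -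
      (C.X x ^ 3 + W.a₂ * C.X x ^ 2 + W.a₄ * C.X x + W.a₆) = C.u ^ 6 *
      (y ^ 2 + W'.a₁ * x * y + W'.a₃ * y - (x ^ 3 + W'.a₂ * x ^ 2 + W'.a₄ * x + W'.a₆)) := by
    simp only [X, Y]
    linear_combination (-C.u ^ 5 * x * y) * C.h₁ + (C.u ^ 4 * x ^ 2) * C.h₂ +
      (-C.u ^ 3 * y) * C.h₃ + (C.u ^ 2 * x) * C.h₄ + C.h₆
  rw [e, mul_eq_zero, or_iff_right (pow_ne_zero 6 C.hu)]

lemma psi_map (x y : K) : psi W (C.X x) (C.Y x y) = C.u ^ 3 * psi W' x y := by
  simp only [psi, X, Y]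
  linear_combination (-C.u ^ 2 * x) * C.h₁ - C.h₃

lemma tanNum_map (x y : K) : tanNum W (C.X x) (C.Y x y) =
    C.u ^ 4 * tanNum W' x y + C.s * (C.u ^ 3 * psi W' x y) := by
  simp only [tanNum, psi, X, Y]
  linear_combination (C.u ^ 3 * y - C.s * C.u ^ 2 * x) * C.h₁ + (-2 * C.u ^ 2 * x) * C.h₂ -
    C.s * C.h₃ - C.h₄

lemma nonsingular_map {x y : K} (h : W'.Nonsingular x y) : W.Nonsingular (C.X x) (C.Y x y) := by
  rw [nonsingular_iff'] at h ⊢
  refine ⟨(C.equation_iff_map x y).mpr h.1, ?_⟩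
  have e₁ : ∀ (V : WeierstrassCurve.Affine K) (a b : K),
      V.a₁ * b - (3 * a ^ 2 + 2 * V.a₂ * a + V.a₄) = -tanNum V a b := fun V a b => by
    simp only [tanNum]; ring
  simp only [e₁, neg_ne_zero] at h ⊢
  change tanNum W (C.X x) (C.Y x y) ≠ 0 ∨ psi W (C.X x) (C.Y x y) ≠ 0
  rw [C.tanNum_map, C.psi_map]
  rcases h.2 with h2 | h2
  · by_cases hψ : psi W' x y = 0
    · left; rw [hψ, mul_zero, mul_zero, add_zero]; exact mul_ne_zero (pow_ne_zero 4 C.hu) h2
    · right; exact mul_ne_zero (pow_ne_zero 3 C.hu) hψ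
  · right; exact mul_ne_zero (pow_ne_zero 3 C.hu) h2

lemma nonsingular_of_map {x y : K} (he : W'.Equation x y)
    (h : W.Nonsingular (C.X x) (C.Y x y)) : W'.Nonsingular x y := by
  rw [nonsingular_iff'] at h ⊢
  refine ⟨he, ?_⟩
  have e₁ : ∀ (V : WeierstrassCurve.Affine K) (a b : K),
      V.a₁ * b - (3 * a ^ 2 + 2 * V.a₂ * a + V.a₄) = -tanNum V a b := fun V a b => by
    simp only [tanNum]; ring
  simp only [e₁, neg_ne_zero] at h ⊢
  change tanNum W' x y ≠ 0 ∨ psi W' x y ≠ 0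
  by_contra hc
  rw [not_or, not_not, not_not] at hc
  have h2 := h.2
  change tanNum W (C.X x) (C.Y x y) ≠ 0 ∨ psi W (C.X x) (C.Y x y) ≠ 0 at h2
  rw [C.tanNum_map, C.psi_map, hc.1, hc.2] at h2
  simp at h2

lemma negY_map (x y : K) : W.negY (C.X x) (C.Y x y) = C.Y x (W'.negY x y) := by
  simp only [negY, X, Y]
  linear_combination (C.u ^ 2 * x) * C.h₁ + C.h₃

/-- The underlying map of points. -/
def mapFun : W'.Point → W.Point
  | .zero => 0
  | .some _ _ h => .some _ _ (C.nonsingular_map h)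

@[simp] lemma mapFun_zero : C.mapFun (0 : W'.Point) = 0 := rfl

lemma mapFun_some {x y : K} (h : W'.Nonsingular x y) :
    C.mapFun (Point.some x y h) = Point.some _ _ (C.nonsingular_map h) := rfl

lemma Y_injective (x : K) : Function.Injective (C.Y x) := fun y y' h => by
  simp only [Y, add_left_inj] at h
  exact mul_left_cancel₀ (pow_ne_zero 3 C.hu) h

variable [DecidableEq K]

lemma slope_map {x₁ x₂ y₁ y₂ : K} (e₁ : W'.Equation x₁ y₁) (e₂ : W'.Equation x₂ y₂) (hxy : ¬(x₁ = x₂ ∧ y₁ = W'.negY x₂ y₂)) :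
    W.slope (C.X x₁) (C.X x₂) (C.Y x₁ y₁) (C.Y x₂ y₂) =
      C.u * W'.slope x₁ x₂ y₁ y₂ + C.s := by
  have hu := C.hu
  by_cases hx : x₁ = x₂
  · subst hx
    have hy : y₁ ≠ W'.negY x₁ y₂ := fun e => hxy ⟨rfl, e⟩
    have hY : C.Y x₁ y₁ ≠ W.negY (C.X x₁) (C.Y x₁ y₂) := by
      rw [C.negY_map]; exact fun e => hy (C.Y_injective x₁ e)
    rw [slope_of_Y_ne rfl hy, slope_of_Y_ne rfl hY, y_sub_negY, y_sub_negY]
    change tanNum W _ _ / _ = C.u * (tanNum W' _ _ / _) + C.s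
    rw [C.tanNum_map, C.psi_map]
    have hψ : psi W' x₁ y₁ ≠ 0 := by
      rw [← y_sub_negY, sub_ne_zero]
      intro e
      obtain rfl := Y_eq_of_Y_ne e₁ e₂ rfl hy
      exact hy e
    field_simp
  · have hX : C.X x₁ ≠ C.X x₂ := fun e => hx (C.X_injective e)
    rw [slope_of_X_ne hx, slope_of_X_ne hX]
    have hd : x₁ - x₂ ≠ 0 := sub_ne_zero.mpr hx
    simp only [X, Y]
    rw [show C.u ^ 2 * x₁ + C.r - (C.u ^ 2 * x₂ + C.r) = C.u ^ 2 * (x₁ - x₂) by ring]
    field_simp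
    ring

omit [DecidableEq K] in
lemma addX_map (x₁ x₂ ℓ : K) :
    W.addX (C.X x₁) (C.X x₂) (C.u * ℓ + C.s) = C.X (W'.addX x₁ x₂ ℓ) := by
  simp only [addX, X]
  linear_combination (-C.u * ℓ) * C.h₁ + C.h₂

omit [DecidableEq K] in
lemma addY_map (x₁ x₂ y₁ ℓ : K) :
    W.addY (C.X x₁) (C.X x₂) (C.Y x₁ y₁) (C.u * ℓ + C.s) =
      C.Y (W'.addX x₁ x₂ ℓ) (W'.addY x₁ x₂ y₁ ℓ) := by
  have e : W.negAddY (C.X x₁) (C.X x₂) (C.Y x₁ y₁) (C.u * ℓ + C.s) =
      C.Y (W'.addX x₁ x₂ ℓ) (W'.negAddY x₁ x₂ y₁ ℓ) := by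
    simp only [negAddY]
    rw [C.addX_map]
    simp only [X, Y]
    ring
  simp only [addY]
  rw [e, C.addX_map, C.negY_map]

/-- The homomorphism of point groups. -/
def pointMap : W'.Point →+ W.Point where
  toFun := C.mapFun
  map_zero' := rfl
  map_add' := by
    rintro (_ | ⟨x₁, y₁, h₁⟩) (_ | ⟨x₂, y₂, h₂⟩)
    · rfl
    · rfl
    · rfl
    by_cases hxy : x₁ = x₂ ∧ y₁ = W'.negY x₂ y₂
    · obtain ⟨ex, ey⟩ := hxy
      subst ex
      rw [Point.add_of_Y_eq rfl ey, C.mapFun_some, C.mapFun_some, C.mapFun_zero,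
        Point.add_of_Y_eq rfl]
      rw [ey, C.negY_map]
    · have hXY : ¬(C.X x₁ = C.X x₂ ∧ C.Y x₁ y₁ = W.negY (C.X x₂) (C.Y x₂ y₂)) := by
        rintro ⟨eX, eY⟩
        obtain rfl := C.X_injective eX
        rw [C.negY_map] at eY
        exact hxy ⟨rfl, C.Y_injective _ eY⟩
      rw [Point.add_some hxy, C.mapFun_some, C.mapFun_some, C.mapFun_some, Point.add_some hXY,
        Point.some.injEq, C.slope_map h₁.1 h₂.1 hxy, C.addX_map, C.addY_map]
      exact ⟨rfl, rfl⟩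

lemma pointMap_some {x y : K} (h : W'.Nonsingular x y) :
    C.pointMap (Point.some x y h) = Point.some _ _ (C.nonsingular_map h) := rfl

lemma pointMap_injective : Function.Injective C.pointMap := by
  rintro (_ | ⟨x₁, y₁, h₁⟩) (_ | ⟨x₂, y₂, h₂⟩) h
  · rfl
  · exact absurd h.symm (Point.some_ne_zero (C.nonsingular_map h₂))
  · exact absurd h (Point.some_ne_zero (C.nonsingular_map h₁))
  · rw [C.pointMap_some, C.pointMap_some, Point.some.injEq] at h
    obtain rfl := C.X_injective h.1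
    obtain rfl := C.Y_injective _ h.2
    rfl

omit [DecidableEq K] in
/-- Every point of `W` comes from a point of `W'`. -/
lemma exists_preimage {x y : K} (h : W.Equation x y) :
    ∃ x' y', W'.Equation x' y' ∧ C.X x' = x ∧ C.Y x' y' = y := by
  have hu := C.hu
  set x' : K := (x - C.r) / C.u ^ 2 with hx'
  set y' : K := (y - C.s * (x - C.r) - C.t) / C.u ^ 3 with hy'
  have eX : C.X x' = x := by simp only [X, hx']; field_simp; ring
  have eY : C.Y x' y' = y := by simp only [Y, hx', hy']; field_simp; ring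
  exact ⟨x', y', (C.equation_iff_map x' y').mp (by rw [eX, eY]; exact h), eX, eY⟩

end PointChange

end FLTAgent.LocalEC
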