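import Fermat.Agent.LocalEC.Reduction
import Fermat.Agent.LocalEC.VarChange
import Fermat.Prelude.Def_FLTPrelim_GaloisRep

/-!
Multiplication on the kernel of reduction, through the scaled model with cuspidal reduction.
-/

set_option autoImplicit false

namespace FLTAgent.LocalEC

open WeierstrassCurve WeierstrassCurve.Affine IsLocalRing

section Cusp

variable {k : Type*} [Field k] (W : WeierstrassCurve.Affine k)

/-- The curve is `y² = x³`. -/
structure IsCusp : Prop where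
  a₁_eq : W.a₁ = 0
  a₂_eq : W.a₂ = 0
  a₃_eq : W.a₃ = 0
  a₄_eq : W.a₄ = 0
  a₆_eq : W.a₆ = 0

variable {W} (hc : IsCusp W)
include hc

lemma IsCusp.exists_param {x y : k} (h : W.Nonsingular x y) :
    ∃ t : k, t ≠ 0 ∧ x = 1 / t ^ 2 ∧ y = 1 / t ^ 3 := by
  obtain ⟨he, hns⟩ := (nonsingular_iff' ..).mp h
  rw [equation_iff] at he
  simp only [hc.a₁_eq, hc.a₂_eq, hc.a₃_eq, hc.a₄_eq, hc.a₆_eq] at he hns
  have e : y ^ 2 = x ^ 3 := by linear_combination he
  have hx : x ≠ 0 := by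
    intro hx; subst hx
    have hy : y = 0 := pow_eq_zero_iff two_ne_zero |>.mp (by rw [e]; ring)
    subst hy; simp at hns
  have hy : y ≠ 0 := by
    intro hy; subst hy; exact hx (pow_eq_zero_iff three_ne_zero |>.mp (by rw [← e]; ring))
  refine ⟨x / y, div_ne_zero hx hy, ?_, ?_⟩
  · field_simp; linear_combination -e
  · field_simp; linear_combination -e

/-- `x / y` on the points of the cuspidal curve. -/
def cuspParam : W.Point → k
  | .zero => 0
  | .some x y _ => x / y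

lemma IsCusp.cuspParam_eq_zero {P : W.Point} (h : cuspParam P = 0) : P = 0 := by
  rcases P with _ | ⟨x, y, hP⟩
  · rfl
  obtain ⟨t, ht, rfl, rfl⟩ := hc.exists_param hP
  exfalso
  simp only [cuspParam] at h
  field_simp at h
  exact ht h

variable [DecidableEq k]

/-- The isomorphism of the nonsingular part of `y² = x³` with the additive group. -/
def cuspHom : W.Point →+ k where
  toFun := cuspParam
  map_zero' := rfl
  map_add' := by
    rintro (_ | ⟨x₁, y₁, h₁⟩) (_ | ⟨x₂, y₂, h₂⟩)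
    · exact (add_zero _).symm
    · exact (zero_add _).symm
    · exact (add_zero _).symm
    obtain ⟨t₁, ht₁, rfl, rfl⟩ := hc.exists_param h₁
    obtain ⟨t₂, ht₂, rfl, rfl⟩ := hc.exists_param h₂
    have hn : ∀ x y : k, W.negY x y = -y := fun x y => by
      simp [negY, hc.a₁_eq, hc.a₃_eq]
    have hp : ∀ {t : k}, t ≠ 0 → (1 / t ^ 2) / (1 / t ^ 3) = t := fun ht => by field_simp
    by_cases hs : t₁ + t₂ = 0
    · obtain rfl : t₂ = -t₁ := (neg_eq_of_add_eq_zero_right hs).symm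
      rw [Point.add_of_Y_eq (by ring) (by rw [hn]; ring)]
      show (0 : k) = 1 / t₁ ^ 2 / (1 / t₁ ^ 3) + 1 / (-t₁) ^ 2 / (1 / (-t₁) ^ 3)
      rw [hp ht₁, hp (neg_ne_zero.mpr ht₁)]; ring
    have hxy : ¬(1 / t₁ ^ 2 = 1 / t₂ ^ 2 ∧ 1 / t₁ ^ 3 = W.negY (1 / t₂ ^ 2) (1 / t₂ ^ 3)) := by
      rintro ⟨ex, ey⟩
      rw [hn] at ey
      apply hs
      have h2 : 1 / t₂ ^ 2 / (1 / t₂ ^ 3) = -(1 / t₁ ^ 2 / (1 / t₁ ^ 3)) := by
        rw [← ex, ey]; field_simp
      rw [hp ht₁, hp ht₂] at h2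
      rw [h2]; ring
    have hl : W.slope (1 / t₁ ^ 2) (1 / t₂ ^ 2) (1 / t₁ ^ 3) (1 / t₂ ^ 3) =
        (t₁ ^ 2 + t₁ * t₂ + t₂ ^ 2) / (t₁ * t₂ * (t₁ + t₂)) := by
      by_cases hx : (1 : k) / t₁ ^ 2 = 1 / t₂ ^ 2
      · have hy : (1 : k) / t₁ ^ 3 ≠ W.negY (1 / t₂ ^ 2) (1 / t₂ ^ 3) := fun e => hxy ⟨hx, e⟩
        have hyy := Y_eq_of_Y_ne h₁.1 h₂.1 hx hy
        obtain rfl : t₁ = t₂ := by rw [← hp ht₁, ← hp ht₂, hx, hyy]
        have h2 : (2 : k) ≠ 0 := fun e => hs (by rw [← two_mul, e, zero_mul])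
        rw [slope_of_Y_ne hx hy, hn, hc.a₁_eq, hc.a₂_eq, hc.a₄_eq,
          show 1 / t₁ ^ 3 - -(1 / t₁ ^ 3) = 2 / t₁ ^ 3 by ring,
          div_eq_div_iff (div_ne_zero h2 (pow_ne_zero 3 ht₁))
            (mul_ne_zero (mul_ne_zero ht₁ ht₁) hs)]
        field_simp
        ring
      · rw [slope_of_X_ne hx]
        have hne : t₁ ^ 2 - t₂ ^ 2 ≠ 0 := fun e => hx (by rw [sub_eq_zero.mp e])
        have hne' : t₂ ^ 2 - t₁ ^ 2 ≠ 0 := fun e => hne (by linear_combination -e)
        have hne'' : t₂ - t₁ ≠ 0 := fun e => hne (by rw [sub_eq_zero.mp e]; ring)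
        rw [show (1 : k) / t₁ ^ 2 - 1 / t₂ ^ 2 = (t₂ ^ 2 - t₁ ^ 2) / (t₁ ^ 2 * t₂ ^ 2) by
            field_simp,
          show (1 : k) / t₁ ^ 3 - 1 / t₂ ^ 3 = (t₂ ^ 3 - t₁ ^ 3) / (t₁ ^ 3 * t₂ ^ 3) by
            field_simp]
        rw [div_div_div_eq, div_eq_div_iff
          (mul_ne_zero (mul_ne_zero (pow_ne_zero 3 ht₁) (pow_ne_zero 3 ht₂)) hne')
          (mul_ne_zero (mul_ne_zero ht₁ ht₂) hs)]
        ring
    rw [Point.add_some hxy]
    simp only [cuspParam]
    rw [hp ht₁, hp ht₂]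
    have ex : W.addX (1 / t₁ ^ 2) (1 / t₂ ^ 2)
        ((t₁ ^ 2 + t₁ * t₂ + t₂ ^ 2) / (t₁ * t₂ * (t₁ + t₂))) = 1 / (t₁ + t₂) ^ 2 := by
      simp only [addX, hc.a₁_eq, hc.a₂_eq]
      field_simp
      ring
    have ey : W.addY (1 / t₁ ^ 2) (1 / t₂ ^ 2) (1 / t₁ ^ 3)
        ((t₁ ^ 2 + t₁ * t₂ + t₂ ^ 2) / (t₁ * t₂ * (t₁ + t₂))) = 1 / (t₁ + t₂) ^ 3 := by
      simp only [addY, negAddY, hn]
      rw [ex]
      field_simp
      ring
    rw [hl, ex, ey]
    exact hp hs

lemma cuspHom_apply (P : W.Point) : cuspHom hc P = cuspParam P := rfl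

end Cusp

variable {K : Type*} [Field K] {A : ValuationSubring K} {W : WeierstrassCurve.Affine K}

/-- On `E₁` one has `v(y)² = v(x)³` and `v(x) < v(y)`. -/
lemma val_sq_eq_cube (hW : IntCoeff A W) {x y : K} (h : W.Equation x y) (hx : x ∉ A) :
    A.valuation y ^ 2 = A.valuation x ^ 3 ∧ A.valuation x < A.valuation y := by
  rw [not_mem_iff_one_lt_val] at hx
  rw [equation_iff] at h
  have hx0 : (0 : A.ValueGroup) < A.valuation x := zero_lt_one.trans hx
  have hr : A.valuation (x ^ 3 + W.a₂ * x ^ 2 + W.a₄ * x + W.a₆) = A.valuation x ^ 3 := by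
    have hlt : A.valuation (W.a₂ * x ^ 2 + W.a₄ * x + W.a₆) < A.valuation (x ^ 3) := by
      rw [map_pow]
      refine A.valuation.map_add_lt (A.valuation.map_add_lt ?_ ?_) ?_
      · rw [map_mul, map_pow]
        exact (mul_le_of_le_one_left' (val_le_one hW.mem₂)).trans_lt
          (pow_lt_pow_right₀ hx (by norm_num))
      · rw [map_mul]
        exact (mul_le_of_le_one_left' (val_le_one hW.mem₄)).trans_lt
          (lt_self_pow₀ hx (by norm_num))
      · exact (val_le_one hW.mem₆).trans_lt (one_lt_pow₀ hx (by norm_num))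
    have := A.valuation.map_add_eq_of_lt_left hlt
    rw [← map_pow, ← this]; congr 1; ring
  have hxy : A.valuation x < A.valuation y := by
    by_contra hle
    rw [not_lt] at hle
    have : A.valuation (y ^ 2 + W.a₁ * x * y + W.a₃ * y) ≤ A.valuation x ^ 2 := by
      refine A.valuation.map_add_le (A.valuation.map_add_le ?_ ?_) ?_
      · rw [map_pow]; exact pow_le_pow_left₀ zero_le hle 2
      · rw [map_mul, map_mul, sq]
        exact mul_le_mul' (mul_le_of_le_one_left' (val_le_one hW.mem₁)) hle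
      · rw [map_mul]
        exact (mul_le_of_le_one_left' (val_le_one hW.mem₃)).trans
          (hle.trans (le_self_pow₀ hx.le two_ne_zero))
    rw [h, hr] at this
    exact absurd this (not_le.mpr (pow_lt_pow_right₀ hx (by norm_num)))
  refine ⟨?_, hxy⟩
  have hy0 : (0 : A.ValueGroup) < A.valuation y := hx0.trans hxy
  have hlt : A.valuation (W.a₁ * x * y + W.a₃ * y) < A.valuation (y ^ 2) := by
    rw [map_pow, sq]
    refine A.valuation.map_add_lt ?_ ?_
    · rw [map_mul, map_mul]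
      exact mul_lt_mul_of_pos_right
        ((mul_le_of_le_one_left' (val_le_one hW.mem₁)).trans_lt hxy) hy0
    · rw [map_mul]
      exact mul_lt_mul_of_pos_right ((val_le_one hW.mem₃).trans_lt (hx.trans hxy)) hy0
  have := A.valuation.map_add_eq_of_lt_left hlt
  rw [← add_assoc, h, hr, map_pow] at this
  exact this.symm

variable [DecidableEq K]

/-- Multiplication by a natural number that is a unit, on `E₁`: it preserves the valuation of
`x / y` and multiplies its leading term by that number. -/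
theorem e1_nsmul (hW : IntCoeff A W) {x y : K} {h : W.Nonsingular x y} (hx : x ∉ A) {k : ℕ}
    (hk : A.valuation (k : K) = 1) :
    ∃ x' y' h', k • Point.some x y h = Point.some x' y' h' ∧ x' ∉ A ∧
      A.valuation x' = A.valuation x ∧
      A.valuation ((x' / y') / (x / y) - k) < 1 := by
  classical
  obtain ⟨hyx, hlt⟩ := val_sq_eq_cube hW h.1 hx
  have hx1 := not_mem_iff_one_lt_val.mp hx
  have hx0 : x ≠ 0 := A.valuation.pos_iff.mp (zero_lt_one.trans hx1)
  have hy0 : y ≠ 0 := A.valuation.pos_iff.mp ((zero_lt_one.trans hx1).trans hlt)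
  set U : K := y / x with hU
  have hU0 : U ≠ 0 := div_ne_zero hy0 hx0
  have hU1 : 1 < A.valuation U := by
    rw [hU, map_div₀, one_lt_div₀ (A.valuation.pos_iff.mpr hx0)]; exact hlt
  let W' : WeierstrassCurve.Affine K :=
    ⟨W.a₁ / U, W.a₂ / U ^ 2, W.a₃ / U ^ 3, W.a₄ / U ^ 4, W.a₆ / U ^ 6⟩
  let C : PointChange W W' :=
    { u := U, r := 0, s := 0, t := 0, hu := hU0
      h₁ := by simp only [W']; field_simp; ring
      h₂ := by simp only [W']; field_simp; ring
      h₃ := by simp only [W']; field_simp; ring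
      h₄ := by simp only [W']; field_simp; ring
      h₆ := by simp only [W']; field_simp; ring }
  have hsmall : ∀ {a : K} {i : ℕ}, a ∈ A → i ≠ 0 → A.valuation (a / U ^ i) < 1 := fun ha hi => by
    rw [map_div₀, map_pow, div_lt_one₀ (pow_pos (zero_lt_one.trans hU1) _)]
    exact (val_le_one ha).trans_lt (one_lt_pow₀ hU1 hi)
  have hs₁ : A.valuation (W.a₁ / U) < 1 := by
    have := hsmall (i := 1) hW.mem₁ one_ne_zero; rwa [pow_one] at this
  have hW' : IntCoeff A W' := ⟨mem_of_val_le_one hs₁.le,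
    mem_of_val_le_one (hsmall hW.mem₂ two_ne_zero).le,
    mem_of_val_le_one (hsmall hW.mem₃ (by norm_num)).le,
    mem_of_val_le_one (hsmall hW.mem₄ (by norm_num)).le,
    mem_of_val_le_one (hsmall hW.mem₆ (by norm_num)).le⟩
  have hc : IsCusp hW'.redCurve :=
    ⟨(residue_eq_zero_iff_val_lt_one _).mpr hs₁,
      (residue_eq_zero_iff_val_lt_one _).mpr (hsmall hW.mem₂ two_ne_zero),
      (residue_eq_zero_iff_val_lt_one _).mpr (hsmall hW.mem₃ (by norm_num)),
      (residue_eq_zero_iff_val_lt_one _).mpr (hsmall hW.mem₄ (by norm_num)),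
      (residue_eq_zero_iff_val_lt_one _).mpr (hsmall hW.mem₆ (by norm_num))⟩
  -- the scaled point is `(ε, ε)` with `ε = x³/y²` a unit
  set ε : K := x ^ 3 / y ^ 2 with hε
  have hεv : A.valuation ε = 1 := by
    rw [hε, map_div₀, map_pow, map_pow, hyx, div_self (pow_ne_zero 3 (A.valuation.pos_iff.mpr hx0).ne')]
  have hεA : ε ∈ A := mem_of_val_le_one hεv.le
  have eX : C.X ε = x := by simp only [PointChange.X, C, hU, hε]; field_simp; ring
  have eY : C.Y ε ε = y := by simp only [PointChange.Y, C, hU, hε]; field_simp; ring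
  have he' : W'.Equation ε ε := (C.equation_iff_map ε ε).mp (by rw [eX, eY]; exact h.1)
  have hεr : residue A ⟨ε, hεA⟩ ≠ 0 := (residue_ne_zero_iff_val_eq_one _).mpr hεv
  have hred : hW'.redCurve.Nonsingular (residue A ⟨ε, hεA⟩) (residue A ⟨ε, hεA⟩) := by
    rw [nonsingular_iff']
    refine ⟨hW'.equation_residue (x := ⟨ε, hεA⟩) (y := ⟨ε, hεA⟩) he', ?_⟩
    by_contra hcon
    rw [not_or, not_not, not_not] at hcon
    obtain ⟨c1, c2⟩ := hcon
    simp only [hc.a₁_eq, hc.a₂_eq, hc.a₃_eq, hc.a₄_eq, zero_mul, mul_zero, add_zero,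
      zero_sub, neg_eq_zero] at c1 c2
    refine hεr ((mul_eq_zero.mp ?_).resolve_left one_ne_zero)
    have : (3 * residue A ⟨ε, hεA⟩ ^ 2) - residue A ⟨ε, hεA⟩ * (2 * residue A ⟨ε, hεA⟩) = 0 := by
      rw [c1, c2]; ring
    rw [one_mul]
    exact pow_eq_zero_iff two_ne_zero |>.mp (by linear_combination this)
  have hn' : W'.Nonsingular ε ε := C.nonsingular_of_map he' (by rw [eX, eY]; exact h)
  set P' : W'.Point := Point.some ε ε hn'
  have hP : C.pointMap P' = Point.some x y h := by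
    rw [C.pointMap_some, Point.some.injEq]; exact ⟨eX, eY⟩
  have hP0 : InE0 hW' P' := Or.inr ⟨hεA, hεA, hred⟩
  have hkP : InE0 hW' (k • P') :=
    (mem_e0Subgroup hW').mp (nsmul_mem ((mem_e0Subgroup hW').mpr hP0) k)
  have hparam : cuspHom hc (red hW' P') = 1 := by
    rw [red_some hW' hεA hεA hred, cuspHom_apply]; exact div_self hεr
  have hcoord : cuspHom hc (red hW' (k • P')) = (k : ResidueField A) := by
    have := congrArg (cuspHom hc) (map_nsmul (redHom hW') k ⟨P', hP0⟩)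
    rw [map_nsmul (cuspHom hc), redHom_apply, redHom_apply, AddSubgroup.coe_nsmul] at this
    rw [this, hparam, nsmul_one]
  have hkr : (k : ResidueField A) ≠ 0 := by
    rw [← map_natCast (residue A)]
    exact (residue_ne_zero_iff_val_eq_one _).mpr (by push_cast; exact hk)
  rcases hQ : k • P' with _ | ⟨x₁, y₁, h₁⟩
  · exfalso; apply hkr
    rw [← hcoord, hQ]; rfl
  rw [hQ] at hkP hcoord
  rcases hkP with hx₁ | ⟨hx₁, hy₁, hns₁⟩
  · exfalso; apply hkr
    rw [← hcoord, red_of_inE1 hW' (P := Point.some x₁ y₁ h₁) hx₁]; exact map_zero _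
  rw [red_some hW' hx₁ hy₁ hns₁, cuspHom_apply] at hcoord
  obtain ⟨s, hs0, hsx, hsy⟩ := hc.exists_param hns₁
  have hxv : A.valuation x₁ = 1 :=
    (residue_ne_zero_iff_val_eq_one ⟨x₁, hx₁⟩).mp (hsx ▸ one_div_ne_zero (pow_ne_zero 2 hs0))
  have hyr : residue A ⟨y₁, hy₁⟩ ≠ 0 := hsy ▸ one_div_ne_zero (pow_ne_zero 3 hs0)
  have hyv : A.valuation y₁ = 1 := (residue_ne_zero_iff_val_eq_one ⟨y₁, hy₁⟩).mp hyr
  refine ⟨C.X x₁, C.Y x₁ y₁, C.nonsingular_map h₁, ?_, ?_, ?_, ?_⟩
  · rw [← hP, ← map_nsmul, hQ, C.pointMap_some]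
  · rw [not_mem_iff_one_lt_val]
    simp only [PointChange.X, C, add_zero, map_mul, map_pow, hxv, mul_one]
    exact one_lt_pow₀ hU1 two_ne_zero
  · simp only [PointChange.X, C, add_zero, map_mul, map_pow, hxv, mul_one, hU, map_div₀, div_pow,
      hyx]
    rw [div_eq_iff (pow_ne_zero 2 (A.valuation.pos_iff.mpr hx0).ne')]
    exact pow_succ' _ _
  · have hy₁0 : y₁ ≠ 0 := fun e => by rw [e, map_zero] at hyv; exact zero_ne_one hyv
    have e : C.X x₁ / C.Y x₁ y₁ / (x / y) = x₁ / y₁ := by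
      simp only [PointChange.X, PointChange.Y, C, hU]; field_simp; ring
    rw [e]
    have hsub : A.valuation (x₁ - k * y₁) < 1 := by
      have h0 : residue A (⟨x₁, hx₁⟩ - (k : A) * ⟨y₁, hy₁⟩) = 0 := by
        rw [map_sub, map_mul, map_natCast, ← hcoord]
        show _ - residue A ⟨x₁, hx₁⟩ / residue A ⟨y₁, hy₁⟩ * _ = 0
        rw [div_mul_cancel₀ _ hyr, sub_self]
      have := (residue_eq_zero_iff_val_lt_one _).mp h0
      push_cast at this
      exact this
    rw [div_sub' hy₁0, map_div₀, hyv, div_one, mul_comm y₁]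
    exact hsub

/-- `E₁` has no torsion of order prime to the residue characteristic. -/
theorem eq_zero_of_inE1_of_nsmul (hW : IntCoeff A W) {P : W.Point} (hP : InE1 A P) {k : ℕ}
    (hk : A.valuation (k : K) = 1) (h : k • P = 0) : P = 0 := by
  rcases P with _ | ⟨x, y, hxy⟩
  · rfl
  obtain ⟨x', y', h', e, -⟩ := e1_nsmul hW (h := hxy) hP hk
  exact absurd (e.symm.trans h) (Point.some_ne_zero h')

end FLTAgent.LocalEC
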