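import Fermat.Agent.LocalEC.Inertia
import Fermat.Agent.LocalEC.Formal
import Fermat.Prelude.Def_FLTPrelim_Ramification

/-!
Inertia, places of `ℚ̄`, and integers at a place.
-/

set_option autoImplicit false

namespace FLTAgent.LocalEC

open WeierstrassCurve WeierstrassCurve.Affine IsLocalRing

variable {K L : Type*} [Field K] [Field L] [Algebra K L]

/-- Elements of the inertia group are trivial on the residue field. -/
lemma residueFix_of_mem_inertia {A : ValuationSubring L} {σ : L ≃ₐ[K] L}
    (hσ : σ ∈ A.inertiaSubgroupIn K) : ResidueFix A (σ : L →+* L) := by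
  obtain ⟨g, hg, rfl⟩ := Subgroup.mem_map.mp hσ
  intro z hz
  have h1 : g • residue A ⟨z, hz⟩ = residue A ⟨z, hz⟩ :=
    RingEquiv.congr_fun (MonoidHom.mem_ker.mp hg) (residue A ⟨z, hz⟩)
  have h2 : residue A (g • (⟨z, hz⟩ : A)) = residue A ⟨z, hz⟩ := by
    rw [IsLocalRing.ResidueField.residue_smul]; exact h1
  have h3 := (residue_eq_iff_val_sub_lt_one _ _).mp h2
  exact h3

variable {A : ValuationSubring L}

/-- An integer not divisible by the residue characteristic is a unit at the place. -/
lemma val_intCast_eq_one {q : ℕ} (hA : A.LiesOverPrime q) (hq : q.Prime) {n : ℤ}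
    (hn : ¬(q : ℤ) ∣ n) : A.valuation (n : L) = 1 := by
  refine le_antisymm (val_le_one (intCast_mem A n)) ?_
  by_contra hlt
  rw [not_le] at hlt
  obtain ⟨a, b, hab⟩ : IsCoprime (q : ℤ) n :=
    ((Nat.prime_iff_prime_int.mp hq).coprime_iff_not_dvd).mpr hn
  have h : A.valuation ((a : L) * (q : L) + (b : L) * (n : L)) < 1 := by
    refine A.valuation.map_add_lt ?_ ?_ <;> rw [map_mul]
    · exact (mul_le_of_le_one_left' (val_le_one (intCast_mem A a))).trans_lt
        (A.mem_nonunits_iff.mp hA)
    · exact (mul_le_of_le_one_left' (val_le_one (intCast_mem A b))).trans_lt hlt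
  have e : (a : L) * (q : L) + (b : L) * (n : L) = 1 := by exact_mod_cast congrArg (Int.cast : ℤ → L) hab
  rw [e, map_one] at h
  exact lt_irrefl 1 h

lemma val_natCast_eq_one {q : ℕ} (hA : A.LiesOverPrime q) (hq : q.Prime) {n : ℕ}
    (hn : ¬q ∣ n) : A.valuation (n : L) = 1 := by
  have := val_intCast_eq_one hA hq (n := (n : ℤ)) (by exact_mod_cast hn)
  rwa [Int.cast_natCast] at this

lemma val_intCast_lt_one {q : ℕ} (hA : A.LiesOverPrime q) {n : ℤ}
    (hn : (q : ℤ) ∣ n) : A.valuation (n : L) < 1 := by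
  obtain ⟨m, rfl⟩ := hn
  push_cast
  rw [map_mul]
  exact (mul_le_of_le_one_right' (val_le_one (intCast_mem A m))).trans_lt
    (A.mem_nonunits_iff.mp hA)

/-- At a model with unit discriminant every point has nonsingular reduction. -/
lemma inE0_of_val_disc {W : WeierstrassCurve.Affine L} (hW : IntCoeff A W)
    (hΔ : A.valuation W.Δ = 1) (P : W.Point) : InE0 hW P := by
  rcases P with _ | ⟨x, y, h⟩
  · exact trivial
  by_cases hx : x ∈ A
  swap
  · exact Or.inl hx
  have hy := hW.y_mem h.1 hx
  refine Or.inr ⟨hx, hy, (equation_iff_nonsingular_of_Δ_ne_zero ?_).mp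
    (hW.equation_residue (x := ⟨x, hx⟩) (y := ⟨y, hy⟩) h.1)⟩
  rw [IntCoeff.redCurve, WeierstrassCurve.map_Δ]
  refine (residue_ne_zero_iff_val_eq_one _).mpr ?_
  have e : ((hW.model.Δ : A) : L) = W.Δ := by
    conv_rhs => rw [← hW.model_map, WeierstrassCurve.map_Δ]
    rfl
  rw [e]; exact hΔ

variable [DecidableEq L]

/-- A change of variables with `u = 1` and integral `r` respects `E₁`. -/
lemma inE1_pointMap {W W' : WeierstrassCurve.Affine L} (C : PointChange W W') (hu : C.u = 1)
    (hr : C.r ∈ A) {P : W'.Point} : InE1 A (C.pointMap P) ↔ InE1 A P := by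
  rcases P with _ | ⟨x, y, h⟩
  · exact iff_of_true trivial trivial
  rw [C.pointMap_some, inE1_some_iff, inE1_some_iff, PointChange.X, hu, one_pow, one_mul]
  exact not_congr (add_mem_cancel_right hr)

end FLTAgent.LocalEC
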