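import Fermat.Agent.LocalEC.Formulas
import Mathlib.Algebra.Polynomial.Roots
import Mathlib.SetTheory.Cardinal.Finite

/-!
The nonsingular points of a nodal cubic form a multiplicative group.
-/

set_option autoImplicit false

namespace FLTAgent.LocalEC

open WeierstrassCurve WeierstrassCurve.Affine

variable {k : Type*} [Field k] (W : WeierstrassCurve.Affine k)

/-- `y² + a₁xy = x³ + a₂x²` with distinct tangent slopes `r` and `r'` at the node. -/
structure IsNodal (r r' : k) : Prop where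
  a₁_eq : W.a₁ = -(r + r')
  a₂_eq : W.a₂ = -(r * r')
  a₃_eq : W.a₃ = 0
  a₄_eq : W.a₄ = 0
  a₆_eq : W.a₆ = 0
  ne : r ≠ r'

variable {W} {r r' : k} (hc : IsNodal W r r')
include hc

lemma IsNodal.exists_param {x y : k} (h : W.Nonsingular x y) :
    ∃ w : k, w ≠ 0 ∧ w ≠ 1 ∧ x = (r - r') ^ 2 * w / (1 - w) ^ 2 ∧
      y = (r - r') ^ 2 * w / (1 - w) ^ 2 * ((r - r' * w) / (1 - w)) := by
  obtain ⟨he, hns⟩ := (nonsingular_iff' ..).mp h
  rw [equation_iff] at he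
  simp only [hc.a₁_eq, hc.a₂_eq, hc.a₃_eq, hc.a₄_eq, hc.a₆_eq] at he hns
  have hx : x ≠ 0 := by
    intro hx; subst hx
    have hy : y = 0 := pow_eq_zero_iff two_ne_zero |>.mp (by linear_combination he)
    subst hy; simp at hns
  obtain ⟨s, rfl⟩ : ∃ s, y = s * x := ⟨y / x, (div_mul_cancel₀ y hx).symm⟩
  have hs : (s - r) * (s - r') = x := by
    apply mul_left_cancel₀ (pow_ne_zero 2 hx)
    linear_combination he
  have h1 : s - r ≠ 0 := fun e => hx (by rw [← hs, e, zero_mul])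
  have h2 : s - r' ≠ 0 := fun e => hx (by rw [← hs, e, mul_zero])
  have hd : r - r' ≠ 0 := sub_ne_zero.mpr hc.ne
  set w := (s - r) / (s - r') with hw
  have hw1 : 1 - w = (r - r') / (s - r') := by
    rw [hw, eq_div_iff h2, sub_mul, div_mul_cancel₀ _ h2]; ring
  refine ⟨w, div_ne_zero h1 h2, fun e => ?_, ?_, ?_⟩
  · rw [e, sub_self] at hw1; exact div_ne_zero hd h2 hw1.symm
  · rw [hw1, hw, ← hs]; field_simp
  · rw [hw1, hw, ← hs]; field_simp; ring

omit hc in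
/-- `(y - r x) / (y - r' x)` on the points of a nodal cubic. -/
def nodeParam (r r' : k) : W.Point → k
  | .zero => 1
  | .some x y _ => (y - r * x) / (y - r' * x)

lemma IsNodal.param_eq {w : k} (hw0 : w ≠ 0) (hw1 : w ≠ 1) :
    ((r - r') ^ 2 * w / (1 - w) ^ 2 * ((r - r' * w) / (1 - w)) -
        r * ((r - r') ^ 2 * w / (1 - w) ^ 2)) /
      ((r - r') ^ 2 * w / (1 - w) ^ 2 * ((r - r' * w) / (1 - w)) -
        r' * ((r - r') ^ 2 * w / (1 - w) ^ 2)) = w := by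
  have hd : r - r' ≠ 0 := sub_ne_zero.mpr hc.ne
  have h1 : 1 - w ≠ 0 := sub_ne_zero.mpr (Ne.symm hw1)
  set g := (r - r') ^ 2 * w / (1 - w) ^ 2
  have hg : g ≠ 0 := div_ne_zero (mul_ne_zero (pow_ne_zero 2 hd) hw0) (pow_ne_zero 2 h1)
  have e1 : g * ((r - r' * w) / (1 - w)) - r * g = g * (r - r') * w / (1 - w) := by
    field_simp; ring
  have e2 : g * ((r - r' * w) / (1 - w)) - r' * g = g * (r - r') / (1 - w) := by
    field_simp; ring
  rw [e1, e2]
  field_simp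

lemma IsNodal.nodeParam_injective : Function.Injective (nodeParam (W := W) r r') := by
  rintro (_ | ⟨x₁, y₁, h₁⟩) (_ | ⟨x₂, y₂, h₂⟩) h
  · rfl
  · obtain ⟨w, hw0, hw1, rfl, rfl⟩ := hc.exists_param h₂
    simp only [nodeParam, hc.param_eq hw0 hw1] at h
    exact absurd h.symm hw1
  · obtain ⟨w, hw0, hw1, rfl, rfl⟩ := hc.exists_param h₁
    simp only [nodeParam, hc.param_eq hw0 hw1] at h
    exact absurd h hw1
  · obtain ⟨w, hw0, hw1, rfl, rfl⟩ := hc.exists_param h₁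
    obtain ⟨w', hw0', hw1', rfl, rfl⟩ := hc.exists_param h₂
    simp only [nodeParam, hc.param_eq hw0 hw1, hc.param_eq hw0' hw1'] at h
    subst h
    rfl

variable [DecidableEq k]

lemma IsNodal.nodeParam_add (P Q : W.Point) :
    nodeParam r r' (P + Q) = nodeParam r r' P * nodeParam r r' Q := by
  rcases P with _ | ⟨x₁, y₁, h₁⟩
  · rw [← Point.zero_def, zero_add]; exact (one_mul _).symm
  rcases Q with _ | ⟨x₂, y₂, h₂⟩
  · rw [← Point.zero_def, add_zero]; exact (mul_one _).symm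
  have hd : r - r' ≠ 0 := sub_ne_zero.mpr hc.ne
  obtain ⟨w₁, hw₁0, hw₁1, rfl, rfl⟩ := hc.exists_param h₁
  obtain ⟨w₂, hw₂0, hw₂1, rfl, rfl⟩ := hc.exists_param h₂
  have u₁ : 1 - w₁ ≠ 0 := sub_ne_zero.mpr (Ne.symm hw₁1)
  have u₂ : 1 - w₂ ≠ 0 := sub_ne_zero.mpr (Ne.symm hw₂1)
  have hn : ∀ x y : k, W.negY x y = -y + (r + r') * x := fun x y => by
    simp only [negY, hc.a₁_eq, hc.a₃_eq]; ring
  by_cases hww : w₁ * w₂ = 1
  · obtain rfl : w₂ = 1 / w₁ := by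
      rw [eq_div_iff hw₁0, mul_comm]; exact hww
    rw [Point.add_of_Y_eq ?_ ?_]
    · simp only [nodeParam]
      rw [hc.param_eq hw₁0 hw₁1, hc.param_eq hw₂0 hw₂1]
      show (1 : k) = _
      exact hww.symm
    · have : 1 - 1 / w₁ = -((1 - w₁) / w₁) := by field_simp; ring
      rw [this]; field_simp
    · rw [hn]
      have : 1 - 1 / w₁ = -((1 - w₁) / w₁) := by field_simp; ring
      rw [this]; field_simp; ring
  have u₃ : 1 - w₁ * w₂ ≠ 0 := sub_ne_zero.mpr (Ne.symm hww)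
  set X₁ := (r - r') ^ 2 * w₁ / (1 - w₁) ^ 2 with hX₁
  set X₂ := (r - r') ^ 2 * w₂ / (1 - w₂) ^ 2 with hX₂
  set Y₁ := X₁ * ((r - r' * w₁) / (1 - w₁)) with hY₁
  set Y₂ := X₂ * ((r - r' * w₂) / (1 - w₂)) with hY₂
  have hxy : ¬(X₁ = X₂ ∧ Y₁ = W.negY X₂ Y₂) := by
    rintro ⟨ex, ey⟩
    have hp₁ := hc.param_eq hw₁0 hw₁1
    have hp₂ := hc.param_eq hw₂0 hw₂1
    simp only [← hX₁, ← hY₁] at hp₁
    simp only [← hX₂, ← hY₂] at hp₂
    have hw : w₁ = (Y₂ - r' * X₂) / (Y₂ - r * X₂) := by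
      rw [hn, ← ex] at ey
      rw [← ex]
      rw [ey, ex] at hp₁
      rw [← hp₁, ex, ← neg_div_neg_eq]
      ring_nf
    apply hww
    rw [hw, ← inv_div, hp₂, inv_mul_cancel₀ hw₂0]
  have hl : W.slope X₁ X₂ Y₁ Y₂ = r' + (r - r') * (1 - 3 * w₁ * w₂ + w₁ * w₂ * (w₁ + w₂)) /
      ((1 - w₁ * w₂) * (1 - w₁) * (1 - w₂)) := by
    have hden : (1 - w₁ * w₂) * (1 - w₁) * (1 - w₂) ≠ 0 := mul_ne_zero (mul_ne_zero u₃ u₁) u₂
    by_cases hx : X₁ = X₂
    · have hy : Y₁ ≠ W.negY X₂ Y₂ := fun e => hxy ⟨hx, e⟩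
      have hyy := Y_eq_of_Y_ne h₁.1 h₂.1 hx hy
      obtain rfl : w₁ = w₂ := by
        have hp₁ := hc.param_eq hw₁0 hw₁1
        have hp₂ := hc.param_eq hw₂0 hw₂1
        simp only [← hX₁, ← hY₁] at hp₁
        simp only [← hX₂, ← hY₂] at hp₂
        rw [← hp₁, ← hp₂, hx, hyy]
      rw [slope_of_Y_ne hx hy, y_sub_negY, psi, hc.a₁_eq, hc.a₂_eq, hc.a₃_eq, hc.a₄_eq, add_zero]
      have u₄ : 1 + w₁ ≠ 0 := fun e => u₃ (by linear_combination (1 - w₁) * e)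
      have hψ : 2 * Y₁ + -(r + r') * X₁ = (r - r') ^ 3 * w₁ * (1 + w₁) / (1 - w₁) ^ 3 := by
        simp only [hY₁, hX₁]; field_simp; ring
      rw [hψ, add_zero, div_eq_iff (div_ne_zero (mul_ne_zero (mul_ne_zero (pow_ne_zero 3 hd) hw₁0) u₄)
        (pow_ne_zero 3 u₁)), show 1 - w₁ * w₁ = (1 - w₁) * (1 + w₁) by ring]
      simp only [hY₁, hX₁]
      field_simp
      ring
    · rw [slope_of_X_ne hx, div_eq_iff (sub_ne_zero.mpr hx)]
      simp only [hY₁, hY₂, hX₁, hX₂]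
      field_simp
      ring
  rw [Point.add_some hxy]
  simp only [nodeParam]
  rw [hl]
  set l := r' + (r - r') * (1 - 3 * w₁ * w₂ + w₁ * w₂ * (w₁ + w₂)) /
      ((1 - w₁ * w₂) * (1 - w₁) * (1 - w₂)) with hldef
  have ex : W.addX X₁ X₂ l = (r - r') ^ 2 * (w₁ * w₂) / (1 - w₁ * w₂) ^ 2 := by
    simp only [addX, hc.a₁_eq, hc.a₂_eq, hX₁, hX₂, hldef]
    field_simp
    ring
  have ey : W.addY X₁ X₂ Y₁ l = (r - r') ^ 2 * (w₁ * w₂) / (1 - w₁ * w₂) ^ 2 *
      ((r - r' * (w₁ * w₂)) / (1 - w₁ * w₂)) := by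
    simp only [addY, negAddY, hn]
    rw [ex]
    simp only [hY₁, hX₁, hldef]
    field_simp
    ring
  rw [ex, ey, hc.param_eq (mul_ne_zero hw₁0 hw₂0) hww, hc.param_eq hw₁0 hw₁1,
    hc.param_eq hw₂0 hw₂1]

/-- A nodal cubic has at most `n` points killed by `n`. -/
theorem IsNodal.card_nsmul_eq_zero_le {n : ℕ} (hn : 0 < n) {S : Finset W.Point}
    (hS : ∀ P ∈ S, n • P = 0) : S.card ≤ n := by
  have hpow : ∀ (m : ℕ) (P : W.Point), nodeParam r r' (m • P) = nodeParam r r' P ^ m := by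
    intro m P
    induction m with
    | zero => rw [zero_nsmul, pow_zero]; rfl
    | succ m IH => rw [succ_nsmul, hc.nodeParam_add, IH, pow_succ]
  rw [← Finset.card_image_of_injective S hc.nodeParam_injective]
  refine (Finset.card_le_card (t := (Polynomial.nthRoots n (1 : k)).toFinset) fun w hw => ?_).trans
    ((Multiset.toFinset_card_le _).trans (Polynomial.card_nthRoots _ _))
  obtain ⟨P, hP, rfl⟩ := Finset.mem_image.mp hw
  rw [Multiset.mem_toFinset, Polynomial.mem_nthRoots hn, ← hpow, hS P hP]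
  rfl

end FLTAgent.LocalEC
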