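import Fermat.Agent.LocalEC.MulPolyOdd
import Fermat.Agent.LocalEC.Galois
import Mathlib.RingTheory.RootsOfUnity.Lemmas
import Mathlib.RingTheory.RootsOfUnity.CyclotomicUnits

/-!
The sizes of the abscissae of the `p`-torsion at a place over `p`.
-/

set_option autoImplicit false

namespace FLTAgent.LocalEC

open WeierstrassCurve WeierstrassCurve.Affine IsLocalRing Polynomial FLTAgent.Torsion

variable {K : Type*} [Field K] [DecidableEq K] [IsAlgClosed K] [CharZero K]
  {A : ValuationSubring K} {W : WeierstrassCurve.Affine K} [W.IsElliptic]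

omit [DecidableEq K] [IsAlgClosed K] [CharZero K] [W.IsElliptic] in
/-- At an integral two-torsion point with nonsingular reduction: a point of `W` with congruent
abscissa has the same reduction. -/
private lemma red_eq_of_congr [DecidableEq (ResidueField A)] (hW : IntCoeff A W) {x₀ y₀ r s : K}
    (hx₀ : x₀ ∈ A) (hy₀ : y₀ ∈ A) (h₀ : W.Nonsingular x₀ y₀) (hψ : psi W x₀ y₀ = 0)
    (hns : hW.redCurve.Nonsingular (residue A ⟨x₀, hx₀⟩) (residue A ⟨y₀, hy₀⟩))
    (h : W.Nonsingular r s) (hr : r ∈ A) (hc : A.valuation (x₀ - r) < 1) :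
    InE0 hW (Point.some r s h) ∧ red hW (Point.some r s h) = Point.some _ _ hns := by
  have hs := hW.y_mem h.1 hr
  have ex : residue A ⟨r, hr⟩ = residue A ⟨x₀, hx₀⟩ :=
    ((residue_eq_iff_val_sub_lt_one ⟨x₀, hx₀⟩ ⟨r, hr⟩).mpr hc).symm
  have hneg : W.negY x₀ y₀ ∈ A := hW.y_mem ((equation_neg _ _).mpr h₀.1) hx₀
  have hself : hW.redCurve.negY (residue A ⟨x₀, hx₀⟩) (residue A ⟨y₀, hy₀⟩) =
      residue A ⟨y₀, hy₀⟩ := by
    rw [← residue_negY hW ⟨x₀, hx₀⟩ ⟨y₀, hy₀⟩ hneg]
    refine congrArg _ (Subtype.ext ?_)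
    exact (sub_eq_zero.mp (by rw [y_sub_negY]; exact hψ)).symm
  have ey : residue A ⟨s, hs⟩ = residue A ⟨y₀, hy₀⟩ := by
    rcases Y_eq_of_X_eq (hW.equation_residue (x := ⟨r, hr⟩) (y := ⟨s, hs⟩) h.1)
      (hW.equation_residue (x := ⟨x₀, hx₀⟩) (y := ⟨y₀, hy₀⟩) h₀.1) ex with e | e
    · exact e
    · rw [e, hself]
  have hns' : hW.redCurve.Nonsingular (residue A ⟨r, hr⟩) (residue A ⟨s, hs⟩) := by
    rw [ex, ey]; exact hns
  refine ⟨Or.inr ⟨hr, hs, hns'⟩, ?_⟩
  rw [red_some hW hr hs hns', Point.some.injEq]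
  exact ⟨ex, ey⟩

/-- If some two-torsion point is integral with nonsingular reduction, then
`|p| · ∏ |x(T)| = 1`, the product running over the abscissae of the `p`-torsion outside `A`. -/
theorem val_p_mul_prod_eq_one [DecidableEq (ResidueField A)] (hW : IntCoeff A W) {p : ℕ}
    (hp : Odd p) {B : K[X]} {Am : K[X]} (hmul : IsMulPoly W p Am B) {x₀ y₀ : K} (hx₀ : x₀ ∈ A)
    (hy₀ : y₀ ∈ A) (h₀ : W.Nonsingular x₀ y₀) (hψ : psi W x₀ y₀ = 0)
    (hns : hW.redCurve.Nonsingular (residue A ⟨x₀, hx₀⟩) (residue A ⟨y₀, hy₀⟩))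
    [DecidablePred (· ∉ A)] :
    A.valuation (p : K) * ∏ r ∈ B.roots.toFinset.filter (· ∉ A), A.valuation r = 1 := by
  set Q := Point.some x₀ y₀ h₀ with hQ
  have hQ2 : (2 : ℕ) • Q = 0 := two_nsmul_some_of_psi_eq_zero h₀ hψ
  have hpQ : p • Q = Q := by
    obtain ⟨j, rfl⟩ := hp
    rw [add_nsmul, mul_comm 2 j, mul_nsmul', hQ2, nsmul_zero, zero_add, one_nsmul]
  have hQ0 : InE0 hW Q := Or.inr ⟨hx₀, hy₀, hns⟩
  have hQr : red hW Q = Point.some _ _ hns := red_some hW hx₀ hy₀ hns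
  -- multiplication by `p` fixes the common reduction
  have hred : ∀ T : W.Point, InE0 hW T → red hW T = red hW Q →
      InE0 hW (p • T) ∧ red hW (p • T) = red hW Q := by
    intro T hT e
    have h1 := map_nsmul (redHom hW) p ⟨T, hT⟩
    have h2 := map_nsmul (redHom hW) p ⟨Q, hQ0⟩
    rw [redHom_apply, redHom_apply, AddSubgroup.coe_nsmul] at h1 h2
    simp only at h1 h2
    rw [hpQ] at h2
    exact ⟨(mem_e0Subgroup hW).mp (nsmul_mem ((mem_e0Subgroup hW).mpr hT) p), by
      rw [h1, e, ← h2]⟩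
  set c : K := x₀ + 1 with hc
  set f := Am - C c * B with hf
  have hlt : (C c * B).degree < ((p ^ 2 : ℕ) : WithBot ℕ) :=
    (C_mul' c B ▸ degree_smul_le c B).trans_lt hmul.degree_lt
  have hAdeg : Am.degree = ((p ^ 2 : ℕ) : WithBot ℕ) := by
    rw [degree_eq_natDegree hmul.monic.ne_zero, hmul.natDegree_eq]
  have hfm : f.Monic := hmul.monic.sub_of_left (hlt.trans_eq hAdeg.symm)
  have hroot : ∀ r ∈ f.roots, r ∈ A ∧ A.valuation (x₀ - r) = 1 := by
    intro r hr
    rw [mem_roots hfm.ne_zero, IsRoot.def, hf, eval_sub, eval_mul, eval_C, sub_eq_zero] at hr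
    have hB : B.eval r ≠ 0 := fun e0 => hmul.eval_ne_zero r (by
      rw [e0, mul_zero] at hr
      simp [hr, e0])
    obtain ⟨s, hs⟩ := exists_point_of_X (W := W) r
    obtain ⟨v, hv, e⟩ := hmul.exists_nsmul_eq hs hB
    have hval : Am.eval r / B.eval r = c := by rw [hr, mul_div_assoc, div_self hB, mul_one]
    have hcA : c ∈ A := add_mem hx₀ (one_mem A)
    have hrA : r ∈ A := by
      by_contra hrA
      have : InE1 A (p • Point.some r s hs) :=
        (mem_e1Subgroup (hW := hW)).mp (nsmul_mem ((mem_e1Subgroup (hW := hW)).mpr (inE1_some_iff.mpr hrA : InE1 A (Point.some r s hs))) p)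
      rw [e] at this
      exact this (hval ▸ hcA)
    refine ⟨hrA, le_antisymm (val_le_one (sub_mem hx₀ hrA)) (not_lt.mp fun hlt' => ?_)⟩
    obtain ⟨hR0, hRr⟩ := red_eq_of_congr hW hx₀ hy₀ h₀ hψ hns hs hrA hlt'
    obtain ⟨hp0, hpr⟩ := hred _ hR0 (hRr.trans hQr.symm)
    rw [e] at hp0 hpr
    rcases hp0 with hv' | ⟨hx', hy', hn'⟩
    · exact hv' (hval ▸ hcA)
    rw [red_some hW hx' hy' hn', hQr, Point.some.injEq] at hpr
    have := (residue_eq_iff_val_sub_lt_one ⟨_, hx'⟩ ⟨x₀, hx₀⟩).mp hpr.1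
    simp only [hval, hc, add_sub_cancel_left, map_one] at this
    exact lt_irrefl 1 this
  have hfv : A.valuation (f.eval x₀) = 1 := by
    rw [(IsAlgClosed.splits f).eq_prod_roots_of_monic hfm, eval_multiset_prod, map_multiset_prod,
      Multiset.map_map, Multiset.map_map]
    refine Multiset.prod_eq_one fun z hz => ?_
    obtain ⟨r, hr, rfl⟩ := Multiset.mem_map.mp hz
    simp only [Function.comp_apply, eval_sub, eval_X, eval_C]
    exact (hroot r hr).2
  have hB0 : B.eval x₀ ≠ 0 := fun e0 => by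
    have h1 := (hmul.nsmul_eq_zero_iff h₀).mpr e0
    rw [hpQ] at h1
    exact Point.some_ne_zero h₀ h1
  obtain ⟨v, hv, e⟩ := hmul.exists_nsmul_eq h₀ hB0
  rw [hpQ, hQ, Point.some.injEq] at e
  have hfB : f.eval x₀ = -B.eval x₀ := by
    rw [hf, eval_sub, eval_mul, eval_C, hc, (eq_div_iff hB0).mp e.1 |>.symm]
    ring
  rw [hfB, A.valuation.map_neg, mulPoly_den_eval hp hmul x₀, map_mul, map_pow, map_pow,
    ← mul_pow, map_prod] at hfv
  have hsq := (pow_eq_one_iff_of_nonneg zero_le two_ne_zero).mp hfv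
  refine Eq.trans ?_ hsq
  congr 1
  rw [Finset.prod_filter]
  refine Finset.prod_congr rfl fun r hr => ?_
  by_cases hrA : r ∈ A
  swap
  · rw [if_pos hrA, A.valuation.map_sub_eq_of_lt_right]
    exact (val_le_one hx₀).trans_lt (not_mem_iff_one_lt_val.mp hrA)
  · rw [if_neg (not_not.mpr hrA)]
    refine (le_antisymm (val_le_one (sub_mem hx₀ hrA)) (not_lt.mp fun hlt' => ?_)).symm
    rw [Multiset.mem_toFinset, mem_roots (mulPoly_den_natDegree hmul hp.pos.ne').1] at hr
    obtain ⟨s, hs⟩ := exists_point_of_X (W := W) r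
    obtain ⟨hR0, hRr⟩ := red_eq_of_congr hW hx₀ hy₀ h₀ hψ hns hs hrA hlt'
    obtain ⟨-, hpr⟩ := hred _ hR0 (hRr.trans hQr.symm)
    rw [(hmul.nsmul_eq_zero_iff hs).mpr hr, red_zero, hQr] at hpr
    exact Point.some_ne_zero hns hpr.symm

omit [DecidableEq K] [IsAlgClosed K] in
/-- A rational number outside `A` has absolute value at least that of `1/p`. -/
lemma one_le_val_mul_of_rat {p : ℕ} (hA : A.LiesOverPrime p) (hp : p.Prime) {z : ℚ}
    (hz : 1 < A.valuation (z : K)) : 1 ≤ A.valuation (z : K) * A.valuation (p : K) := by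
  have hd : A.valuation (z.num : K) ≤ 1 := val_le_one (intCast_mem A _)
  rw [Rat.cast_def, map_div₀] at hz ⊢
  by_cases hpd : (p : ℤ) ∣ (z.den : ℤ)
  · have hnum : A.valuation (z.num : K) = 1 := by
      refine val_intCast_eq_one hA hp fun h => ?_
      have h1 : p ∣ z.num.natAbs := Int.ofNat_dvd_left.mp h
      have h2 : p ∣ z.den := by exact_mod_cast hpd
      exact hp.not_dvd_one (z.reduced.gcd_eq_one ▸ Nat.dvd_gcd h1 h2)
    obtain ⟨m, hm⟩ := hpd
    have hden : A.valuation (z.den : K) ≤ A.valuation (p : K) := by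
      have e : (z.den : K) = (p : K) * (m : K) := by
        exact_mod_cast congrArg (Int.cast : ℤ → K) hm
      rw [e, map_mul]
      exact mul_le_of_le_one_right' (val_le_one (intCast_mem A m))
    have hden0 : (0 : A.ValueGroup) < A.valuation (z.den : K) :=
      A.valuation.pos_iff.mpr (Nat.cast_ne_zero.mpr z.den_ne_zero)
    rw [hnum, div_mul_eq_mul_div, one_mul, one_le_div₀ hden0]
    exact hden
  · have h : A.valuation (z.den : K) = 1 := by
      refine val_natCast_eq_one hA hp fun h => hpd ?_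
      exact_mod_cast h
    rw [h, div_one] at hz
    exact absurd hd (not_le.mpr hz)

omit [DecidableEq K] [IsAlgClosed K] [CharZero K] in
/-- The size of `ζ - 1` for a primitive `p`-th root of unity. -/
lemma val_sub_one_pow {p : ℕ} (hp : p.Prime) {ζ : K} (hζ : IsPrimitiveRoot ζ p) :
    A.valuation (ζ - 1) ^ (p - 1) = A.valuation (p : K) := by
  have hζA : ζ ∈ A := by
    apply mem_of_val_le_one
    refine ((pow_eq_one_iff_of_nonneg zero_le hp.ne_zero).mp ?_).le
    rw [← map_pow, hζ.pow_eq_one, map_one]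
  have hζ' : IsPrimitiveRoot (⟨ζ, hζA⟩ : A) p :=
    IsPrimitiveRoot.of_map_of_injective (f := A.subtype) hζ A.subtype_injective
  obtain ⟨n, rfl⟩ : ∃ n, p = n + 1 := ⟨p - 1, by have := hp.pos; omega⟩
  have key := congrArg A.valuation (IsPrimitiveRoot.prod_one_sub_pow_eq_order hζ)
  rw [map_prod] at key
  rw [Nat.add_sub_cancel, Nat.cast_add_one, ← key]
  rw [Finset.prod_congr rfl (g := fun _ => A.valuation (ζ - 1))]
  · rw [Finset.prod_const, Finset.card_range]
  intro k hk
  rw [Finset.mem_range] at hk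
  have hco : (k + 1).Coprime (n + 1) :=
    ((hp.coprime_iff_not_dvd).mpr fun h => absurd (Nat.le_of_dvd (by omega) h) (by omega)).symm
  obtain ⟨u, hu⟩ := hζ'.associated_sub_one_pow_sub_one_of_coprime hco
  have := congrArg (fun z : A => A.valuation (z : K)) hu
  simp only [MulMemClass.coe_mul, map_mul, ValuationSubring.valuation_unit, mul_one] at this
  rw [A.valuation.map_sub_swap]
  simpa using this.symm

end FLTAgent.LocalEC
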