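import Fermat.Agent.LocalEC.Frey
import Fermat.Agent.Torsion.Basic

/-!
The decomposition group and the torsion of the Frey curve.
-/

set_option autoImplicit false

namespace FLTAgent.LocalEC

open WeierstrassCurve WeierstrassCurve.Affine IsLocalRing
open scoped WeierstrassCurve.Affine Pointwise

local notation "Qbar" => AlgebraicClosure ℚ

variable {A : ValuationSubring Qbar} {σ : Qbar ≃ₐ[ℚ] Qbar}

lemma mem_iff_of_mem_decomposition (hσ : σ ∈ A.decompositionSubgroup ℚ) (z : Qbar) :
    σ z ∈ A ↔ z ∈ A := by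
  have h : σ • A = A := MulAction.mem_stabilizer_iff.mp hσ
  constructor
  · intro hz
    rw [← h, ValuationSubring.mem_smul_pointwise_iff_exists] at hz
    obtain ⟨w, hw, e⟩ := hz
    have : w = z := σ.injective e
    exact this ▸ hw
  · intro hz
    have : σ • z ∈ σ • A := ValuationSubring.smul_mem_pointwise_smul σ z A hz
    rwa [h] at this

lemma val_map_eq_one (hσ : σ ∈ A.decompositionSubgroup ℚ) {z : Qbar}
    (hz : A.valuation z = 1) : A.valuation (σ z) = 1 := by
  refine le_antisymm (val_le_one ((mem_iff_of_mem_decomposition hσ z).mpr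
    (mem_of_val_le_one hz.le))) ?_
  have h : σ z⁻¹ ∈ A :=
    (mem_iff_of_mem_decomposition hσ _).mpr (mem_of_val_le_one (by rw [map_inv₀, hz, inv_one]))
  have := val_le_one h
  rw [map_inv₀ σ, map_inv₀] at this
  have h0 : σ z ≠ 0 := by
    intro e
    have : z = 0 := σ.injective (by rw [e, map_zero])
    rw [this, map_zero] at hz
    exact zero_ne_one hz
  exact (inv_le_one₀ (A.valuation.pos_iff.mpr h0)).mp this

lemma inertia_le_decomposition (hσ : σ ∈ A.inertiaSubgroupIn ℚ) :
    σ ∈ A.decompositionSubgroup ℚ := by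
  obtain ⟨g, -, rfl⟩ := Subgroup.mem_map.mp hσ
  exact g.2

/-- The action of Galois on an affine point. -/
lemma smul_some (P : FreyPackage) (σ : Qbar ≃ₐ[ℚ] Qbar) {x y : Qbar}
    (h : (freyBar P).Nonsingular x y) :
    ∃ h' : (freyBar P).Nonsingular (σ x) (σ y),
      σ • Point.some x y h = Point.some (σ x) (σ y) h' :=
  ⟨_, (WeierstrassCurve.Affine.Point.algEquiv_smul_def σ (Point.some x y h)).trans
    (Point.map_some (f := σ.toAlgHom) h)⟩

lemma smul_point_zero (P : FreyPackage) (σ : Qbar ≃ₐ[ℚ] Qbar) :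
    σ • (0 : (freyBar P).Point) = 0 := rfl

lemma nsmul_smul_point (P : FreyPackage) (σ : Qbar ≃ₐ[ℚ] Qbar) (n : ℕ)
    (T : (freyBar P).Point) : σ • (n • T) = n • σ • T :=
  map_nsmul (Point.map (W' := P.freyCurve) σ.toAlgHom) n T

/-- The `p`-torsion of the Frey curve. -/
noncomputable abbrev freyTorsion (P : FreyPackage) :=
  Submodule.torsionBy ℤ (P.freyCurve⁄Qbar).Point P.p

lemma torsion_iff (P : FreyPackage) {T : (freyBar P).Point} :
    T ∈ Submodule.torsionBy ℤ (freyBar P).Point P.p ↔ P.p • T = 0 := by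
  rw [Submodule.mem_torsionBy_iff, natCast_zsmul]

instance freyBar_isElliptic (P : FreyPackage) : (freyBar P).IsElliptic :=
  ⟨isUnit_iff_ne_zero.mpr (by
    rw [freyBar_Δ]
    refine div_ne_zero (pow_ne_zero _ (mul_ne_zero (mul_ne_zero ?_ ?_) ?_)) (by norm_num) <;>
      refine pow_ne_zero _ (Int.cast_ne_zero.mpr ?_)
    exacts [P.ha0, P.hb0, P.hc0])⟩

end FLTAgent.LocalEC
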