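import Mathlib.AlgebraicGeometry.EllipticCurve.Affine.Point
import Mathlib.Tactic.LinearCombination
import Mathlib.Tactic.FieldSimp

/-!
x-only addition and doubling formulae on a Weierstrass curve over a field.
-/

set_option autoImplicit false

namespace FLTAgent.LocalEC

open WeierstrassCurve WeierstrassCurve.Affine

variable {K : Type*} [Field K] [DecidableEq K] {W : WeierstrassCurve.Affine K}

/-- `2y + a₁x + a₃`, the denominator of the tangent slope. -/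
def psi (W : WeierstrassCurve.Affine K) (x y : K) : K := 2 * y + W.a₁ * x + W.a₃

/-- `3x² + 2a₂x + a₄ - a₁y`, the numerator of the tangent slope. -/
def tanNum (W : WeierstrassCurve.Affine K) (x y : K) : K :=
  3 * x ^ 2 + 2 * W.a₂ * x + W.a₄ - W.a₁ * y

omit [DecidableEq K] in
lemma psi_negY (x y : K) : psi W x (W.negY x y) = -psi W x y := by
  simp only [psi, negY]; ring

omit [DecidableEq K] in
lemma psi_sq {x y : K} (h : W.Equation x y) :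
    psi W x y ^ 2 = 4 * x ^ 3 + W.b₂ * x ^ 2 + 2 * W.b₄ * x + W.b₆ := by
  rw [equation_iff] at h
  simp only [psi, b₂, b₄, b₆]
  linear_combination 4 * h

omit [DecidableEq K] in
lemma y_sub_negY (x y : K) : y - W.negY x y = psi W x y := by
  simp only [psi, negY]; ring

omit [DecidableEq K] in
lemma exists_some_of_X_eq {x x' y : K} {h : W.Nonsingular x y} {R : W.Point} (hx : x = x')
    (e : R = Point.some x y h) : ∃ y' h', R = Point.some x' y' h' := by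
  subst hx; exact ⟨_, _, e⟩

/-- Coordinates of `P + Q` when the abscissae differ. -/
lemma add_some_of_X_ne {x₁ y₁ x₂ y₂ : K} (h₁ : W.Nonsingular x₁ y₁) (h₂ : W.Nonsingular x₂ y₂)
    (hx : x₁ ≠ x₂) :
    ∃ y₃ h₃, Point.some x₁ y₁ h₁ + Point.some x₂ y₂ h₂ =
      Point.some (W.addX x₁ x₂ ((y₁ - y₂) / (x₁ - x₂))) y₃ h₃ := by
  exact exists_some_of_X_eq (by rw [slope_of_X_ne hx]) (Point.add_of_X_ne hx)

/-- Coordinates of `P - Q` when the abscissae differ. -/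
lemma sub_some_of_X_ne {x₁ y₁ x₂ y₂ : K} (h₁ : W.Nonsingular x₁ y₁) (h₂ : W.Nonsingular x₂ y₂)
    (hx : x₁ ≠ x₂) :
    ∃ y₃ h₃, Point.some x₁ y₁ h₁ - Point.some x₂ y₂ h₂ =
      Point.some (W.addX x₁ x₂ ((y₁ + y₂ + W.a₁ * x₂ + W.a₃) / (x₁ - x₂))) y₃ h₃ := by
  obtain ⟨y₃, h₃, e⟩ := add_some_of_X_ne h₁ ((nonsingular_neg ..).mpr h₂) hx
  have : y₁ - W.negY x₂ y₂ = y₁ + y₂ + W.a₁ * x₂ + W.a₃ := by simp only [negY]; ring
  revert h₃ e
  rw [this]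
  intro h₃ e
  exact ⟨y₃, h₃, by rw [sub_eq_add_neg, Point.neg_some]; exact e⟩

/-- Coordinates of `2P` when `P` is not killed by two. -/
lemma two_nsmul_some {x y : K} (h : W.Nonsingular x y) (hψ : psi W x y ≠ 0) :
    ∃ y₃ h₃, (2 : ℕ) • Point.some x y h =
      Point.some (W.addX x x (tanNum W x y / psi W x y)) y₃ h₃ := by
  have hy : y ≠ W.negY x y := by
    intro e; apply hψ; rw [← y_sub_negY]; exact sub_eq_zero.mpr e
  refine exists_some_of_X_eq ?_ ((two_nsmul _).trans (Point.add_self_of_Y_ne hy))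
  rw [slope_of_Y_ne rfl hy, y_sub_negY]; rfl

lemma two_nsmul_some_of_psi_eq_zero {x y : K} (h : W.Nonsingular x y) (hψ : psi W x y = 0) :
    (2 : ℕ) • Point.some x y h = 0 := by
  rw [two_nsmul]
  exact Point.add_self_of_Y_eq (sub_eq_zero.mp (by rw [y_sub_negY]; exact hψ))

omit [DecidableEq K] in
/-- The sum of `x(P + Q)` and `x(P - Q)`. -/
lemma addX_add_subX {x₁ y₁ x₂ y₂ : K} (h₁ : W.Equation x₁ y₁) (h₂ : W.Equation x₂ y₂)
    (hx : x₁ ≠ x₂) :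
    (W.addX x₁ x₂ ((y₁ - y₂) / (x₁ - x₂)) +
        W.addX x₁ x₂ ((y₁ + y₂ + W.a₁ * x₂ + W.a₃) / (x₁ - x₂))) * (x₁ - x₂) ^ 2 =
      (x₁ + x₂) * (2 * x₁ * x₂ + W.b₄) + W.b₂ * x₁ * x₂ + W.b₆ := by
  rw [equation_iff] at h₁ h₂
  have hd : x₁ - x₂ ≠ 0 := sub_ne_zero.mpr hx
  simp only [addX, b₂, b₄, b₆]
  field_simp
  linear_combination 2 * h₁ + 2 * h₂

omit [DecidableEq K] in
/-- The product of `x(P + Q)` and `x(P - Q)`. -/
lemma addX_mul_subX {x₁ y₁ x₂ y₂ : K} (h₁ : W.Equation x₁ y₁) (h₂ : W.Equation x₂ y₂)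
    (hx : x₁ ≠ x₂) :
    W.addX x₁ x₂ ((y₁ - y₂) / (x₁ - x₂)) *
        W.addX x₁ x₂ ((y₁ + y₂ + W.a₁ * x₂ + W.a₃) / (x₁ - x₂)) * (x₁ - x₂) ^ 2 =
      x₁ ^ 2 * x₂ ^ 2 - W.b₄ * x₁ * x₂ - W.b₆ * (x₁ + x₂) - W.b₈ := by
  rw [equation_iff] at h₁ h₂
  have hd : x₁ - x₂ ≠ 0 := sub_ne_zero.mpr hx
  set α₁ := W.a₁ * x₁ + W.a₃ with hα₁
  set α₂ := W.a₁ * x₂ + W.a₃ with hα₂
  set L₁ := y₁ ^ 2 + α₁ * y₁ with hL₁
  set L₂ := y₂ ^ 2 + α₂ * y₂ with hL₂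
  set f₁ := x₁ ^ 3 + W.a₂ * x₁ ^ 2 + W.a₄ * x₁ + W.a₆ with hf₁
  set f₂ := x₂ ^ 3 + W.a₂ * x₂ ^ 2 + W.a₄ * x₂ + W.a₆ with hf₂
  set κ := α₁ * α₂ - (x₁ - x₂) ^ 2 * (2 * W.a₂ + 2 * x₁ + 2 * x₂) with hκ
  have e₁ : L₁ = f₁ := by rw [hL₁, hα₁, hf₁]; linear_combination h₁
  have e₂ : L₂ = f₂ := by rw [hL₂, hα₂, hf₂]; linear_combination h₂
  apply mul_right_cancel₀ (pow_ne_zero 2 hd)
  simp only [addX, b₄, b₆, b₈]
  field_simp
  linear_combination (L₁ + f₁ - 2 * L₂ + κ - α₂ ^ 2) * e₁ +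
    (L₂ + f₂ - 2 * f₁ + κ - α₁ ^ 2) * e₂

omit [DecidableEq K] in
/-- The duplication formula. -/
lemma addX_self_mul_psi_sq {x y : K} (h : W.Equation x y) (hψ : psi W x y ≠ 0) :
    W.addX x x (tanNum W x y / psi W x y) * psi W x y ^ 2 =
      x ^ 4 - W.b₄ * x ^ 2 - 2 * W.b₆ * x - W.b₈ := by
  rw [equation_iff] at h
  have e : W.addX x x (tanNum W x y / psi W x y) * psi W x y ^ 2 =
      tanNum W x y ^ 2 + W.a₁ * tanNum W x y * psi W x y - (W.a₂ + 2 * x) * psi W x y ^ 2 := by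
    simp only [addX]; field_simp; ring
  rw [e]
  simp only [psi, tanNum, b₄, b₆, b₈]
  linear_combination (-W.a₁ ^ 2 - 4 * (W.a₂ + 2 * x)) * h

end FLTAgent.LocalEC
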