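import Fermat.Agent.LocalEC.Galois
import Fermat.Prelude.Def_FLTPrelim_FreyPackage
import Mathlib.RingTheory.Coprime.Lemmas

/-!
The Frey curve at an odd prime: good reduction, or a node.
-/

set_option autoImplicit false

namespace FLTAgent.LocalEC

open WeierstrassCurve WeierstrassCurve.Affine IsLocalRing

local notation "Qbar" => AlgebraicClosure ℚ

/-- The Frey curve over `ℚ̄`. -/
noncomputable abbrev freyBar (P : FreyPackage) : WeierstrassCurve.Affine Qbar :=
  (P.freyCurve⁄Qbar).toAffine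

section

variable (P : FreyPackage)

lemma freyBar_a₁ : (freyBar P).a₁ = 1 := by simp [FreyPackage.freyCurve]
lemma freyBar_a₃ : (freyBar P).a₃ = 0 := by simp [FreyPackage.freyCurve]
lemma freyBar_a₆ : (freyBar P).a₆ = 0 := by simp [FreyPackage.freyCurve]

lemma freyBar_a₂ :
    (freyBar P).a₂ = ((P.b : Qbar) ^ P.p - 1 - (P.a : Qbar) ^ P.p) / 4 := by
  simp [FreyPackage.freyCurve, map_div₀, map_ofNat]

lemma freyBar_a₄ :
    (freyBar P).a₄ = -(P.a : Qbar) ^ P.p * (P.b : Qbar) ^ P.p / 16 := by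
  simp [FreyPackage.freyCurve, map_div₀, map_ofNat]

lemma freyBar_add : (P.a : Qbar) ^ P.p + (P.b : Qbar) ^ P.p = (P.c : Qbar) ^ P.p := by
  exact_mod_cast congrArg (Int.cast : ℤ → Qbar) P.hFLT

lemma freyBar_b₂ : (freyBar P).b₂ = (P.b : Qbar) ^ P.p - (P.a : Qbar) ^ P.p := by
  rw [WeierstrassCurve.b₂, freyBar_a₁, freyBar_a₂]; ring

lemma freyBar_Δ :
    (freyBar P).Δ = ((P.a : Qbar) ^ P.p * (P.b : Qbar) ^ P.p * (P.c : Qbar) ^ P.p) ^ 2 / 256 := by
  rw [← freyBar_add P]
  simp only [WeierstrassCurve.Δ, b₂, b₄, b₆, b₈, freyBar_a₁, freyBar_a₂, freyBar_a₃, freyBar_a₄,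
    freyBar_a₆]
  ring

end

/-- The coefficients of the Frey curve are integral away from `2`. -/
theorem intCoeff_frey (P : FreyPackage) {q : ℕ} (hq : q.Prime) (hq2 : q ≠ 2)
    {A : ValuationSubring Qbar} (hA : A.LiesOverPrime q) : IntCoeff A (freyBar P) := by
  have h2 : A.valuation (2 : Qbar) = 1 := by
    have := val_natCast_eq_one hA hq (n := 2) (fun h =>
      hq2 ((Nat.prime_dvd_prime_iff_eq hq Nat.prime_two).mp h))
    simpa using this
  have h4 : A.valuation (4 : Qbar) = 1 := by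
    rw [show (4 : Qbar) = 2 ^ 2 by norm_num, map_pow, h2, one_pow]
  have h8 : A.valuation (8 : Qbar) = 1 := by
    rw [show (8 : Qbar) = 2 ^ 3 by norm_num, map_pow, h2, one_pow]
  have h16 : A.valuation (16 : Qbar) = 1 := by
    rw [show (16 : Qbar) = 2 ^ 4 by norm_num, map_pow, h2, one_pow]
  have h256 : A.valuation (256 : Qbar) = 1 := by
    rw [show (256 : Qbar) = 2 ^ 8 by norm_num, map_pow, h2, one_pow]
  have hdiv : ∀ {z d : Qbar}, z ∈ A → A.valuation d = 1 → z / d ∈ A := fun hz hd =>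
    mem_of_val_le_one (by rw [map_div₀, hd, div_one]; exact val_le_one hz)
  have hint : ∀ n : ℤ, (n : Qbar) ∈ A := intCast_mem A
  refine ⟨?_, ?_, ?_, ?_, ?_⟩
  · rw [freyBar_a₁]; exact one_mem A
  · rw [freyBar_a₂]
    exact hdiv (sub_mem (sub_mem (pow_mem (hint _) _) (one_mem A)) (pow_mem (hint _) _)) h4
  · rw [freyBar_a₃]; exact zero_mem A
  · rw [freyBar_a₄]
    exact hdiv (mul_mem (neg_mem (pow_mem (hint _) _)) (pow_mem (hint _) _)) h16
  · rw [freyBar_a₆]; exact zero_mem A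

/-- An odd prime `q` at which the Frey curve has good reduction or a node. -/
inductive FreyReduction (P : FreyPackage) (A : ValuationSubring Qbar) : Prop
  | good (hW : IntCoeff A (freyBar P)) (hΔ : A.valuation (freyBar P).Δ = 1) : FreyReduction P A
  | node (W' : WeierstrassCurve.Affine Qbar) (C : PointChange (freyBar P) W') (hu : C.u = 1)
      (hs : C.s = 0) (hr : C.r ∈ A)
      (hfix : ∀ σ : Qbar ≃ₐ[ℚ] Qbar, σ C.r = C.r ∧ σ C.t = C.t)
      (hN : NodeModel A W') (m : ℤ) (hm : A.valuation (m : Qbar) ^ P.p = A.valuation W'.a₄) :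
      FreyReduction P A

/-- The Frey curve is semistable at every odd prime. -/
theorem freyReduction (P : FreyPackage) {q : ℕ} (hq : q.Prime) (hq2 : q ≠ 2)
    {A : ValuationSubring Qbar} (hA : A.LiesOverPrime q) : FreyReduction P A := by
  have h2 : A.valuation (2 : Qbar) = 1 := by
    have := val_natCast_eq_one hA hq (n := 2) (fun h =>
      hq2 ((Nat.prime_dvd_prime_iff_eq hq Nat.prime_two).mp h))
    simpa using this
  have h4 : A.valuation (4 : Qbar) = 1 := by
    rw [show (4 : Qbar) = 2 ^ 2 by norm_num, map_pow, h2, one_pow]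
  have h8 : A.valuation (8 : Qbar) = 1 := by
    rw [show (8 : Qbar) = 2 ^ 3 by norm_num, map_pow, h2, one_pow]
  have h16 : A.valuation (16 : Qbar) = 1 := by
    rw [show (16 : Qbar) = 2 ^ 4 by norm_num, map_pow, h2, one_pow]
  have h256 : A.valuation (256 : Qbar) = 1 := by
    rw [show (256 : Qbar) = 2 ^ 8 by norm_num, map_pow, h2, one_pow]
  have hdiv : ∀ {z d : Qbar}, z ∈ A → A.valuation d = 1 → z / d ∈ A := fun hz hd =>
    mem_of_val_le_one (by rw [map_div₀, hd, div_one]; exact val_le_one hz)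
  have hint : ∀ n : ℤ, (n : Qbar) ∈ A := intCast_mem A
  have hW : IntCoeff A (freyBar P) := intCoeff_frey P hq hq2 hA
  have hqi : Prime (q : ℤ) := Nat.prime_iff_prime_int.mp hq
  have hcop : ∀ {x y : ℤ}, gcd x y = 1 → (q : ℤ) ∣ x → ¬(q : ℤ) ∣ y := fun h hx hy =>
    hqi.not_isUnit (isUnit_of_dvd_one (h ▸ dvd_gcd hx hy))
  have hv1 : ∀ {x : ℤ}, ¬(q : ℤ) ∣ x → A.valuation ((x : Qbar) ^ P.p) = 1 := fun hx => by
    rw [map_pow, val_intCast_eq_one hA hq hx, one_pow]
  have hv0 : ∀ {x : ℤ}, (q : ℤ) ∣ x → A.valuation ((x : Qbar) ^ P.p) < 1 := fun hx => by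
    rw [map_pow]; exact pow_lt_one₀ zero_le (val_intCast_lt_one hA hx) P.hp0
  have hne : ∀ {x : ℤ}, x ≠ 0 → (x : Qbar) ^ P.p ≠ 0 := fun hx =>
    pow_ne_zero _ (Int.cast_ne_zero.mpr hx)
  by_cases ha : (q : ℤ) ∣ P.a
  · have hb := hcop P.hgcdab ha
    let C : PointChange (freyBar P) (freyBar P) :=
      { u := 1, r := 0, s := 0, t := 0, hu := one_ne_zero
        h₁ := by ring
        h₂ := by ring
        h₃ := by ring
        h₄ := by ring
        h₆ := by ring }
    refine .node (freyBar P) C rfl rfl (zero_mem A) (fun σ => ⟨map_zero σ, map_zero σ⟩)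
      ⟨hW, freyBar_a₃ P, freyBar_a₆ P, ?_, ?_, ?_⟩ P.a ?_
    · rw [freyBar_b₂, A.valuation.map_sub_eq_of_lt_left (by rw [hv1 hb]; exact hv0 ha), hv1 hb]
    · rw [freyBar_a₄, map_div₀, map_mul, A.valuation.map_neg, h16, div_one, hv1 hb, mul_one]
      exact hv0 ha
    · rw [freyBar_a₄]
      exact div_ne_zero (mul_ne_zero (neg_ne_zero.mpr (hne P.ha0)) (hne P.hb0)) (by norm_num)
    · rw [freyBar_a₄, map_div₀, map_mul, A.valuation.map_neg, h16, div_one, hv1 hb, mul_one,
        map_pow]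
  by_cases hb : (q : ℤ) ∣ P.b
  · let C : PointChange (freyBar P) (freyBar P) :=
      { u := 1, r := 0, s := 0, t := 0, hu := one_ne_zero
        h₁ := by ring
        h₂ := by ring
        h₃ := by ring
        h₄ := by ring
        h₆ := by ring }
    refine .node (freyBar P) C rfl rfl (zero_mem A) (fun σ => ⟨map_zero σ, map_zero σ⟩)
      ⟨hW, freyBar_a₃ P, freyBar_a₆ P, ?_, ?_, ?_⟩ P.b ?_
    · rw [freyBar_b₂, A.valuation.map_sub_eq_of_lt_right (by rw [hv1 ha]; exact hv0 hb), hv1 ha]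
    · rw [freyBar_a₄, map_div₀, map_mul, A.valuation.map_neg, h16, div_one, hv1 ha, one_mul]
      exact hv0 hb
    · rw [freyBar_a₄]
      exact div_ne_zero (mul_ne_zero (neg_ne_zero.mpr (hne P.ha0)) (hne P.hb0)) (by norm_num)
    · rw [freyBar_a₄, map_div₀, map_mul, A.valuation.map_neg, h16, div_one, hv1 ha, one_mul,
        map_pow]
  by_cases hc : (q : ℤ) ∣ P.c
  · set α : Qbar := (P.a : Qbar) ^ P.p with hα
    set γ : Qbar := (P.c : Qbar) ^ P.p with hγ
    have hβ : (P.b : Qbar) ^ P.p = γ - α := eq_sub_of_add_eq' (freyBar_add P)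
    let W' : WeierstrassCurve.Affine Qbar :=
      ⟨1, (freyBar P).a₂ + 3 * (α / 4), 0, α * γ / 16, 0⟩
    let C : PointChange (freyBar P) W' :=
      { u := 1, r := α / 4, s := 0, t := -α / 8, hu := one_ne_zero
        h₁ := by simp only [W', freyBar_a₁]; ring
        h₂ := by simp only [W']; ring
        h₃ := by simp only [W', freyBar_a₁, freyBar_a₃]; ring
        h₄ := by simp only [W', freyBar_a₁, freyBar_a₂, freyBar_a₃, freyBar_a₄, hβ, ← hα]; ring
        h₆ := by
          simp only [W', freyBar_a₁, freyBar_a₂, freyBar_a₃, freyBar_a₄, freyBar_a₆, hβ, ← hα]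
          ring }
    have hαA : α ∈ A := pow_mem (hint _) _
    refine .node W' C rfl rfl (hdiv hαA h4) (fun σ => ⟨?_, ?_⟩)
      ⟨⟨one_mem A, ?_, zero_mem A, ?_, zero_mem A⟩, rfl, rfl, ?_, ?_, ?_⟩ P.c ?_
    · simp [C, α, map_div₀, map_ofNat]
    · simp [C, α, map_div₀, map_ofNat]
    · exact add_mem hW.mem₂ (mul_mem (natCast_mem A 3) (hdiv hαA h4))
    · exact hdiv (mul_mem hαA (pow_mem (hint _) _)) h16
    · have e : W'.b₂ = α + γ := by
        simp only [W', WeierstrassCurve.b₂, freyBar_a₂, hβ, ← hα]; ring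
      rw [e, A.valuation.map_add_eq_of_lt_left (by rw [hv1 ha]; exact hv0 hc), hv1 ha]
    · show A.valuation (α * γ / 16) < 1
      rw [map_div₀, map_mul, h16, div_one, hv1 ha, one_mul]; exact hv0 hc
    · exact div_ne_zero (mul_ne_zero (hne P.ha0) (hne P.hc0)) (by norm_num)
    · show _ = A.valuation (α * γ / 16)
      rw [map_div₀, map_mul, h16, div_one, hv1 ha, one_mul, map_pow]
  refine .good hW ?_
  rw [freyBar_Δ, map_div₀, map_pow, map_mul, map_mul, hv1 ha, hv1 hb, hv1 hc, h256]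
  simp

/-- At an odd prime, an inertia element moves a `p`-torsion point of the Frey curve by an element
of `E₁`. -/
theorem frey_sub_smul_inE1 (P : FreyPackage) {q : ℕ} (hq : q.Prime) (hq2 : q ≠ 2)
    {A : ValuationSubring Qbar} (hA : A.LiesOverPrime q) {σ : Qbar ≃ₐ[ℚ] Qbar}
    (hσ : σ ∈ A.inertiaSubgroupIn ℚ) {T : (freyBar P).Point} (hT : P.p • T = 0) :
    InE1 A (T - σ • T) := by
  classical
  have : Fact P.p.Prime := ⟨P.pp⟩
  have hp2 : P.p ≠ 2 := by have := P.hp5; omega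
  rcases T with _ | ⟨x, y, h⟩
  · rw [← Point.zero_def, show σ • (0 : (freyBar P).Point) = 0 from rfl, sub_zero]
    exact inE1_zero
  have hres : ResidueFix A (σ : Qbar →+* Qbar) := residueFix_of_mem_inertia hσ
  obtain ⟨h', eT⟩ : ∃ h' : (freyBar P).Nonsingular (σ x) (σ y),
      σ • Point.some x y h = Point.some (σ x) (σ y) h' :=
    ⟨_, (WeierstrassCurve.Affine.Point.algEquiv_smul_def σ (Point.some x y h)).trans
      (Point.map_some (f := σ.toAlgHom) h)⟩
  rw [eT]
  rcases freyReduction P hq hq2 hA with ⟨hW, hΔ⟩ | ⟨W', C, hu, hs, hr, hfix, hN, m, hm⟩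
  · exact hres.sub_inE1_of_inE0 hW h' (inE0_of_val_disc hW hΔ _)
  obtain ⟨x₀, y₀, he, ex, ey⟩ := C.exists_preimage h.1
  subst ex ey
  have h₀ : W'.Nonsingular x₀ y₀ := C.nonsingular_of_map he h
  have eX : ∀ z, σ (C.X z) = C.X (σ z) := fun z => by
    simp [PointChange.X, hu, (hfix σ).1]
  have eY : ∀ z w, σ (C.Y z w) = C.Y (σ z) (σ w) := fun z w => by
    simp [PointChange.Y, hu, hs, (hfix σ).2]
  have h'' : (freyBar P).Nonsingular (C.X (σ x₀)) (C.Y (σ x₀) (σ y₀)) := by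
    rw [← eX, ← eY]; exact h'
  have h₁ : W'.Nonsingular (σ x₀) (σ y₀) :=
    C.nonsingular_of_map ((C.equation_iff_map _ _).mp h''.1) h''
  have e₀ : Point.some _ _ h = C.pointMap (Point.some x₀ y₀ h₀) := rfl
  have e₁ : Point.some _ _ h' = C.pointMap (Point.some _ _ h₁) := by
    rw [C.pointMap_some, Point.some.injEq]; exact ⟨eX _, eY _ _⟩
  have hT' : P.p • Point.some x₀ y₀ h₀ = 0 := C.pointMap_injective (by
    rw [map_nsmul, ← e₀, map_zero]; exact hT)
  rw [e₀, e₁, ← map_sub, inE1_pointMap C hu hr]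
  exact hres.sub_inE1_of_torsion hN hp2 (c := (m : Qbar)) (map_intCast _ m) hm h₁ hT'

/-- The mod-`p` representation of the Frey curve is unramified at every `q ≠ 2, p`. -/
theorem frey_smul_eq (P : FreyPackage) {q : ℕ} (hq : q.Prime) (hq2 : q ≠ 2) (hqp : q ≠ P.p)
    {A : ValuationSubring Qbar} (hA : A.LiesOverPrime q) {σ : Qbar ≃ₐ[ℚ] Qbar}
    (hσ : σ ∈ A.inertiaSubgroupIn ℚ) {T : (freyBar P).Point} (hT : P.p • T = 0) :
    σ • T = T := by
  have h1 := frey_sub_smul_inE1 P hq hq2 hA hσ hT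
  have hp : P.p • (T - σ • T) = 0 := by
    rw [nsmul_sub, hT, zero_sub, neg_eq_zero]
    have : σ • (P.p • T) = P.p • σ • T :=
      map_nsmul (Point.map (W' := P.freyCurve) σ.toAlgHom) P.p T
    rw [← this, hT]; rfl
  have hW := intCoeff_frey P hq hq2 hA
  have hv : A.valuation (P.p : Qbar) = 1 := val_natCast_eq_one hA hq fun h =>
    hqp ((Nat.prime_dvd_prime_iff_eq hq P.pp).mp h)
  exact (sub_eq_zero.mp (eq_zero_of_inE1_of_nsmul hW h1 hv hp)).symm

end FLTAgent.LocalEC
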