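import Fermat.Agent.LocalEC.Decomposition
import Fermat.Agent.LocalEC.AtP
import Fermat.Agent.Reducible.Cyclotomic

/-!
The Frey curve at a place over `p`: with a Galois-stable line in the torsion, the kernel of
reduction is a line on which inertia acts by the cyclotomic character.
-/

set_option autoImplicit false

namespace FLTAgent.LocalEC

open WeierstrassCurve WeierstrassCurve.Affine IsLocalRing
open scoped WeierstrassCurve.Affine

local notation "Qbar" => AlgebraicClosure ℚ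

variable (P : FreyPackage) {A : ValuationSubring Qbar}

private lemma one_lt_prod_val {s : Finset Qbar} {f : Qbar → A.ValueGroup}
    (h : ∀ i ∈ s, 1 ≤ f i) (hs : ∃ i ∈ s, 1 < f i) : 1 < ∏ i ∈ s, f i := by
  have := Finset.prod_lt_prod (f := fun _ => (1 : A.ValueGroup)) (fun _ _ => zero_lt_one) h hs
  simpa using this

/-- An integral two-torsion point with nonsingular reduction, at an odd prime. -/
theorem exists_two_torsion_nonsingular {q : ℕ} (hq : q.Prime) (hq2 : q ≠ 2)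
    (hA : A.LiesOverPrime q) (hW : IntCoeff A (freyBar P)) :
    ∃ (x y : Qbar) (hx : x ∈ A) (hy : y ∈ A), (freyBar P).Nonsingular x y ∧
      psi (freyBar P) x y = 0 ∧
      hW.redCurve.Nonsingular (residue A ⟨x, hx⟩) (residue A ⟨y, hy⟩) := by
  have hqi : Prime (q : ℤ) := Nat.prime_iff_prime_int.mp hq
  have hcop : ∀ {x y : ℤ}, gcd x y = 1 → (q : ℤ) ∣ x → ¬(q : ℤ) ∣ y := fun h hx hy =>
    hqi.not_isUnit (isUnit_of_dvd_one (h ▸ dvd_gcd hx hy))
  have hv1 : ∀ {x : ℤ}, ¬(q : ℤ) ∣ x → A.valuation ((x : Qbar) ^ P.p) = 1 := fun hx => by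
    rw [map_pow, val_intCast_eq_one hA hq hx, one_pow]
  have h16 : A.valuation (16 : Qbar) = 1 := by
    have := val_natCast_eq_one hA hq (n := 16) (fun h => hq2 (by
      have h' : q ∣ 2 ^ 4 := h
      exact (Nat.prime_dvd_prime_iff_eq hq Nat.prime_two).mp (hq.dvd_of_dvd_pow h')))
    simpa using this
  have hadd := freyBar_add P
  have finish : ∀ x y : Qbar, x ∈ A → (freyBar P).Equation x y → psi (freyBar P) x y = 0 →
      A.valuation (tanNum (freyBar P) x y) = 1 → ∃ (x y : Qbar) (hx : x ∈ A) (hy : y ∈ A),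
        (freyBar P).Nonsingular x y ∧ psi (freyBar P) x y = 0 ∧
        hW.redCurve.Nonsingular (residue A ⟨x, hx⟩) (residue A ⟨y, hy⟩) := fun x y hx he hψ ht =>
    ⟨x, y, hx, hW.y_mem he hx, equation_iff_nonsingular.mp he, hψ,
      (hW.redCurve_nonsingular_iff (x := ⟨x, hx⟩) (y := ⟨y, hW.y_mem he hx⟩) he).mpr (Or.inr ht)⟩
  have hdiv : ∀ {z : Qbar}, z ∈ A → z / 4 ∈ A := fun hz => by
    have h4 : A.valuation (4 : Qbar) = 1 := by
      have : A.valuation (4 : Qbar) ^ 2 = 1 := by rw [← map_pow]; norm_num; exact h16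
      exact (pow_eq_one_iff_of_nonneg zero_le two_ne_zero).mp this
    exact mem_of_val_le_one (by rw [map_div₀, h4, div_one]; exact val_le_one hz)
  by_cases ha : (q : ℤ) ∣ P.a
  · have hb := hcop P.hgcdab ha
    have hc := hcop P.hgcdac ha
    refine finish (-(P.b : Qbar) ^ P.p / 4) ((P.b : Qbar) ^ P.p / 8)
      (hdiv (neg_mem (pow_mem (intCast_mem A _) _))) ?_ ?_ ?_
    · rw [equation_iff]
      simp only [freyBar_a₁, freyBar_a₂, freyBar_a₃, freyBar_a₄, freyBar_a₆]
      ring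
    · simp only [psi, freyBar_a₁, freyBar_a₃]; ring
    · have : tanNum (freyBar P) (-(P.b : Qbar) ^ P.p / 4) ((P.b : Qbar) ^ P.p / 8) =
          (P.b : Qbar) ^ P.p * (P.c : Qbar) ^ P.p / 16 := by
        simp only [tanNum, freyBar_a₁, freyBar_a₂, freyBar_a₄, ← hadd]; ring
      rw [this, map_div₀, map_mul, hv1 hb, hv1 hc, h16, div_one, one_mul]
  by_cases hb : (q : ℤ) ∣ P.b
  · have hc := hcop P.hgcdbc hb
    refine finish ((P.a : Qbar) ^ P.p / 4) (-(P.a : Qbar) ^ P.p / 8)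
      (hdiv (pow_mem (intCast_mem A _) _)) ?_ ?_ ?_
    · rw [equation_iff]
      simp only [freyBar_a₁, freyBar_a₂, freyBar_a₃, freyBar_a₄, freyBar_a₆]
      ring
    · simp only [psi, freyBar_a₁, freyBar_a₃]; ring
    · have : tanNum (freyBar P) ((P.a : Qbar) ^ P.p / 4) (-(P.a : Qbar) ^ P.p / 8) =
          (P.a : Qbar) ^ P.p * (P.c : Qbar) ^ P.p / 16 := by
        simp only [tanNum, freyBar_a₁, freyBar_a₂, freyBar_a₄, ← hadd]; ring
      rw [this, map_div₀, map_mul, hv1 ha, hv1 hc, h16, div_one, one_mul]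
  refine finish 0 0 A.zero_mem ?_ ?_ ?_
  · rw [equation_iff, freyBar_a₃, freyBar_a₆]; ring
  · rw [psi, freyBar_a₁, freyBar_a₃]; ring
  · have : tanNum (freyBar P) 0 0 = (freyBar P).a₄ := by simp [tanNum]
    rw [this, freyBar_a₄, map_div₀, map_mul, A.valuation.map_neg, hv1 ha, hv1 hb, h16, div_one,
      one_mul]

/-- The abscissae of the nonzero `p`-torsion outside `A` multiply to the size of `1/p`. -/
theorem frey_torsion_product (hA : A.LiesOverPrime P.p) :
    ∃ X : Finset Qbar, (∀ r, r ∈ X ↔ r ∉ A ∧ ∃ s h, P.p • Point.some (W' := freyBar P) r s h = 0) ∧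
      A.valuation (P.p : Qbar) * ∏ r ∈ X, A.valuation r = 1 := by
  classical
  have hp2 : P.p ≠ 2 := by have := P.hp5; omega
  have hW := intCoeff_frey P P.pp hp2 hA
  obtain ⟨x₀, y₀, hx₀, hy₀, h₀, hψ, hns⟩ := exists_two_torsion_nonsingular P P.pp hp2 hA hW
  obtain ⟨Am, B, hmul⟩ := FLTAgent.Torsion.exists_isMulPoly (W := freyBar P) P.p
  refine ⟨_, fun r => ?_, val_p_mul_prod_eq_one hW P.hp_odd hmul hx₀ hy₀ h₀ hψ hns⟩
  rw [Finset.mem_filter, Multiset.mem_toFinset,
    Polynomial.mem_roots (mulPoly_den_natDegree hmul P.hp0).1]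
  constructor
  · rintro ⟨hr, hrA⟩
    obtain ⟨s, hs⟩ := FLTAgent.Torsion.exists_point_of_X (W := freyBar P) r
    exact ⟨hrA, s, hs, (hmul.nsmul_eq_zero_iff hs).mpr hr⟩
  · rintro ⟨hrA, s, hs, h⟩
    exact ⟨(hmul.nsmul_eq_zero_iff hs).mp h, hrA⟩

/-- The point-level form: an inertia element multiplies the points of `E₁[p]` by the value of
the cyclotomic character, when that group is a line. -/
theorem frey_inertia_e1 (hA : A.LiesOverPrime P.p) [Fact P.p.Prime] {x₀ y₀ : Qbar}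
    (h₀ : (freyBar P).Nonsingular x₀ y₀) (hx₀ : x₀ ∉ A) (hT : P.p • Point.some x₀ y₀ h₀ = 0)
    (hline : ∀ T : (freyBar P).Point, P.p • T = 0 → InE1 A T →
      ∃ k : ℕ, T = k • Point.some x₀ y₀ h₀)
    {σ : Qbar ≃ₐ[ℚ] Qbar} (hσ : σ ∈ A.inertiaSubgroupIn ℚ) :
    σ • Point.some x₀ y₀ h₀ = ExtCitation.cycloExp P.p σ • Point.some x₀ y₀ h₀ := by
  classical
  have hp2 : P.p ≠ 2 := by have := P.hp5; omega
  have hW := intCoeff_frey P P.pp hp2 hA
  set R := Point.some x₀ y₀ h₀ with hR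
  have hv1 : ∀ {k : ℕ}, ¬P.p ∣ k → A.valuation (k : Qbar) = 1 := val_natCast_eq_one hA P.pp
  have hmod : ∀ k : ℕ, k • R = (k % P.p) • R := fun k => by
    conv_lhs => rw [← Nat.mod_add_div k P.p, add_nsmul, mul_nsmul, hT, nsmul_zero, add_zero]
  obtain ⟨X, hX, hprod⟩ := frey_torsion_product P hA
  -- the abscissae outside `A` are those of `R, 2R, …, ((p-1)/2)R`
  have hhalf : ∀ k ∈ Finset.Icc 1 ((P.p - 1) / 2), ¬P.p ∣ k := fun k hk hd => by
    rw [Finset.mem_Icc] at hk
    have := Nat.le_of_dvd hk.1 hd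
    omega
  have hcard : X.card = (P.p - 1) / 2 ∧ ∀ r ∈ X, A.valuation r = A.valuation x₀ := by
    let g : ℕ → Qbar := fun k => match k • R with
      | .zero => 0
      | .some x _ _ => x
    have hg : ∀ k, ¬P.p ∣ k → ∃ y h, k • R = Point.some (g k) y h ∧ g k ∉ A ∧
        A.valuation (g k) = A.valuation x₀ := by
      intro k hk
      obtain ⟨x', y', h', e, hx', hv', -⟩ := e1_nsmul hW (h := h₀) hx₀ (hv1 hk)
      have hgk : g k = x' := by simp only [g, hR, e]
      exact ⟨y', hgk ▸ h', by rw [e]; congr 1; exact hgk.symm, hgk ▸ hx', hgk ▸ hv'⟩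
    have hinj : Set.InjOn g (Finset.Icc 1 ((P.p - 1) / 2)) := by
      intro a ha b hb e
      rw [Finset.mem_coe] at ha hb
      obtain ⟨ya, hya, ea, -⟩ := hg a (hhalf a ha)
      obtain ⟨yb, hyb, eb, -⟩ := hg b (hhalf b hb)
      rw [Finset.mem_Icc] at ha hb
      have key : ∀ n : ℕ, 0 < n → n < P.p → n • R ≠ 0 := fun n h1 h2 h => by
        refine Point.some_ne_zero h₀ ?_
        refine eq_zero_of_inE1_of_nsmul hW (inE1_some_iff.mpr hx₀)
          (hv1 fun hd => absurd (Nat.le_of_dvd h1 hd) (not_le.mpr h2)) h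
      rcases (Point.X_eq_iff (h₁ := hya) (h₂ := hyb)).mp e with e' | e'
      · rw [← ea, ← eb] at e'
        by_contra hne
        rcases Nat.lt_or_gt_of_ne hne with hlt | hlt
        · refine key (b - a) (by omega) (by omega) ?_
          rw [sub_nsmul _ hlt.le, e', add_neg_cancel]
        · refine key (a - b) (by omega) (by omega) ?_
          rw [sub_nsmul _ hlt.le, e', add_neg_cancel]
      · rw [← ea, ← eb] at e'
        exact absurd (by rw [add_nsmul, e', neg_add_cancel]) (key (a + b) (by omega) (by omega))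
    have himg : X = (Finset.Icc 1 ((P.p - 1) / 2)).image g := by
      ext r
      rw [hX, Finset.mem_image]
      constructor
      · rintro ⟨hrA, s, hs, hp⟩
        obtain ⟨k, hk⟩ := hline _ hp (inE1_some_iff.mpr hrA)
        rw [hmod] at hk
        have hk0 : k % P.p ≠ 0 := fun e => by
          rw [e, zero_nsmul] at hk; exact Point.some_ne_zero hs hk
        have hklt := Nat.mod_lt k P.pp.pos
        by_cases hkh : k % P.p ≤ (P.p - 1) / 2
        · exact ⟨k % P.p, Finset.mem_Icc.mpr ⟨by omega, hkh⟩, by simp only [g, ← hk]⟩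
        · refine ⟨P.p - k % P.p, Finset.mem_Icc.mpr ⟨by omega, by
            obtain ⟨j, hj⟩ := P.hp_odd; omega⟩, ?_⟩
          have : (P.p - k % P.p) • R = -Point.some r s hs := by
            rw [sub_nsmul _ hklt.le, hT, zero_add, hk]
          simp only [g, this, Point.neg_some]
      · rintro ⟨k, hk, rfl⟩
        obtain ⟨y, h, e, hA', -⟩ := hg k (hhalf k hk)
        exact ⟨hA', y, h, by rw [← e, smul_comm, hT, nsmul_zero]⟩
    refine ⟨by rw [himg, Finset.card_image_of_injOn hinj, Nat.card_Icc]; omega, fun r hr => ?_⟩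
    rw [himg, Finset.mem_image] at hr
    obtain ⟨k, hk, rfl⟩ := hr
    exact (hg k (hhalf k hk)).choose_spec.choose_spec.2.2
  -- hence the parameter `x / y` has the size of `ζ - 1`
  obtain ⟨hyx, hxy⟩ := val_sq_eq_cube hW h₀.1 hx₀
  have hx1 := not_mem_iff_one_lt_val.mp hx₀
  have hvx : (0 : A.ValueGroup) < A.valuation x₀ := zero_lt_one.trans hx1
  have hvy : (0 : A.ValueGroup) < A.valuation y₀ := hvx.trans hxy
  rw [Finset.prod_congr rfl hcard.2, Finset.prod_const, hcard.1] at hprod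
  obtain ⟨ζ, hζ⟩ := FLTAgent.Reducible.exists_primitiveRoot P.p
  have hζv := val_sub_one_pow (A := A) P.pp hζ
  set t := x₀ / y₀ with ht
  have htv : A.valuation t ^ (P.p - 1) = A.valuation (P.p : Qbar) := by
    have h2 : A.valuation t ^ 2 * A.valuation x₀ = 1 := by
      rw [ht, map_div₀, div_pow, hyx, div_mul_eq_mul_div, ← pow_succ,
        div_self (pow_ne_zero 3 hvx.ne')]
    obtain ⟨j, hj⟩ := P.hp_odd
    rw [show (P.p - 1) / 2 = j by omega] at hprod
    rw [show P.p - 1 = 2 * j by omega, pow_mul]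
    calc (A.valuation t ^ 2) ^ j
        = (A.valuation t ^ 2) ^ j * (A.valuation (P.p : Qbar) * A.valuation x₀ ^ j) := by
          rw [hprod, mul_one]
      _ = (A.valuation t ^ 2 * A.valuation x₀) ^ j * A.valuation (P.p : Qbar) := by
          rw [mul_pow]; ac_rfl
      _ = A.valuation (P.p : Qbar) := by rw [h2, one_pow, one_mul]
  have hteq : A.valuation t = A.valuation (ζ - 1) :=
    (pow_left_inj₀ zero_le zero_le (by have := P.hp5; omega)).mp (htv.trans hζv.symm)
  have hζ1 : ζ - 1 ≠ 0 := sub_ne_zero.mpr (hζ.ne_one P.pp.one_lt)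
  have ht0 : t ≠ 0 := by
    intro e; rw [e, map_zero] at hteq; exact hζ1 (A.valuation.zero_iff.mp hteq.symm)
  -- compare the two actions
  obtain ⟨h', e⟩ := smul_some P σ h₀
  have hσT : P.p • Point.some (σ x₀) (σ y₀) h' = 0 := by
    rw [← e, ← nsmul_smul_point, hT, smul_point_zero]
  have hres : ResidueFix A (σ : Qbar →+* Qbar) := residueFix_of_mem_inertia hσ
  obtain ⟨k, hk⟩ := hline _ hσT (inE1_some_iff.mpr (hres.map_not_mem hx₀))
  have hk0 : ¬P.p ∣ k := by
    rintro ⟨m, rfl⟩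
    rw [mul_nsmul, hT, nsmul_zero] at hk
    exact Point.some_ne_zero h' hk
  obtain ⟨x', y', h'', e', -, -, hk'⟩ := e1_nsmul hW (h := h₀) hx₀ (hv1 hk0)
  rw [← hk, Point.some.injEq] at e'
  obtain ⟨ex, ey⟩ := e'
  rw [← ex, ← ey, ← ht, ← map_div₀ σ, ← ht] at hk'
  -- `σ t / t ≡ (σ ζ - 1) / (ζ - 1) ≡ e`
  set w := t / (ζ - 1) with hw
  have hwv : A.valuation w = 1 := by
    rw [hw, map_div₀, hteq, div_self (A.valuation.pos_iff.mpr hζ1).ne']
  have hw0 : w ≠ 0 := div_ne_zero ht0 hζ1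
  set e₀ := ExtCitation.cycloExp P.p σ with he₀
  have hσζ : σ ζ = ζ ^ e₀ := FLTAgent.Reducible.map_eq_pow_cycloExp P.p σ hζ.pow_eq_one
  set S := ∑ i ∈ Finset.range e₀, ζ ^ i with hS
  have hσt : σ t / t = σ w / w * S := by
    have : σ t = σ w * ((ζ - 1) * S) := by
      rw [hS, mul_geom_sum, ← hσζ, show t = w * (ζ - 1) from (div_mul_cancel₀ t hζ1).symm,
        map_mul, map_sub, map_one]
    rw [this, show t = w * (ζ - 1) from (div_mul_cancel₀ t hζ1).symm]
    field_simp
  have hζA : ζ ∈ A := mem_of_val_le_one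
    ((pow_eq_one_iff_of_nonneg zero_le P.pp.ne_zero).mp
      (by rw [← map_pow, hζ.pow_eq_one, map_one])).le
  have hζlt : A.valuation (ζ - 1) < 1 := by
    by_contra hc
    have : A.valuation (P.p : Qbar) < 1 := A.mem_nonunits_iff.mp hA
    rw [← hζv] at this
    exact absurd this (not_lt.mpr (one_le_pow₀ (not_lt.mp hc)))
  have hSe : A.valuation (S - (e₀ : Qbar)) < 1 := by
    have : S - (e₀ : Qbar) = ∑ i ∈ Finset.range e₀, (ζ ^ i - 1) := by
      rw [Finset.sum_sub_distrib, Finset.sum_const, Finset.card_range, nsmul_one]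
    rw [this]
    refine A.valuation.map_sum_lt one_ne_zero fun i _ => ?_
    rw [← geom_sum_mul, map_mul]
    exact (mul_le_of_le_one_left'
      (val_le_one (sum_mem fun j _ => pow_mem hζA j))).trans_lt hζlt
  have hkey : A.valuation ((k : Qbar) - (e₀ : Qbar)) < 1 := by
    have e1 : (k : Qbar) - (e₀ : Qbar) =
        (σ w - w) / w * S + (S - (e₀ : Qbar)) - (σ t / t - (k : Qbar)) := by
      rw [hσt]; field_simp; ring
    rw [e1]
    refine A.valuation.map_sub_lt (A.valuation.map_add_lt ?_ hSe) hk'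
    rw [map_mul, map_div₀, hwv, div_one]
    refine (mul_le_of_le_one_right' (val_le_one (sum_mem fun j _ => pow_mem hζA j))).trans_lt ?_
    exact hres w (mem_of_val_le_one hwv.le)
  have hdvd : (P.p : ℤ) ∣ (k : ℤ) - (e₀ : ℤ) := by
    by_contra hc
    have := val_intCast_eq_one hA P.pp hc
    push_cast at this
    exact hkey.ne this
  have hcong : k % P.p = e₀ % P.p :=
    ((Nat.modEq_iff_dvd.mpr hdvd : e₀ ≡ k [MOD P.p])).symm
  rw [e, hk, hmod k, hcong, ← hmod]

/-- With a Galois-stable line, at a place over `p`: the kernel of reduction cuts out a line,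
stable under decomposition, on which inertia acts by the cyclotomic character, and inertia is
trivial on the quotient. -/
theorem frey_local_at_p {N : Submodule (ZMod P.p) (Submodule.torsionBy ℤ (P.freyCurve⁄Qbar).Point P.p)}
    (hN0 : N ≠ ⊥) (hN1 : N ≠ ⊤) (hst : ∀ σ : Qbar ≃ₐ[ℚ] Qbar, ∀ x ∈ N, σ • x ∈ N)
    (hA : A.LiesOverPrime P.p) :
    ∃ M : Submodule (ZMod P.p) (Submodule.torsionBy ℤ (P.freyCurve⁄Qbar).Point P.p),
      M ≠ ⊥ ∧ M ≠ ⊤ ∧
      (∀ σ ∈ A.decompositionSubgroup ℚ, ∀ x ∈ M, σ • x ∈ M) ∧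
      (∀ σ ∈ A.inertiaSubgroupIn ℚ, ∀ x ∈ M,
        σ • x = (@ExtCitation.cycloExp P.p ⟨P.pp⟩ σ : ZMod P.p) • x) ∧
      (∀ σ ∈ A.inertiaSubgroupIn ℚ, ∀ x, σ • x - x ∈ M) := by
  classical
  have : Fact P.p.Prime := ⟨P.pp⟩
  have hp2 : P.p ≠ 2 := by have := P.hp5; omega
  have hW := intCoeff_frey P P.pp hp2 hA
  let H : AddSubgroup (freyTorsion P) := (e1Subgroup hW).comap (freyTorsion P).subtype.toAddMonoidHom
  let M : Submodule (ZMod P.p) (freyTorsion P) := AddSubgroup.toZModSubmodule P.p H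
  have hM : ∀ x : freyTorsion P, x ∈ M ↔ InE1 (W := freyBar P) A x.1 := fun x => Iff.rfl
  obtain ⟨X, hX, hprod⟩ := frey_torsion_product P hA
  have hpos : A.valuation (P.p : Qbar) < 1 := A.mem_nonunits_iff.mp hA
  have hne : X.Nonempty := by
    by_contra hc
    rw [Finset.not_nonempty_iff_eq_empty] at hc
    rw [hc, Finset.prod_empty, mul_one] at hprod
    exact hpos.ne hprod
  obtain ⟨r₀, hr₀⟩ := hne
  obtain ⟨hr₀A, s₀, hs₀, hR₀⟩ := (hX r₀).mp hr₀
  set R₀ : freyTorsion P := ⟨Point.some r₀ s₀ hs₀, (torsion_iff P).mpr hR₀⟩ with hR₀def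
  have hR₀M : R₀ ∈ M := (hM _).mpr (inE1_some_iff.mpr hr₀A)
  have hR₀0 : R₀ ≠ 0 := fun e => Point.some_ne_zero hs₀ (congrArg Subtype.val e)
  have hMbot : M ≠ ⊥ := M.ne_bot_iff.mpr ⟨R₀, hR₀M, hR₀0⟩
  have hMtop : M ≠ ⊤ := by
    intro htop
    have hall : ∀ T : (freyBar P).Point, P.p • T = 0 → InE1 A T := fun T hT =>
      (hM ⟨T, (torsion_iff P).mpr hT⟩).mp (htop ▸ Submodule.mem_top)
    -- the abscissae of the stable line
    set XN : Finset Qbar := X.filter fun r => ∀ s h hp,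
      (⟨Point.some (W' := freyBar P) r s h, (torsion_iff P).mpr hp⟩ : freyTorsion P) ∈ N with hXN
    obtain ⟨v, hvN, hv0⟩ := N.ne_bot_iff.mp hN0
    have hone : ∀ {r : Qbar}, r ∈ X → 1 < A.valuation r := fun hr =>
      not_mem_iff_one_lt_val.mp ((hX _).mp hr).1
    have hpm : ∀ {r s s' : Qbar} {h : (freyBar P).Nonsingular r s}
        {h' : (freyBar P).Nonsingular r s'} (hp : P.p • Point.some r s h = 0)
        (hp' : P.p • Point.some r s' h' = 0),
        (⟨_, (torsion_iff P).mpr hp⟩ : freyTorsion P) ∈ N →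
        (⟨_, (torsion_iff P).mpr hp'⟩ : freyTorsion P) ∈ N := by
      intro r s s' h h' hp hp' hm
      rcases (Point.X_eq_iff (h₁ := h') (h₂ := h)).mp rfl with e | e
      · exact (Subtype.ext e : (⟨_, (torsion_iff P).mpr hp'⟩ : freyTorsion P) =
          ⟨_, (torsion_iff P).mpr hp⟩) ▸ hm
      · exact (Subtype.ext e : (⟨_, (torsion_iff P).mpr hp'⟩ : freyTorsion P) =
          -⟨_, (torsion_iff P).mpr hp⟩) ▸ N.neg_mem hm
    have hXNne : XN.Nonempty := by
      obtain ⟨T, hTp⟩ := v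
      rcases T with _ | ⟨r, s, h⟩
      · exact absurd rfl hv0
      have hp := (torsion_iff P).mp hTp
      refine ⟨r, Finset.mem_filter.mpr ⟨(hX r).mpr ⟨inE1_some_iff.mp (hall _ hp), s, h, hp⟩,
        fun s' h' hp' => ?_⟩⟩
      exact hpm hp hp' hvN
    have hstab : ∀ σ : Qbar ≃ₐ[ℚ] Qbar, ∀ r ∈ XN, σ r ∈ XN := by
      intro σ r hr
      rw [hXN, Finset.mem_filter] at hr ⊢
      obtain ⟨hrX, hrN⟩ := hr
      obtain ⟨-, s, h, hp⟩ := (hX r).mp hrX
      obtain ⟨h', e⟩ := smul_some P σ h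
      have hp' : P.p • Point.some (σ r) (σ s) h' = 0 := by
        rw [← e, ← nsmul_smul_point, hp, smul_point_zero]
      refine ⟨(hX _).mpr ⟨inE1_some_iff.mp (hall _ hp'), _, h', hp'⟩, fun s'' h'' hp'' => ?_⟩
      refine hpm hp' hp'' ?_
      have := hst σ _ (hrN s h hp)
      exact (Subtype.ext e : σ • (⟨_, (torsion_iff P).mpr hp⟩ : freyTorsion P) =
          ⟨_, (torsion_iff P).mpr hp'⟩) ▸ this
    have hfix : ∀ σ : Qbar ≃ₐ[ℚ] Qbar, σ (∏ r ∈ XN, r) = ∏ r ∈ XN, r := by
      intro σ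
      rw [map_prod]
      have himg : XN.image σ = XN := Finset.eq_of_subset_of_card_le
        (Finset.image_subset_iff.mpr (hstab σ))
        (by rw [Finset.card_image_of_injective _ σ.injective])
      conv_rhs => rw [← himg, Finset.prod_image fun a _ b _ h => σ.injective h]
    have : Algebra.IsAlgebraic ℚ Qbar := AlgebraicClosure.isAlgebraic ℚ
    have : IsAlgClosure ℚ Qbar := ⟨inferInstance, inferInstance⟩
    have : IsGalois ℚ Qbar := { to_normal := IsAlgClosure.normal ℚ Qbar }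
    obtain ⟨z, hz⟩ := (InfiniteGalois.mem_range_algebraMap_iff_fixed _).mpr hfix
    obtain ⟨r₁, hr₁⟩ := hXNne
    have hbig : 1 < A.valuation (∏ r ∈ XN, r) := by
      rw [map_prod]
      exact one_lt_prod_val (fun r hr => (hone (Finset.mem_filter.mp hr).1).le)
        ⟨r₁, hr₁, hone (Finset.mem_filter.mp hr₁).1⟩
    rw [← hz, eq_ratCast] at hbig
    have hlow := one_le_val_mul_of_rat hA P.pp hbig
    rw [← eq_ratCast (algebraMap ℚ Qbar), hz, map_prod, mul_comm] at hlow
    -- a torsion point outside the line has an abscissa outside `XN`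
    obtain ⟨w, -, hw⟩ := SetLike.exists_of_lt (lt_top_iff_ne_top.mpr hN1)
    obtain ⟨T, hTp⟩ := w
    rcases T with _ | ⟨r, s, h⟩
    · exact hw N.zero_mem
    have hp := (torsion_iff P).mp hTp
    have hrX : r ∈ X := (hX r).mpr ⟨inE1_some_iff.mp (hall _ hp), s, h, hp⟩
    have hrN : r ∉ XN := fun hr => hw ((Finset.mem_filter.mp hr).2 s h hp)
    have hlt : (∏ r ∈ XN, A.valuation r) < ∏ r ∈ X, A.valuation r := by
      rw [← Finset.prod_sdiff (show XN ⊆ X from fun a ha => (Finset.mem_filter.mp ha).1)]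
      refine lt_mul_of_one_lt_left
        (Finset.prod_pos fun a ha => zero_lt_one.trans (hone (Finset.mem_filter.mp ha).1)) ?_
      exact one_lt_prod_val (fun a ha => (hone (Finset.mem_sdiff.mp ha).1).le)
        ⟨r, Finset.mem_sdiff.mpr ⟨hrX, hrN⟩, hone hrX⟩
    have hvp : (0 : A.ValueGroup) < A.valuation (P.p : Qbar) :=
      A.valuation.pos_iff.mpr (Nat.cast_ne_zero.mpr P.hp0)
    exact absurd (hlow.trans_lt (mul_lt_mul_of_pos_left hlt hvp)) (by rw [hprod]; exact lt_irrefl 1)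
  have hline : ∀ T : (freyBar P).Point, P.p • T = 0 → InE1 A T →
      ∃ k : ℕ, T = k • Point.some r₀ s₀ hs₀ := by
    have hn : ((P.p : ℕ) : Qbar) ≠ 0 := Nat.cast_ne_zero.mpr P.hp0
    have : WeierstrassCurve.IsElliptic (P.freyCurve⁄Qbar) := freyBar_isElliptic P
    have := FLTAgent.Torsion.finite_torsionBy (W := P.freyCurve) (K := Qbar) hn
    have h2 : Module.finrank (ZMod P.p) (freyTorsion P) = 2 :=
      FLTAgent.Torsion.finrank_torsionBy (W := P.freyCurve) (K := Qbar) hn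
    have hlt : Module.finrank (ZMod P.p) M < 2 := h2 ▸ Submodule.finrank_lt hMtop
    have hspan : Submodule.span (ZMod P.p) {R₀} = M :=
      Submodule.eq_of_le_of_finrank_le ((Submodule.span_singleton_le_iff_mem _ _).mpr hR₀M)
        (by rw [finrank_span_singleton hR₀0]; omega)
    intro T hT hT1
    have hmem : (⟨T, (torsion_iff P).mpr hT⟩ : freyTorsion P) ∈ M := (hM _).mpr hT1
    rw [← hspan, Submodule.mem_span_singleton] at hmem
    obtain ⟨c, hc⟩ := hmem
    refine ⟨c.val, ?_⟩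
    rw [← ZMod.natCast_zmod_val c, Nat.cast_smul_eq_nsmul] at hc
    exact (congrArg Subtype.val hc).symm
  refine ⟨M, hMbot, hMtop, fun σ hσ x hx => ?_, fun σ hσ x hx => ?_, fun σ hσ x => ?_⟩
  · rw [hM] at hx ⊢
    have key : ∀ T : (freyBar P).Point, InE1 A T → InE1 A (σ • T) := by
      intro T hT
      rcases T with _ | ⟨r, s, h⟩
      · exact inE1_zero
      obtain ⟨h', e⟩ := smul_some P σ h
      rw [e, inE1_some_iff, mem_iff_of_mem_decomposition hσ]
      exact hT
    exact key x.1 hx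
  · obtain ⟨k, hk⟩ := hline x.1 ((torsion_iff P).mp x.2) ((hM x).mp hx)
    rw [Nat.cast_smul_eq_nsmul]
    refine Subtype.ext ?_
    have key : σ • (k • Point.some r₀ s₀ hs₀) =
        ExtCitation.cycloExp P.p σ • (k • Point.some r₀ s₀ hs₀) := by
      rw [nsmul_smul_point, frey_inertia_e1 P hA hs₀ hr₀A hR₀ hline hσ, smul_comm]
    rw [← hk] at key
    exact key
  · rw [hM]
    have key : ∀ T : (freyBar P).Point, P.p • T = 0 → InE1 A (σ • T - T) := fun T hT => by
      rw [← neg_sub, inE1_neg]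
      exact frey_sub_smul_inE1 P P.pp hp2 hA hσ hT
    exact key x.1 ((torsion_iff P).mp x.2)

end FLTAgent.LocalEC
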