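import Fermat.Agent.LocalEC.Decomposition
import Fermat.Agent.LocalEC.Nodal

/-!
The Frey curve at `2`.
-/

set_option autoImplicit false

namespace FLTAgent.LocalEC

open WeierstrassCurve WeierstrassCurve.Affine IsLocalRing
open scoped WeierstrassCurve.Affine

local notation "Qbar" => AlgebraicClosure ℚ

variable (P : FreyPackage) {A : ValuationSubring Qbar}

/-- At `2` the Frey model has a node. -/
theorem frey_nodeModel_two (hA : A.LiesOverPrime 2) : NodeModel A (freyBar P) := by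
  have hp : 5 ≤ P.p := P.hp5
  have h2b : (2 : ℤ) ∣ P.b := (ZMod.intCast_zmod_eq_zero_iff_dvd P.b 2).mp P.hb2
  have h2a : ¬(2 : ℤ) ∣ P.a := fun h =>
    Int.prime_two.not_isUnit (isUnit_of_dvd_one (P.hgcdab ▸ dvd_gcd h h2b))
  have hbp : (2 : ℤ) ^ 5 ∣ P.b ^ P.p :=
    (pow_dvd_pow_of_dvd h2b 5).trans (pow_dvd_pow P.b hp)
  obtain ⟨m, hm⟩ := hbp
  have h4 : (4 : ℤ) ∣ P.b ^ P.p - 1 - P.a ^ P.p := by
    have : ((P.b ^ P.p - 1 - P.a ^ P.p : ℤ) : ZMod 4) = 0 := by
      have h32 : ((2 ^ 5 : ℤ) : ZMod 4) = 0 := by decide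
      push_cast [hm]
      have : ((P.a : ZMod 4)) ^ P.p = 3 := by
        rw [P.ha4]
        obtain ⟨j, hj⟩ := P.hp_odd
        rw [hj, pow_succ, pow_mul, show (3 : ZMod 4) ^ 2 = 1 from by decide, one_pow, one_mul]
      rw [this]
      push_cast at h32
      rw [h32, zero_mul]
      decide
    exact (ZMod.intCast_zmod_eq_zero_iff_dvd _ 4).mp this
  obtain ⟨n, hn⟩ := h4
  have ha : (freyBar P).a₂ = (n : Qbar) := by
    rw [freyBar_a₂]
    have : ((P.b ^ P.p - 1 - P.a ^ P.p : ℤ) : Qbar) = ((4 * n : ℤ) : Qbar) :=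
      congrArg Int.cast hn
    push_cast at this
    rw [this]; ring
  have hb : (freyBar P).a₄ = ((-(P.a ^ P.p) * (2 * m) : ℤ) : Qbar) := by
    rw [freyBar_a₄]
    have : ((P.b ^ P.p : ℤ) : Qbar) = ((2 ^ 5 * m : ℤ) : Qbar) := congrArg Int.cast hm
    push_cast at this ⊢
    rw [this]; ring
  refine ⟨⟨?_, ?_, ?_, ?_, ?_⟩, freyBar_a₃ P, freyBar_a₆ P, ?_, ?_, ?_⟩
  · rw [freyBar_a₁]; exact one_mem A
  · rw [ha]; exact intCast_mem A n
  · rw [freyBar_a₃]; exact zero_mem A
  · rw [hb]; exact intCast_mem A _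
  · rw [freyBar_a₆]; exact zero_mem A
  · rw [freyBar_b₂, show (P.b : Qbar) ^ P.p - (P.a : Qbar) ^ P.p =
      ((P.b ^ P.p - P.a ^ P.p : ℤ) : Qbar) by push_cast; ring]
    refine val_intCast_eq_one hA Nat.prime_two fun h => h2a ?_
    have hbp' : ((2 : ℕ) : ℤ) ∣ P.b ^ P.p := h2b.trans (dvd_pow_self _ P.hp0)
    exact Int.prime_two.dvd_of_dvd_pow (by simpa using dvd_sub hbp' h)
  · rw [hb]
    exact val_intCast_lt_one hA ⟨-(P.a ^ P.p) * m, by push_cast; ring⟩
  · rw [freyBar_a₄]
    exact div_ne_zero (mul_ne_zero (neg_ne_zero.mpr (pow_ne_zero _ (Int.cast_ne_zero.mpr P.ha0)))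
      (pow_ne_zero _ (Int.cast_ne_zero.mpr P.hb0))) (by norm_num)

lemma frey_map_a₄ (σ : Qbar ≃ₐ[ℚ] Qbar) : σ (freyBar P).a₄ = (freyBar P).a₄ := by
  rw [freyBar_a₄]; simp [map_div₀, map_ofNat]

/-- The decomposition group preserves the valuation of the abscissa of a torsion point outside
`E₀`. -/
lemma val_map_x_eq (hN : NodeModel A (freyBar P)) {σ : Qbar ≃ₐ[ℚ] Qbar}
    (hσ : σ ∈ A.decompositionSubgroup ℚ) {x y : Qbar} {h : (freyBar P).Nonsingular x y}
    (hT : P.p • Point.some x y h = 0) (h0 : ¬InE0 hN.toIntCoeff (Point.some x y h)) :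
    A.valuation (σ x) = A.valuation x := by
  classical
  have : Fact P.p.Prime := ⟨P.pp⟩
  obtain ⟨k, -, -, hk⟩ :=
    hN.exists_xVal_pow_eq (by have := P.hp5; omega : P.p ≠ 2) hT h0
  rw [xVal_some] at hk
  have hu : A.valuation ((freyBar P).a₄ ^ (2 * k)) ≠ 0 := by
    rw [map_pow]; exact pow_ne_zero _ hN.u_pos.ne'
  have h1 : A.valuation (x ^ P.p / (freyBar P).a₄ ^ (2 * k)) = 1 := by
    rw [map_div₀, map_pow, hk, ← map_pow, div_self hu]
  have h2 := val_map_eq_one hσ h1
  rw [map_div₀, map_pow, map_pow, frey_map_a₄, map_div₀, map_pow, map_pow,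
    div_eq_one_iff_eq (by rw [← map_pow]; exact hu), ← hk] at h2
  exact (pow_left_inj₀ zero_le zero_le P.hp0).mp h2


/-- The torsion of the Frey curve at `2`: a line fixed by inertia, with inertia trivial and the
decomposition group acting by a sign on the quotient. -/
theorem frey_local_two (hA : A.LiesOverPrime 2) :
    ∃ L : Submodule (ZMod P.p) (Submodule.torsionBy ℤ (P.freyCurve⁄Qbar).Point P.p), L ≠ ⊤ ∧
      (∀ σ ∈ A.inertiaSubgroupIn ℚ, (∀ x ∈ L, σ • x = x) ∧ ∀ x, σ • x - x ∈ L) ∧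
      (∀ σ ∈ A.decompositionSubgroup ℚ, (∀ x, σ • x - x ∈ L) ∨ (∀ x, σ • x + x ∈ L)) := by
  classical
  have : Fact P.p.Prime := ⟨P.pp⟩
  have hp2 : P.p ≠ 2 := by have := P.hp5; omega
  have hN := frey_nodeModel_two P hA
  have hW := hN.toIntCoeff
  have hvp : A.valuation (P.p : Qbar) = 1 := val_natCast_eq_one hA Nat.prime_two fun h =>
    hp2 ((Nat.prime_dvd_prime_iff_eq Nat.prime_two P.pp).mp h).symm
  let H : AddSubgroup (freyTorsion P) := (e0Subgroup hN.toIntCoeff).comap (freyTorsion P).subtype.toAddMonoidHom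
  let L : Submodule (ZMod P.p) (freyTorsion P) := AddSubgroup.toZModSubmodule P.p H
  have hL : ∀ x : (freyTorsion P), x ∈ L ↔ InE0 hN.toIntCoeff x.1 := fun x => Iff.rfl
  have hfix' : ∀ σ ∈ A.inertiaSubgroupIn ℚ, ∀ T : (freyBar P).Point, P.p • T = 0 →
      InE0 hN.toIntCoeff T → σ • T = T := by
    intro σ hσ T hT hx
    rcases T with _ | ⟨u, w, h⟩
    · exact smul_point_zero P σ
    obtain ⟨h', e⟩ := smul_some P σ h
    have hp : P.p • (Point.some u w h - σ • Point.some u w h) = 0 := by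
      rw [nsmul_sub, ← nsmul_smul_point, hT, smul_point_zero, sub_zero]
    rw [e] at hp ⊢
    exact (sub_eq_zero.mp (eq_zero_of_inE1_of_nsmul hW
      ((residueFix_of_mem_inertia hσ).sub_inE1_of_inE0 hW h' hx) hvp hp)).symm
  have hfix : ∀ σ ∈ A.inertiaSubgroupIn ℚ, ∀ x : (freyTorsion P), x ∈ L → σ • x = x :=
    fun σ hσ x hx => Subtype.ext (hfix' σ hσ x.1 ((torsion_iff P).mp x.2) ((hL x).mp hx))
  have hpm' : ∀ σ ∈ A.decompositionSubgroup ℚ, ∀ T : (freyBar P).Point, P.p • T = 0 →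
      InE0 hN.toIntCoeff (σ • T - T) ∨ InE0 hN.toIntCoeff (σ • T + T) := by
    intro σ hσ T hT
    rcases T with _ | ⟨u, w, h⟩
    · left; rw [← Point.zero_def, smul_point_zero, sub_zero]; exact inE0_zero _
    obtain ⟨h', e⟩ := smul_some P σ h
    have hT' : P.p • Point.some (σ u) (σ w) h' = 0 := by
      rw [← e, ← nsmul_smul_point, hT, smul_point_zero]
    rw [e]
    by_cases h0 : InE0 hN.toIntCoeff (Point.some u w h)
    · left
      refine (mem_e0Subgroup _).mp (sub_mem ((mem_e0Subgroup _).mpr ?_) ((mem_e0Subgroup _).mpr h0))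
      by_contra hc
      have hx := hN.not_inE0_iff.mp hc
      rw [xVal_some] at hx
      have hge := hN.inE0_iff.mp h0
      rw [xVal_some] at hge
      have hm : σ u ∈ A := mem_of_val_le_one hx.le
      have hu1 : A.valuation u = 1 :=
        le_antisymm (val_le_one ((mem_iff_of_mem_decomposition hσ u).mp hm)) hge
      exact hx.ne (val_map_eq_one hσ hu1)
    have hv := val_map_x_eq P hN hσ hT h0
    have hu := hN.u_lt_xVal P.hp_odd hT h0
    have hlt := hN.not_inE0_iff.mp h0
    rw [xVal_some] at hu hlt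
    exact (hN.add_or_sub_inE0 (P := Point.some (σ u) (σ w) h') (Q := Point.some u w h)
      (by rw [xVal_some, hv]; exact hu) (by rw [xVal_some, hv]; exact hlt)
      (by rw [xVal_some, xVal_some, hv])).symm
  have hpm : ∀ σ ∈ A.decompositionSubgroup ℚ, ∀ x : (freyTorsion P),
      σ • x - x ∈ L ∨ σ • x + x ∈ L :=
    fun σ hσ x => hpm' σ hσ x.1 ((torsion_iff P).mp x.2)
  have hquot : ∀ σ ∈ A.inertiaSubgroupIn ℚ, ∀ T : (freyBar P).Point, P.p • T = 0 →
      InE0 hN.toIntCoeff (σ • T - T) := by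
    intro σ hσ T hT
    by_cases h0 : InE0 hN.toIntCoeff T
    · rw [hfix' σ hσ T hT h0, sub_self]; exact inE0_zero _
    rcases T with _ | ⟨u, w, h⟩
    · exact absurd (inE0_zero _) h0
    obtain ⟨h', e⟩ := smul_some P σ h
    have hv := val_map_x_eq P hN (inertia_le_decomposition hσ) hT h0
    have hu := hN.u_lt_xVal P.hp_odd hT h0
    have hlt := hN.not_inE0_iff.mp h0
    rw [xVal_some] at hu hlt
    rw [e, ← neg_sub]
    exact inE0_neg _ ((residueFix_of_mem_inertia hσ).sub_inE0_of_node hN h' hu hlt hv)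
  refine ⟨L, ?_, fun σ hσ => ⟨hfix σ hσ, fun x => ?_⟩, fun σ hσ => ?_⟩
  · -- otherwise all `p²` torsion points would reduce injectively to the nodal cubic
    intro htop
    have hall : ∀ T : (freyBar P).Point, P.p • T = 0 → InE0 hN.toIntCoeff T := fun T hT =>
      (hL ⟨T, (torsion_iff P).mpr hT⟩).mp (htop ▸ Submodule.mem_top)
    have hn0 : ((P.p : ℕ) : Qbar) ≠ 0 := Nat.cast_ne_zero.mpr P.hp0
    have hcard := FLTAgent.Torsion.card_ker_nsmul (W := freyBar P) hn0
    have : Finite {T : (freyBar P).Point // P.p • T = 0} :=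
      Nat.finite_of_card_ne_zero (hcard ▸ pow_ne_zero 2 P.hp0)
    have hTf : {T : (freyBar P).Point | P.p • T = 0}.Finite := Set.finite_coe_iff.mp this
    have hinj : Set.InjOn (red hW) hTf.toFinset := by
      intro a ha b hb he
      rw [Finset.mem_coe, Set.Finite.mem_toFinset, Set.mem_ofPred_eq] at ha hb
      refine sub_eq_zero.mp (eq_zero_of_inE1_of_nsmul hW
        (sub_inE1_of_red_eq hW (hall a ha) (hall b hb) he) hvp ?_)
      rw [nsmul_sub, ha, hb, sub_zero]
    -- the tangent slopes at the node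
    obtain ⟨r, hr⟩ := IsAlgClosed.exists_root
      (Polynomial.C 1 * Polynomial.X ^ 2 + Polynomial.C 1 * Polynomial.X +
        Polynomial.C (-(freyBar P).a₂)) (by rw [Polynomial.degree_quadratic one_ne_zero]; decide)
    simp only [Polynomial.IsRoot.def, Polynomial.eval_add, Polynomial.eval_mul, Polynomial.eval_C,
      Polynomial.eval_pow, Polynomial.eval_X, one_mul] at hr
    have hrA : r ∈ A := mem_of_sq_add_mul (one_mem A) hW.mem₂ (by linear_combination hr)
    have hrA' : -1 - r ∈ A := sub_mem (neg_mem (one_mem A)) hrA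
    have hnd : IsNodal hW.redCurve (residue A ⟨r, hrA⟩) (residue A ⟨-1 - r, hrA'⟩) := by
      refine ⟨?_, ?_, ?_, ?_, ?_, ?_⟩
      · show residue A _ = _
        rw [← map_add, ← map_neg]
        refine congrArg _ (Subtype.ext ?_)
        show (freyBar P).a₁ = -(r + (-1 - r))
        rw [freyBar_a₁]; ring
      · show residue A _ = _
        rw [← map_mul, ← map_neg]
        refine congrArg _ (Subtype.ext ?_)
        show (freyBar P).a₂ = -(r * (-1 - r))
        linear_combination -hr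
      · exact (residue_eq_zero_iff_val_lt_one _).mpr (by
          show A.valuation (freyBar P).a₃ < 1
          rw [freyBar_a₃, map_zero]; exact zero_lt_one)
      · exact (residue_eq_zero_iff_val_lt_one _).mpr hN.a₄_lt
      · exact (residue_eq_zero_iff_val_lt_one _).mpr (by
          show A.valuation (freyBar P).a₆ < 1
          rw [freyBar_a₆, map_zero]; exact zero_lt_one)
      · intro e
        have h1 := (residue_eq_iff_val_sub_lt_one _ _).mp e
        change A.valuation (r - (-1 - r)) < 1 at h1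
        have h2 : (freyBar P).b₂ = (r - (-1 - r)) ^ 2 := by
          rw [WeierstrassCurve.b₂, freyBar_a₁]; linear_combination (-4 : Qbar) * hr
        have h3 := hN.b₂_unit
        rw [h2, map_pow] at h3
        exact (pow_lt_one₀ zero_le h1 two_ne_zero).ne h3
    have hle := hnd.card_nsmul_eq_zero_le (n := P.p) P.pp.pos
      (S := hTf.toFinset.image (red hW)) (by
        intro Q hQ
        obtain ⟨a, ha, rfl⟩ := Finset.mem_image.mp hQ
        rw [Set.Finite.mem_toFinset, Set.mem_ofPred_eq] at ha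
        have hh := map_nsmul (redHom hW) P.p ⟨a, hall a ha⟩
        rw [redHom_apply, redHom_apply, AddSubgroup.coe_nsmul] at hh
        rw [← hh, show P.p • a = 0 from ha]; rfl)
    rw [Finset.card_image_of_injOn hinj, ← Nat.card_eq_card_finite_toFinset hTf] at hle
    have h2 : P.p ^ 2 ≤ P.p := hcard ▸ hle
    nlinarith [P.hp5]
  · exact hquot σ hσ x.1 ((torsion_iff P).mp x.2)
  · by_cases hall : ∀ x : (freyTorsion P), σ • x - x ∈ L
    · exact Or.inl hall
    push Not at hall
    obtain ⟨x₀, hx₀⟩ := hall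
    refine Or.inr fun y => ?_
    have hx₀' := (hpm σ hσ x₀).resolve_left hx₀
    rcases hpm σ hσ y with hy | hy
    · rcases hpm σ hσ (x₀ + y) with hs | hs
      · refine absurd ?_ hx₀
        have : σ • x₀ - x₀ = (σ • (x₀ + y) - (x₀ + y)) - (σ • y - y) := by
          rw [smul_add]; abel
        exact this ▸ sub_mem hs hy
      · have : σ • y + y = (σ • (x₀ + y) + (x₀ + y)) - (σ • x₀ + x₀) := by
          rw [smul_add]; abel
        exact this ▸ sub_mem hs hx₀'
    · exact hy

end FLTAgent.LocalEC
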