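import Fermat.Agent.LocalEC.NodeTorsion

/-!
How an endomorphism of the field that is trivial on the residue field moves torsion points.
-/

set_option autoImplicit false

namespace FLTAgent.LocalEC

open WeierstrassCurve WeierstrassCurve.Affine IsLocalRing

variable {K : Type*} [Field K] {A : ValuationSubring K} {W : WeierstrassCurve.Affine K}

/-- `σ` preserves `A` and is trivial on its residue field. -/
def ResidueFix (A : ValuationSubring K) (σ : K →+* K) : Prop :=
  ∀ z ∈ A, A.valuation (σ z - z) < 1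

namespace ResidueFix

variable {σ : K →+* K} (hσ : ResidueFix A σ)
include hσ

lemma map_mem {z : K} (hz : z ∈ A) : σ z ∈ A := by
  have := add_mem (mem_of_val_le_one (hσ z hz).le) hz
  rwa [sub_add_cancel] at this

lemma map_not_mem {z : K} (hz : z ∉ A) : σ z ∉ A := by
  rw [not_mem_iff_one_lt_val] at hz ⊢
  have hz0 : (0 : A.ValueGroup) < A.valuation z := zero_lt_one.trans hz
  have hi : A.valuation z⁻¹ < 1 := by
    rw [map_inv₀]; exact inv_lt_one_of_one_lt₀ hz
  have h1 : A.valuation (σ z⁻¹) < 1 := by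
    have := A.valuation.map_add_lt (hσ z⁻¹ (mem_of_val_le_one hi.le)) hi
    rwa [sub_add_cancel] at this
  rw [map_inv₀ σ, map_inv₀] at h1
  have hne : σ z ≠ 0 := (map_ne_zero σ).mpr (A.valuation.pos_iff.mp hz0)
  exact (inv_lt_one₀ (A.valuation.pos_iff.mpr hne)).mp h1

lemma residue_map (z : A) : residue A ⟨σ z, hσ.map_mem z.2⟩ = residue A z :=
  (residue_eq_iff_val_sub_lt_one _ _).mpr (hσ z z.2)

/-- `σ` moves an element by less than its valuation when that is the valuation of a fixed one. -/
lemma val_sub_lt {c z : K} (hc : σ c = c) (hc0 : c ≠ 0) (hz : A.valuation z ≤ A.valuation c) :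
    A.valuation (σ z - z) < A.valuation c := by
  have hzc : z / c ∈ A := mem_of_val_le_one (by rw [map_div₀]; exact div_le_one_of_le₀ hz zero_le)
  have h := hσ _ hzc
  have e : σ z - z = c * (σ (z / c) - z / c) := by
    rw [map_div₀, hc]; field_simp
  rw [e, map_mul]
  exact mul_lt_of_lt_one_right (A.valuation.pos_iff.mpr hc0) h

variable [DecidableEq K] [DecidableEq (ResidueField A)]

omit [DecidableEq (ResidueField A)] in
/-- A point with nonsingular reduction differs from its image by an element of `E₁`. -/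
lemma sub_inE1_of_inE0 (hW : IntCoeff A W) {x y : K} {h : W.Nonsingular x y}
    (h' : W.Nonsingular (σ x) (σ y)) (hP : InE0 hW (Point.some x y h)) :
    InE1 A (Point.some x y h - Point.some (σ x) (σ y) h') := by
  rcases hP with hx | ⟨hx, hy, hns⟩
  · exact (sub_eq_add_neg (Point.some x y h) _) ▸
      inE1_add hW hx ((inE1_neg (P := Point.some (σ x) (σ y) h')).mpr (hσ.map_not_mem hx))
  · exact sub_inE1_of_residue_eq hW (x₁ := ⟨x, hx⟩) (y₁ := ⟨y, hy⟩)
      (x₂ := ⟨σ x, hσ.map_mem hx⟩) (y₂ := ⟨σ y, hσ.map_mem hy⟩) h h'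
      (hσ.residue_map ⟨x, hx⟩).symm (hσ.residue_map ⟨y, hy⟩).symm hns

omit [DecidableEq (ResidueField A)] in
/-- Outside `E₀`, a point whose abscissa has the valuation of a fixed element differs from its
image by an element of `E₁`. -/
lemma sub_inE1_of_node (hN : NodeModel A W) {x y : K} {h : W.Nonsingular x y}
    (h' : W.Nonsingular (σ x) (σ y)) (hu : A.valuation W.a₄ < A.valuation x)
    (hx : A.valuation x < 1) {c : K} (hc : σ c = c) (hcv : A.valuation c = A.valuation x) :
    InE1 A (Point.some x y h - Point.some (σ x) (σ y) h') := by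
  have hc0 : c ≠ 0 := by
    intro e; rw [e, map_zero] at hcv; exact (hN.u_pos.trans hu).ne hcv
  have hxA : x ∈ A := mem_of_val_le_one hx.le
  refine sub_inE1_of_val_lt hN.toIntCoeff h h' hxA (hσ.map_mem hxA) ?_ ?_ <;>
    rw [hN.val_psi h.1 hu hx, ← hcv, A.valuation.map_sub_swap]
  · exact hσ.val_sub_lt hc hc0 hcv.ge
  · exact hσ.val_sub_lt hc hc0 (hcv ▸ hN.val_y_le h.1 hu.le hx.le)

/-- The image of a torsion point differs from it by an element of `E₁`, at a node whose
`a₄` has the valuation of a `p`-th power of a fixed element. -/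
theorem sub_inE1_of_torsion (hN : NodeModel A W) {p : ℕ} [Fact p.Prime] (hp2 : p ≠ 2) {c : K}
    (hc : σ c = c) (hcv : A.valuation c ^ p = A.valuation W.a₄) {x y : K}
    {h : W.Nonsingular x y} (h' : W.Nonsingular (σ x) (σ y))
    (hP : p • Point.some x y h = 0) :
    InE1 A (Point.some x y h - Point.some (σ x) (σ y) h') := by
  by_cases h0 : InE0 hN.toIntCoeff (Point.some x y h)
  · exact hσ.sub_inE1_of_inE0 hN.toIntCoeff h' h0
  obtain ⟨k, -, -, hk⟩ := hN.exists_xVal_pow_eq hp2 hP h0
  refine hσ.sub_inE1_of_node hN h'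
    (hN.u_lt_xVal ((Fact.out : p.Prime).odd_of_ne_two hp2) hP h0) (hN.not_inE0_iff.mp h0)
    (c := c ^ (2 * k)) (by rw [map_pow, hc]) ?_
  rw [xVal_some, ← hcv, ← pow_mul, mul_comm p, pow_mul, ← map_pow A.valuation c] at hk
  exact ((pow_left_inj₀ zero_le zero_le (Fact.out : p.Prime).ne_zero).mp hk).symm

omit [DecidableEq (ResidueField A)] in
/-- Inertia is unipotent at a node: the image of a point whose abscissa keeps its valuation
differs from it by an element of `E₀`. -/
theorem sub_inE0_of_node (hN : NodeModel A W) {x y : K} {h : W.Nonsingular x y}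
    (h' : W.Nonsingular (σ x) (σ y)) (hu : A.valuation W.a₄ < A.valuation x)
    (hx : A.valuation x < 1) (hv : A.valuation (σ x) = A.valuation x) :
    InE0 hN.toIntCoeff (Point.some x y h - Point.some (σ x) (σ y) h') := by
  have hx0 : (0 : A.ValueGroup) < A.valuation x := hN.u_pos.trans hu
  have hxne : x ≠ 0 := A.valuation.pos_iff.mp hx0
  have hσx : σ x ≠ 0 := (map_ne_zero σ).mpr hxne
  have hxA : x ∈ A := mem_of_val_le_one hx.le
  have hr : y / x ∈ A := mem_of_val_le_one (by
    rw [map_div₀]; exact div_le_one_of_le₀ (hN.val_y_le h.1 hu.le hx.le) zero_le)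
  have hσy : σ y = σ (y / x) * σ x := by rw [← map_mul, div_mul_cancel₀ _ hxne]
  have hy : y = y / x * x := (div_mul_cancel₀ _ hxne).symm
  have hrr := hσ _ hr
  have hd : A.valuation (x - σ x) ≤ A.valuation x := A.valuation.map_sub_le le_rfl hv.le
  rcases hd.lt_or_eq with hlt | heq
  · refine inE0_of_inE1 _ (sub_inE1_of_val_lt hN.toIntCoeff h h' hxA (hσ.map_mem hxA) ?_ ?_) <;>
      rw [hN.val_psi h.1 hu hx]
    · exact hlt
    · have e : y - σ y = y / x * (x - σ x) + (y / x - σ (y / x)) * σ x := by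
        rw [hσy]; nth_rewrite 1 [hy]; ring
      rw [e]
      refine A.valuation.map_add_lt ?_ ?_ <;> rw [map_mul]
      · exact (mul_le_of_le_one_left' (val_le_one hr)).trans_lt hlt
      · rw [hv]
        exact mul_lt_of_lt_one_left hx0 (by rwa [A.valuation.map_sub_swap])
  · have hne : x ≠ σ x := fun e => by
      rw [← e, sub_self, map_zero] at heq; exact hx0.ne heq
    have hd0 : x - σ x ≠ 0 := sub_ne_zero.mpr hne
    -- the abscissa of `P + σP` is a nonunit
    have hsum : A.valuation (W.addX x (σ x) ((y - σ y) / (x - σ x))) < 1 := by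
      set r := y / x with hrdef
      have hε : A.valuation ((y - σ y) / (x - σ x) - r) < 1 := by
        have e : (y - σ y) / (x - σ x) - r = (r - σ r) * σ x / (x - σ x) := by
          rw [hσy]; nth_rewrite 1 [hy]; field_simp; ring
        rw [e, map_div₀, map_mul, hv, heq, div_lt_one₀ hx0]
        exact mul_lt_of_lt_one_left hx0 (by rwa [A.valuation.map_sub_swap])
      have hnode : A.valuation (r ^ 2 + W.a₁ * r - W.a₂) < 1 := by
        have h1 := h.1
        rw [equation_iff, hN.a₃_eq, hN.a₆_eq] at h1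
        have e : r ^ 2 + W.a₁ * r - W.a₂ = x + W.a₄ / x := by
          rw [hrdef]; field_simp; linear_combination h1
        rw [e]
        refine A.valuation.map_add_lt hx ?_
        rw [map_div₀, div_lt_one₀ hx0]; exact hu
      set l := (y - σ y) / (x - σ x)
      have e : W.addX x (σ x) l =
          (r ^ 2 + W.a₁ * r - W.a₂) + (l - r) * (l - r + 2 * r + W.a₁) - x - σ x := by
        simp only [addX]; ring
      rw [e]
      refine A.valuation.map_sub_lt (A.valuation.map_sub_lt (A.valuation.map_add_lt hnode ?_) hx)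
        (hv ▸ hx)
      rw [map_mul]
      refine (mul_le_of_le_one_right' (val_le_one ?_)).trans_lt hε
      exact add_mem (add_mem (mem_of_val_le_one hε.le) (mul_mem (natCast_mem A 2) hr)) hN.mem₁
    obtain ⟨y₃, h₃, e₃⟩ := sub_some_of_X_ne h h' hne
    rw [e₃, hN.inE0_iff, xVal_some]
    have key := congrArg A.valuation (addX_add_subX h.1 h'.1 hne)
    rw [map_mul, map_pow, heq, hN.b₄_eq, hN.b₆_eq] at key
    have hnum : A.valuation ((x + σ x) * (2 * x * σ x + 2 * W.a₄) + W.b₂ * x * σ x + 0) =
        A.valuation x ^ 2 := by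
      have hb : A.valuation (W.b₂ * x * σ x) = A.valuation x ^ 2 := by
        rw [map_mul, map_mul, hN.b₂_unit, one_mul, hv, sq]
      rw [add_zero, A.valuation.map_add_eq_of_lt_right, hb]
      rw [hb, map_mul, sq]
      refine (mul_le_mul_left (A.valuation.map_add_le le_rfl hv.le) _).trans_lt
        (mul_lt_mul_of_pos_left ?_ hx0)
      refine A.valuation.map_add_lt ?_ ?_
      · rw [map_mul, map_mul, hv]
        refine mul_lt_of_lt_one_left hx0 ((mul_le_of_le_one_left' ?_).trans_lt hx)
        exact val_le_one (natCast_mem A 2)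
      · rw [map_mul]
        exact (mul_le_of_le_one_left' (val_le_one (natCast_mem A 2))).trans_lt hu
    rw [hnum] at key
    by_contra hc
    rw [not_le] at hc
    exact (mul_lt_of_lt_one_left (pow_pos hx0 2) (A.valuation.map_add_lt hsum hc)).ne key

end ResidueFix

namespace NodeModel

variable [DecidableEq K] [DecidableEq (ResidueField A)]

omit [DecidableEq (ResidueField A)] in
/-- Two points outside `E₀` whose abscissae have the same valuation are equal up to sign
modulo `E₀`. -/
lemma add_or_sub_inE0 (hN : NodeModel A W) {P Q : W.Point}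
    (hu : A.valuation W.a₄ < xVal A P) (hP : xVal A P < 1) (hPQ : xVal A Q = xVal A P) :
    InE0 hN.toIntCoeff (P + Q) ∨ InE0 hN.toIntCoeff (P - Q) := by
  rcases P with _ | ⟨x₁, y₁, h₁⟩
  · exact absurd hP (lt_irrefl 1)
  rcases Q with _ | ⟨x₂, y₂, h₂⟩
  · rw [← Point.zero_def, xVal_zero] at hPQ; exact absurd hPQ.symm hP.ne
  rw [xVal_some] at hu hP
  rw [xVal_some, xVal_some] at hPQ
  by_cases hx : x₁ = x₂
  · rcases Point.X_eq_iff (h₁ := h₁) (h₂ := h₂) |>.mp hx with e | e
    · right; rw [e, sub_self]; exact inE0_zero _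
    · left; rw [e, neg_add_cancel]; exact inE0_zero _
  obtain ⟨y₃, h₃, e₃⟩ := add_some_of_X_ne h₁ h₂ hx
  obtain ⟨y₄, h₄, e₄⟩ := sub_some_of_X_ne h₁ h₂ hx
  rw [e₃, e₄, hN.inE0_iff, hN.inE0_iff, xVal_some, xVal_some]
  have hx0 : (0 : A.ValueGroup) < A.valuation x₁ := hN.u_pos.trans hu
  have key := congrArg A.valuation (addX_add_subX h₁.1 h₂.1 hx)
  rw [map_mul, map_pow, hN.b₄_eq, hN.b₆_eq] at key
  have hb : A.valuation (W.b₂ * x₁ * x₂) = A.valuation x₁ ^ 2 := by
    rw [map_mul, map_mul, hN.b₂_unit, one_mul, hPQ, sq]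
  have hnum : A.valuation ((x₁ + x₂) * (2 * x₁ * x₂ + 2 * W.a₄) + W.b₂ * x₁ * x₂ + 0) =
      A.valuation x₁ ^ 2 := by
    rw [add_zero, A.valuation.map_add_eq_of_lt_right, hb]
    rw [hb, map_mul, sq]
    refine (mul_le_mul_left (A.valuation.map_add_le le_rfl hPQ.le) _).trans_lt
      (mul_lt_mul_of_pos_left ?_ hx0)
    refine A.valuation.map_add_lt ?_ ?_
    · rw [map_mul, map_mul, hPQ]
      refine mul_lt_of_lt_one_left hx0 ((mul_le_of_le_one_left' ?_).trans_lt hP)
      exact val_le_one (natCast_mem A 2)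
    · rw [map_mul]
      exact (mul_le_of_le_one_left' (val_le_one (natCast_mem A 2))).trans_lt hu
  rw [hnum] at key
  by_contra hc
  rw [not_or, not_le, not_le] at hc
  have hd : A.valuation (x₁ - x₂) ^ 2 ≤ A.valuation x₁ ^ 2 :=
    pow_le_pow_left₀ zero_le (A.valuation.map_sub_le le_rfl hPQ.le) 2
  have hd0 : (0 : A.ValueGroup) < A.valuation (x₁ - x₂) ^ 2 :=
    pow_pos (A.valuation.pos_iff.mpr (sub_ne_zero.mpr hx)) 2
  exact ((mul_lt_of_lt_one_left hd0 (A.valuation.map_add_lt hc.1 hc.2)).trans_le hd).ne key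

end NodeModel

end FLTAgent.LocalEC
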