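import Fermat.Agent.LocalEC.Val

/-!
The kernel of reduction `E₁` of a Weierstrass curve with integral coefficients.
-/

set_option autoImplicit false

namespace FLTAgent.LocalEC

open WeierstrassCurve WeierstrassCurve.Affine

variable {K : Type*} [Field K] {A : ValuationSubring K} {W : WeierstrassCurve.Affine K}

/-- `P` is the point at infinity or has a non-integral abscissa. -/
def InE1 (A : ValuationSubring K) : W.Point → Prop
  | .zero => True
  | .some x _ _ => x ∉ A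

lemma inE1_zero : InE1 A (0 : W.Point) := trivial

lemma inE1_some_iff {x y : K} {h : W.Nonsingular x y} :
    InE1 A (Point.some x y h) ↔ x ∉ A := Iff.rfl

lemma inE1_neg {P : W.Point} : InE1 A (-P) ↔ InE1 A P := by
  cases P <;> rfl

lemma one_lt_val_addX (hW : IntCoeff A W) {x₁ x₂ ℓ : K} (hx₁ : x₁ ∈ A) (hx₂ : x₂ ∈ A)
    (hℓ : 1 < A.valuation ℓ) : 1 < A.valuation (W.addX x₁ x₂ ℓ) := by
  have h2 : A.valuation ℓ < A.valuation (ℓ ^ 2) := by
    rw [map_pow, sq]; exact lt_mul_of_one_lt_left (lt_trans zero_lt_one hℓ) hℓ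
  have hrest : A.valuation (W.a₁ * ℓ - W.a₂ - x₁ - x₂) ≤ A.valuation ℓ := by
    refine A.valuation.map_sub_le (A.valuation.map_sub_le (A.valuation.map_sub_le ?_ ?_) ?_) ?_
    · rw [map_mul]
      exact mul_le_of_le_one_left' (val_le_one hW.mem₁)
    all_goals refine (val_le_one ?_).trans hℓ.le
    exacts [hW.mem₂, hx₁, hx₂]
  have : W.addX x₁ x₂ ℓ = ℓ ^ 2 + (W.a₁ * ℓ - W.a₂ - x₁ - x₂) := by simp only [addX]; ring
  rw [this, A.valuation.map_add_eq_of_lt_left (hrest.trans_lt h2)]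
  exact lt_trans hℓ h2

variable [DecidableEq K]

/-- Two integral points congruent to a higher order than `2y + a₁x + a₃` differ by an element
of `E₁`. -/
lemma sub_inE1_of_val_lt (hW : IntCoeff A W) {x₁ y₁ x₂ y₂ : K} (h₁ : W.Nonsingular x₁ y₁)
    (h₂ : W.Nonsingular x₂ y₂) (hx₁ : x₁ ∈ A) (hx₂ : x₂ ∈ A)
    (hdx : A.valuation (x₁ - x₂) < A.valuation (psi W x₁ y₁))
    (hdy : A.valuation (y₁ - y₂) < A.valuation (psi W x₁ y₁)) :
    InE1 A (Point.some x₁ y₁ h₁ - Point.some x₂ y₂ h₂) := by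
  by_cases hx : x₁ = x₂
  · subst hx
    rcases Y_eq_of_X_eq h₁.1 h₂.1 rfl with hy | hy
    · subst hy; rw [sub_self]; exact inE1_zero
    · exfalso
      refine lt_irrefl (A.valuation (psi W x₁ y₁)) ?_
      have : psi W x₁ y₁ = y₁ - y₂ := by rw [hy]; simp only [psi, negY]; ring
      rw [this] at hdy ⊢
      exact hdy
  · obtain ⟨y₃, h₃, e⟩ := sub_some_of_X_ne h₁ h₂ hx
    rw [e, inE1_some_iff, not_mem_iff_one_lt_val]
    refine one_lt_val_addX hW hx₁ hx₂ ?_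
    have hnum : A.valuation (y₁ + y₂ + W.a₁ * x₂ + W.a₃) = A.valuation (psi W x₁ y₁) := by
      have he : y₁ + y₂ + W.a₁ * x₂ + W.a₃
          = psi W x₁ y₁ - ((y₁ - y₂) + W.a₁ * (x₁ - x₂)) := by simp only [psi]; ring
      rw [he]
      refine A.valuation.map_sub_eq_of_lt_left ?_
      refine A.valuation.map_add_lt hdy ?_
      rw [map_mul]
      exact (mul_le_of_le_one_left' (val_le_one hW.mem₁)).trans_lt hdx
    rw [map_div₀, hnum, one_lt_div₀ ((A.valuation).pos_iff.mpr (sub_ne_zero.mpr hx))]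
    exact hdx

/-- A point of `E₁` plus an integral point is integral. -/
lemma not_inE1_add (hW : IntCoeff A W) {P Q : W.Point} (hP : InE1 A P) (hQ : ¬InE1 A Q) :
    ¬InE1 A (P + Q) := by
  rcases P with _ | ⟨x₁, y₁, h₁⟩
  · rwa [← Point.zero_def, zero_add]
  rcases Q with _ | ⟨x₂, y₂, h₂⟩
  · exact absurd inE1_zero hQ
  rw [inE1_some_iff] at hP hQ
  rw [not_not] at hQ
  have hx : x₁ ≠ x₂ := fun e => hP (e ▸ hQ)
  obtain ⟨y₃, h₃, e⟩ := add_some_of_X_ne h₁ h₂ hx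
  rw [e, inE1_some_iff, not_not]
  rw [not_mem_iff_one_lt_val] at hP
  have hd : A.valuation (x₁ - x₂) = A.valuation x₁ :=
    A.valuation.map_sub_eq_of_lt_left ((val_le_one hQ).trans_lt hP)
  have hd2 : A.valuation ((x₁ - x₂) ^ 2) = A.valuation x₁ ^ 2 := by rw [map_pow, hd]
  have hd2' : (0 : A.ValueGroup) < A.valuation x₁ ^ 2 := pow_pos (lt_trans zero_lt_one hP) 2
  have h1x : A.valuation x₁ ≤ A.valuation x₁ ^ 2 := le_self_pow₀ hP.le two_ne_zero
  have h1 : (1 : A.ValueGroup) ≤ A.valuation x₁ ^ 2 := hP.le.trans h1x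
  have hle : ∀ {z : K}, z ∈ A → A.valuation z ≤ A.valuation x₁ ^ 2 :=
    fun hz => (val_le_one hz).trans h1
  have hmul : ∀ {z : K}, z ∈ A → A.valuation (z * x₁) ≤ A.valuation x₁ ^ 2 := fun hz => by
    rw [map_mul]; exact (mul_le_of_le_one_left' (val_le_one hz)).trans h1x
  have hmul2 : ∀ {z : K}, z ∈ A → A.valuation (z * x₁ ^ 2) ≤ A.valuation x₁ ^ 2 := fun hz => by
    rw [map_mul, map_pow]; exact mul_le_of_le_one_left' (val_le_one hz)
  refine (mem_of_add_mem_of_mul_mem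
    (b := W.addX x₁ x₂ ((y₁ + y₂ + W.a₁ * x₂ + W.a₃) / (x₁ - x₂))) ?_ ?_).1
  · apply mem_of_val_le_one
    have key := congrArg A.valuation (addX_add_subX h₁.1 h₂.1 hx)
    rw [map_mul, hd2] at key
    refine le_of_mul_le_mul_right ?_ hd2'
    rw [key, one_mul]
    have he : (x₁ + x₂) * (2 * x₁ * x₂ + W.b₄) + W.b₂ * x₁ * x₂ + W.b₆ =
        (2 * x₂) * x₁ ^ 2 + (2 * x₂ ^ 2 + W.b₄ + W.b₂ * x₂) * x₁ + (x₂ * W.b₄ + W.b₆) := by ring
    rw [he]
    refine A.valuation.map_add_le (A.valuation.map_add_le (hmul2 ?_) (hmul ?_)) (hle ?_)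
    · exact mul_mem (natCast_mem A 2) hQ
    · exact add_mem (add_mem (mul_mem (natCast_mem A 2) (pow_mem hQ 2)) hW.mem_b₄)
        (mul_mem hW.mem_b₂ hQ)
    · exact add_mem (mul_mem hQ hW.mem_b₄) hW.mem_b₆
  · apply mem_of_val_le_one
    have key := congrArg A.valuation (addX_mul_subX h₁.1 h₂.1 hx)
    rw [map_mul, hd2] at key
    refine le_of_mul_le_mul_right ?_ hd2'
    rw [key, one_mul]
    have he : x₁ ^ 2 * x₂ ^ 2 - W.b₄ * x₁ * x₂ - W.b₆ * (x₁ + x₂) - W.b₈ =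
        x₂ ^ 2 * x₁ ^ 2 + (-(W.b₄ * x₂) - W.b₆) * x₁ + (-(W.b₆ * x₂) - W.b₈) := by ring
    rw [he]
    refine A.valuation.map_add_le (A.valuation.map_add_le (hmul2 ?_) (hmul ?_)) (hle ?_)
    · exact pow_mem hQ 2
    · exact sub_mem (neg_mem (mul_mem hW.mem_b₄ hQ)) hW.mem_b₆
    · exact sub_mem (neg_mem (mul_mem hW.mem_b₆ hQ)) hW.mem_b₈

lemma inE1_add (hW : IntCoeff A W) {P Q : W.Point} (hP : InE1 A P) (hQ : InE1 A Q) :
    InE1 A (P + Q) := by
  by_contra h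
  exact not_inE1_add hW (inE1_neg.mpr hP) h (by rwa [neg_add_cancel_left])

/-- The subgroup `E₁`. -/
def e1Subgroup (hW : IntCoeff A W) : AddSubgroup W.Point where
  carrier := {P : W.Point | InE1 A P}
  zero_mem' := show InE1 A (0 : W.Point) from inE1_zero
  add_mem' := fun {P Q} (hP : InE1 A P) (hQ : InE1 A Q) => inE1_add hW hP hQ
  neg_mem' := fun {P} (h : InE1 A P) => inE1_neg.mpr h

lemma mem_e1Subgroup {hW : IntCoeff A W} {P : W.Point} : P ∈ e1Subgroup hW ↔ InE1 A P :=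
  Iff.rfl

end FLTAgent.LocalEC
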