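import Fermat.Agent.Torsion.Card
import Mathlib.Algebra.Ring.Parity
import Mathlib.NumberTheory.Divisors

/-!
For odd `n` every root of the denominator of `x (n • P)` is double.
-/

set_option autoImplicit false

open Polynomial

namespace FLTAgent.LocalEC

open WeierstrassCurve WeierstrassCurve.Affine WeierstrassCurve.Affine.Point FLTAgent.Torsion

variable {K : Type*} [Field K] [DecidableEq K] [IsAlgClosed K] {W : WeierstrassCurve.Affine K}
  [W.IsElliptic]

lemma isMulPoly_unique {n : ℕ} {A₁ B₁ A₂ B₂ : K[X]} (h₁ : IsMulPoly W n A₁ B₁)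
    (h₂ : IsMulPoly W n A₂ B₂) : A₁ = A₂ ∧ B₁ = B₂ := by
  have key : A₁ * B₂ = A₂ * B₁ := by
    refine Polynomial.funext fun x ↦ ?_
    obtain ⟨y, hy⟩ := exists_point_of_X (W := W) x
    obtain ⟨c, hc, e₁⟩ := h₁.xRep_nsmul x y hy
    obtain ⟨d, hd, e₂⟩ := h₂.xRep_nsmul x y hy
    rw [e₁] at e₂
    have a := congrFun e₂ 0
    have b := congrFun e₂ 1
    simp at a b
    simp only [eval_mul]
    refine mul_left_cancel₀ hc ?_
    linear_combination B₂.eval x * a - A₂.eval x * b
  have hdvd : A₁ ∣ A₂ := h₁.coprime.dvd_of_dvd_mul_right ⟨B₂, key.symm⟩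
  have hA : A₁ = A₂ :=
    (eq_of_monic_of_dvd_of_natDegree_le h₁.monic h₂.monic hdvd
      (by rw [h₁.natDegree_eq, h₂.natDegree_eq])).symm
  subst hA
  exact ⟨rfl, (mul_left_cancel₀ h₁.monic.ne_zero key).symm⟩

/-- The denominators of the multiplications by `m` and `m + 2` multiply to a square. -/
lemma mulPoly_den_mul {m : ℕ} {A' B' A B A'' B'' : K[X]} (h' : IsMulPoly W m A' B')
    (h : IsMulPoly W (m + 1) A B) (h'' : IsMulPoly W (m + 2) A'' B'') :
    B' * B'' = (A - X * B) ^ 2 := by
  set T := stepPoly W A B with hT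
  have pt : ∀ x : K, ∃ k : K, (T 0).eval x = k * (A''.eval x * A'.eval x) ∧
      (T 1).eval x = k * (A''.eval x * B'.eval x + B''.eval x * A'.eval x) ∧
      (T 2).eval x = k * (B''.eval x * B'.eval x) := by
    intro x
    obtain ⟨y, hy⟩ := exists_point_of_X (W := W) x
    obtain ⟨c, -, e₀, e₁, e₂⟩ := h'.step_relation h x y hy
    obtain ⟨d, -, er⟩ := h''.xRep_nsmul x y hy
    simp only [← hT, er] at e₀ e₁ e₂
    simp at e₀ e₁ e₂
    exact ⟨c * d, by rw [e₀]; ring, by rw [e₁]; ring, by rw [e₂]; ring⟩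
  have hid : T 0 * B' ^ 2 - T 1 * (A' * B') + T 2 * A' ^ 2 = 0 := by
    refine Polynomial.funext fun x ↦ ?_
    obtain ⟨k, e₀, e₁, e₂⟩ := pt x
    simp [e₀, e₁, e₂]
    ring
  obtain ⟨U, V, hU, hV, hW⟩ := exists_factor h'.monic h'.coprime hid
  have hA' : A' ≠ 0 := h'.monic.ne_zero
  have cross : U * B'' = V * A'' := by
    have : T 0 * (A'' * B' + B'' * A') = T 1 * (A' * A'') := by
      refine Polynomial.funext fun x ↦ ?_
      obtain ⟨k, e₀, e₁, e₂⟩ := pt x
      simp [e₀, e₁]
      ring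
    rw [hU, hV] at this
    refine mul_left_cancel₀ (mul_ne_zero hA' hA') ?_
    linear_combination this
  set N := (m + 1) ^ 2 with hN
  have hN1 : 1 ≤ N := Nat.one_le_pow _ _ (Nat.succ_pos m)
  have hXA : (X * A).Monic := monic_X.mul h.monic
  have hXAd : (X * A).natDegree = N + 1 := by
    rw [natDegree_X_mul h.monic.ne_zero, h.natDegree_eq]
  have hrest := natDegree_stepRest_le hN1 W.b₄ W.b₆ W.b₈ h.natDegree_eq.le h.natDegree_le
  have hT0d : (T 0).natDegree = 2 * N + 2 := by
    rw [hT, stepPoly, Matrix.cons_val_zero, natDegree_sub_eq_left_of_natDegree_lt] <;>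
      rw [(hXA.natDegree_pow 2), hXAd] <;> omega
  have hT0m : (T 0).Monic := by
    rw [hT, stepPoly, Matrix.cons_val_zero]
    refine (hXA.pow 2).sub_of_left ?_
    refine degree_lt_degree ?_
    rw [(hXA.natDegree_pow 2), hXAd]
    omega
  have hUm : U.Monic := h'.monic.of_mul_monic_left (hU ▸ hT0m)
  have hUd : U.natDegree = (m + 2) ^ 2 := by
    have := congrArg natDegree hU
    rw [hT0d, h'.monic.natDegree_mul hUm, h'.natDegree_eq] at this
    have hsum : m ^ 2 + (m + 2) ^ 2 = 2 * N + 2 := by rw [hN]; ring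
    omega
  have hUA : A'' = U := by
    have hdvd : A'' ∣ U := h''.coprime.dvd_of_dvd_mul_right ⟨V, by linear_combination cross⟩
    exact (eq_of_monic_of_dvd_of_natDegree_le h''.monic hUm hdvd
      (by rw [hUd, h''.natDegree_eq])).symm
  subst hUA
  have hVB : B'' = V := mul_left_cancel₀ h''.monic.ne_zero (by linear_combination cross)
  rw [hVB, ← hW, hT, stepPoly]
  simp

variable [CharZero K]

omit [DecidableEq K] [IsAlgClosed K] [W.IsElliptic] in
lemma mulPoly_den_natDegree [DecidableEq K] {n : ℕ} {A B : K[X]} (h : IsMulPoly W n A B)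
    (hn : n ≠ 0) : B ≠ 0 ∧ B.natDegree = n ^ 2 - 1 ∧ B.leadingCoeff = (n : K) ^ 2 := by
  have hc : B.coeff (n ^ 2 - 1) ≠ 0 := by
    rw [h.coeff_pred]; exact pow_ne_zero 2 (Nat.cast_ne_zero.mpr hn)
  have hd : B.natDegree = n ^ 2 - 1 :=
    le_antisymm h.natDegree_le (le_natDegree_of_ne_zero hc)
  exact ⟨fun e ↦ hc (by simp [e]), hd, by rw [leadingCoeff, hd, h.coeff_pred]⟩

/-- For odd `n` all root multiplicities of the denominator are even. -/
lemma mulPoly_den_even : ∀ (j : ℕ) {A B : K[X]}, IsMulPoly W (2 * j + 1) A B →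
    ∀ r : K, Even (B.rootMultiplicity r) := by
  intro j
  induction j with
  | zero =>
    intro A B h r
    obtain ⟨-, rfl⟩ := isMulPoly_unique h isMulPoly_one
    rw [← C_1, rootMultiplicity_C]
    exact Even.zero
  | succ j IH =>
    intro A'' B'' h'' r
    obtain ⟨A', B', h'⟩ := exists_isMulPoly (W := W) (2 * j + 1)
    obtain ⟨A, B, h⟩ := exists_isMulPoly (W := W) (2 * j + 2)
    have key := mulPoly_den_mul h' h h''
    have hne : B' * B'' ≠ 0 := mul_ne_zero (mulPoly_den_natDegree h' (by omega)).1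
      (mulPoly_den_natDegree h'' (by omega)).1
    have e := rootMultiplicity_mul (x := r) hne
    have hS : A - X * B ≠ 0 := fun e0 ↦ hne (by rw [key, e0]; ring)
    rw [key, sq, rootMultiplicity_mul (mul_ne_zero hS hS)] at e
    obtain ⟨a, ha⟩ := IH h' r
    exact ⟨(A - X * B).rootMultiplicity r - a, by omega⟩

/-- The denominator of multiplication by an odd prime `p` is `p²` times the square of the product
of `X - x(P)` over the abscissae of the nonzero `p`-torsion points. -/
theorem mulPoly_den_eval {p : ℕ} (hp : Odd p) {A B : K[X]} (h : IsMulPoly W p A B) :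
    ∀ x₀ : K, B.eval x₀ = (p : K) ^ 2 * (∏ r ∈ B.roots.toFinset, (x₀ - r)) ^ 2 := by
  classical
  obtain ⟨j, rfl⟩ := hp
  set p := 2 * j + 1
  obtain ⟨hB, hdeg, hlead⟩ := mulPoly_den_natDegree h (by omega)
  have hfin : Finite {P : W.Point // p • P = 0} :=
    Nat.finite_of_card_ne_zero (by
      rw [card_ker_nsmul (Nat.cast_ne_zero.mpr (by omega))]; exact pow_ne_zero 2 (by omega))
  have hTf : {P : W.Point | p • P = 0}.Finite := Set.finite_coe_iff.mp hfin
  set T := hTf.toFinset.erase 0 with hT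
  have hTcard : T.card = p ^ 2 - 1 := by
    rw [hT, Finset.card_erase_of_mem (by simp), ← Nat.card_eq_card_finite_toFinset hTf,
      ← card_ker_nsmul (W := W) (n := p) (Nat.cast_ne_zero.mpr (by omega))]
    rfl
  have hmem : ∀ P : W.Point, P ∈ T ↔ P ≠ 0 ∧ p • P = 0 := fun P ↦ by simp [hT]
  -- the abscissa is two-to-one from the nonzero torsion onto the roots
  have hfib : ∀ r ∈ B.roots.toFinset, (T.filter fun P ↦ xCoord P = r).card = 2 := by
    intro r hr
    rw [Multiset.mem_toFinset, mem_roots hB] at hr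
    obtain ⟨s, hs⟩ := exists_point_of_X (W := W) r
    set P₀ := Point.some r s hs with hP₀
    have hP₀p : p • P₀ = 0 := (h.nsmul_eq_zero_iff hs).mpr hr
    have hne : P₀ ≠ -P₀ := by
      intro e
      have h2 : (2 : ℕ) • P₀ = 0 := by rw [two_nsmul, ← eq_neg_iff_add_eq_zero]; exact e
      refine some_ne_zero hs ?_
      calc P₀ = p • P₀ - j • ((2 : ℕ) • P₀) := by
            rw [← mul_nsmul', eq_sub_iff_add_eq, mul_comm j 2,
              show p = 2 * j + 1 from rfl, succ_nsmul, add_comm]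
        _ = 0 := by rw [hP₀p, h2, nsmul_zero, sub_zero]
    have : T.filter (fun P ↦ xCoord P = r) = {P₀, -P₀} := by
      ext P
      simp only [Finset.mem_filter, hmem, Finset.mem_insert, Finset.mem_singleton]
      constructor
      · rintro ⟨⟨hP, -⟩, hx⟩
        match P with
        | 0 => exact absurd rfl hP
        | .some x y hxy => exact (X_eq_iff (h₁ := hxy) (h₂ := hs)).mp hx
      · rintro (rfl | rfl)
        · exact ⟨⟨some_ne_zero hs, hP₀p⟩, rfl⟩
        · exact ⟨⟨neg_ne_zero.mpr (some_ne_zero hs), by rw [neg_nsmul, hP₀p, _root_.neg_zero]⟩,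
            by rw [hP₀, Point.neg_some]; rfl⟩
    rw [this, Finset.card_pair hne]
  have hX : 2 * B.roots.toFinset.card = p ^ 2 - 1 := by
    rw [← hTcard, Finset.card_eq_sum_card_fiberwise (f := xCoord) (t := B.roots.toFinset) ?_,
      Finset.sum_congr rfl hfib, Finset.sum_const, smul_eq_mul, mul_comm]
    intro P hP
    rw [Finset.mem_coe, hmem] at hP
    match P with
    | 0 => exact absurd rfl hP.1
    | .some x y hxy =>
      rw [Finset.mem_coe, Multiset.mem_toFinset, mem_roots hB]
      exact (h.nsmul_eq_zero_iff hxy).mp hP.2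
  have hspl := IsAlgClosed.splits B
  have htot : Multiset.card B.roots = p ^ 2 - 1 := by
    rw [IsAlgClosed.card_roots_eq_natDegree, hdeg]
  have hge : ∀ r ∈ B.roots.toFinset, 2 ≤ B.roots.count r := fun r hr ↦ by
    have h1 : 0 < B.roots.count r := Multiset.count_pos.mpr (Multiset.mem_toFinset.mp hr)
    obtain ⟨k, hk⟩ := mulPoly_den_even j h r
    rw [count_roots] at h1 ⊢
    omega
  have hcount : ∀ r ∈ B.roots.toFinset, B.roots.count r = 2 := by
    have hsum : ∑ r ∈ B.roots.toFinset, 2 = ∑ r ∈ B.roots.toFinset, B.roots.count r := by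
      rw [Multiset.toFinset_sum_count_eq, htot, Finset.sum_const, smul_eq_mul, mul_comm, hX]
    exact fun r hr ↦ ((Finset.sum_eq_sum_iff_of_le hge).mp hsum r hr).symm
  intro x₀
  conv_lhs => rw [hspl.eq_prod_roots]
  rw [eval_mul, eval_C, hlead, eval_multiset_prod, Multiset.map_map]
  congr 1
  rw [← Finset.prod_pow, Finset.prod_multiset_map_count]
  refine Finset.prod_congr rfl fun r hr ↦ ?_
  rw [hcount r hr]
  simp

end FLTAgent.LocalEC
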