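import Fermat.Agent.LocalEC.Reduction
import Mathlib.RingTheory.Int.Basic
import Mathlib.Algebra.Order.GroupWithZero.Basic

/-!
Multiplicative reduction: models `y² + a₁xy = x³ + a₂x² + a₄x` with a node at the origin
of the reduction.
-/

set_option autoImplicit false

namespace FLTAgent.LocalEC

open WeierstrassCurve WeierstrassCurve.Affine IsLocalRing

variable {K : Type*} [Field K] {A : ValuationSubring K} {W : WeierstrassCurve.Affine K}

/-- The model has a node at the origin of its reduction. -/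
structure NodeModel (A : ValuationSubring K) (W : WeierstrassCurve.Affine K) : Prop
    extends IntCoeff A W where
  a₃_eq : W.a₃ = 0
  a₆_eq : W.a₆ = 0
  b₂_unit : A.valuation W.b₂ = 1
  a₄_lt : A.valuation W.a₄ < 1
  a₄_ne : W.a₄ ≠ 0

/-- The valuation of the abscissa of a point, `1` at infinity. -/
noncomputable def xVal (A : ValuationSubring K) : W.Point → A.ValueGroup
  | .zero => 1
  | .some x _ _ => A.valuation x

@[simp] lemma xVal_zero : xVal A (0 : W.Point) = 1 := rfl

@[simp] lemma xVal_some {x y : K} {h : W.Nonsingular x y} :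
    xVal A (Point.some x y h) = A.valuation x := rfl

lemma xVal_neg (P : W.Point) : xVal A (-P) = xVal A P := by cases P <;> rfl

namespace NodeModel

variable (hN : NodeModel A W)
include hN

lemma u_pos : (0 : A.ValueGroup) < A.valuation W.a₄ := A.valuation.pos_iff.mpr hN.a₄_ne

lemma b₄_eq : W.b₄ = 2 * W.a₄ := by rw [b₄, hN.a₃_eq, mul_zero, add_zero]

lemma b₆_eq : W.b₆ = 0 := by rw [b₆, hN.a₃_eq, hN.a₆_eq]; ring

lemma b₈_eq : W.b₈ = -W.a₄ ^ 2 := by rw [b₈, hN.a₃_eq, hN.a₆_eq]; ring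

lemma psi_eq (x y : K) : psi W x y = 2 * y + W.a₁ * x := by rw [psi, hN.a₃_eq, add_zero]

lemma val_psi {x y : K} (h : W.Equation x y) (hu : A.valuation W.a₄ < A.valuation x)
    (hx : A.valuation x < 1) : A.valuation (psi W x y) = A.valuation x := by
  have hx0 : (0 : A.ValueGroup) < A.valuation x := hN.u_pos.trans hu
  have e := psi_sq h
  rw [hN.b₄_eq, hN.b₆_eq] at e
  have e' : psi W x y ^ 2 = W.b₂ * x ^ 2 + (4 * x ^ 3 + 4 * W.a₄ * x) := by rw [e]; ring
  have h4 : A.valuation (4 : K) ≤ 1 := val_le_one (natCast_mem A 4)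
  have hlt : A.valuation (4 * x ^ 3 + 4 * W.a₄ * x) < A.valuation (W.b₂ * x ^ 2) := by
    rw [map_mul, hN.b₂_unit, one_mul, map_pow]
    refine A.valuation.map_add_lt ?_ ?_
    · rw [map_mul, map_pow]
      exact (mul_le_of_le_one_left' h4).trans_lt (pow_lt_pow_right_of_lt_one₀ hx0 hx (by norm_num))
    · rw [mul_assoc, map_mul, map_mul, sq]
      exact (mul_le_of_le_one_left' h4).trans_lt (mul_lt_mul_of_pos_right hu hx0)
  have := congrArg A.valuation e'
  rw [A.valuation.map_add_eq_of_lt_left hlt, map_mul, hN.b₂_unit, one_mul, map_pow, map_pow] at this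
  exact (pow_left_inj₀ zero_le zero_le two_ne_zero).mp this

lemma val_y_le {x y : K} (h : W.Equation x y) (hu : A.valuation W.a₄ ≤ A.valuation x)
    (hx : A.valuation x ≤ 1) : A.valuation y ≤ A.valuation x := by
  rw [equation_iff, hN.a₃_eq, hN.a₆_eq] at h
  by_contra hc
  rw [not_le] at hc
  have hy0 : (0 : A.ValueGroup) < A.valuation y := zero_le.trans_lt hc
  have h1 : A.valuation (W.a₁ * x * y) < A.valuation (y ^ 2) := by
    rw [map_mul, map_mul, map_pow, sq]
    exact mul_lt_mul_of_pos_right ((mul_le_of_le_one_left' (val_le_one hN.mem₁)).trans_lt hc) hy0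
  have hl : A.valuation (y ^ 2 + W.a₁ * x * y) = A.valuation y ^ 2 := by
    rw [A.valuation.map_add_eq_of_lt_left h1, map_pow]
  have e : y ^ 2 + W.a₁ * x * y = x * (x ^ 2 + W.a₂ * x + W.a₄) := by linear_combination h
  rw [e, map_mul] at hl
  have : A.valuation (x ^ 2 + W.a₂ * x + W.a₄) ≤ A.valuation x := by
    refine A.valuation.map_add_le (A.valuation.map_add_le ?_ ?_) hu
    · rw [map_pow, sq]; exact mul_le_of_le_one_left' hx
    · rw [map_mul]; exact mul_le_of_le_one_left' (val_le_one hN.mem₂)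
  have h2 : A.valuation x * A.valuation (x ^ 2 + W.a₂ * x + W.a₄) ≤ A.valuation x ^ 2 :=
    (mul_le_mul_right this _).trans_eq (sq _).symm
  exact absurd (hl ▸ h2) (not_le.mpr (pow_lt_pow_left₀ hc zero_le two_ne_zero))

/-- A point reduces to a nonsingular point iff its abscissa is not in the maximal ideal. -/
lemma inE0_iff {P : W.Point} : InE0 hN.toIntCoeff P ↔ 1 ≤ xVal A P := by
  rcases P with _ | ⟨x, y, h⟩
  · exact iff_of_true trivial le_rfl
  rw [inE0_some_iff, xVal_some]
  by_cases hxA : x ∈ A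
  swap
  · exact iff_of_true (Or.inl hxA) (not_mem_iff_one_lt_val.mp hxA).le
  have hyA := hN.y_mem h.1 hxA
  have key := hN.redCurve_nonsingular_iff (x := ⟨x, hxA⟩) (y := ⟨y, hyA⟩) h.1
  constructor
  · rintro (hx | ⟨hx, hy, hns⟩)
    · exact absurd hxA hx
    by_contra hlt
    rw [not_le] at hlt
    have hy' : A.valuation y < 1 := by
      by_contra hy1
      have hy1' : A.valuation y = 1 := le_antisymm (val_le_one hy) (not_lt.mp hy1)
      have h' := h.1
      rw [equation_iff, hN.a₃_eq, hN.a₆_eq] at h'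
      have e : y ^ 2 = x * (x ^ 2 + W.a₂ * x + W.a₄ - W.a₁ * y) := by linear_combination h'
      have := congrArg A.valuation e
      rw [map_pow, hy1', one_pow, map_mul] at this
      refine absurd ((mul_le_of_le_one_right' (val_le_one ?_)).trans_lt hlt) (not_lt.mpr this.le)
      exact sub_mem (add_mem (add_mem (pow_mem hxA 2) (mul_mem hN.mem₂ hxA)) hN.mem₄)
        (mul_mem hN.mem₁ hy)
    rcases key.mp hns with h1 | h1
    · rw [hN.psi_eq] at h1
      refine h1.not_lt (A.valuation.map_add_lt ?_ ?_)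
      · rw [map_mul]; exact (mul_le_of_le_one_left' (val_le_one (natCast_mem A 2))).trans_lt hy'
      · rw [map_mul]; exact (mul_le_of_le_one_left' (val_le_one hN.mem₁)).trans_lt hlt
    · refine h1.not_lt ?_
      refine A.valuation.map_sub_lt (A.valuation.map_add_lt (A.valuation.map_add_lt ?_ ?_) hN.a₄_lt) ?_
      · rw [map_mul, map_pow]
        exact (mul_le_of_le_one_left' (val_le_one (natCast_mem A 3))).trans_lt
          (pow_lt_one₀ zero_le hlt two_ne_zero)
      · rw [map_mul]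
        exact (mul_le_of_le_one_left'
          (val_le_one (mul_mem (natCast_mem A 2) hN.mem₂))).trans_lt hlt
      · rw [map_mul]; exact (mul_le_of_le_one_left' (val_le_one hN.mem₁)).trans_lt hy'
  · intro h1
    have hx1 : A.valuation x = 1 := le_antisymm (val_le_one hxA) h1
    refine Or.inr ⟨hxA, hyA, key.mpr ?_⟩
    by_contra hc
    rw [not_or] at hc
    have hψ : A.valuation (psi W x y) < 1 := lt_of_le_of_ne (val_le_one (hN.psi_mem hxA hyA)) hc.1
    have hg : A.valuation (tanNum W x y) < 1 :=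
      lt_of_le_of_ne (val_le_one (hN.tanNum_mem hxA hyA)) hc.2
    have e1 := psi_sq h.1
    rw [hN.b₄_eq, hN.b₆_eq] at e1
    have hψ' := hN.psi_eq x y
    -- `2x` and `4x + b₂` are nonunits, hence so is `b₂`
    have A1 : A.valuation (x ^ 2 * (4 * x + W.b₂)) < 1 := by
      have : x ^ 2 * (4 * x + W.b₂) = psi W x y ^ 2 - 4 * W.a₄ * x := by rw [e1]; ring
      rw [this]
      refine A.valuation.map_sub_lt ?_ ?_
      · rw [map_pow]; exact pow_lt_one₀ zero_le hψ two_ne_zero
      · rw [map_mul, map_mul, hx1, mul_one]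
        exact (mul_le_of_le_one_left' (val_le_one (natCast_mem A 4))).trans_lt hN.a₄_lt
    rw [map_mul, map_pow, hx1, one_pow, one_mul] at A1
    have A2 : A.valuation (x * (6 * x + W.b₂)) < 1 := by
      have : x * (6 * x + W.b₂) = W.a₁ * psi W x y + 2 * tanNum W x y - 2 * W.a₄ := by
        simp only [tanNum, psi, hN.a₃_eq, b₂]; ring
      rw [this]
      refine A.valuation.map_sub_lt (A.valuation.map_add_lt ?_ ?_) ?_ <;> rw [map_mul]
      · exact (mul_le_of_le_one_left' (val_le_one hN.mem₁)).trans_lt hψ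
      · exact (mul_le_of_le_one_left' (val_le_one (natCast_mem A 2))).trans_lt hg
      · exact (mul_le_of_le_one_left' (val_le_one (natCast_mem A 2))).trans_lt hN.a₄_lt
    rw [map_mul, hx1, one_mul] at A2
    have A3 : A.valuation (2 * x) < 1 := by
      have := A.valuation.map_sub_lt A2 A1
      rwa [show 6 * x + W.b₂ - (4 * x + W.b₂) = 2 * x by ring] at this
    have A4 : A.valuation W.b₂ < 1 := by
      have hle : A.valuation (2 * (2 * x)) < 1 := by
        rw [map_mul]
        exact (mul_le_of_le_one_left' (val_le_one (natCast_mem A 2))).trans_lt A3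
      have := A.valuation.map_sub_lt A1 hle
      rwa [show 4 * x + W.b₂ - 2 * (2 * x) = W.b₂ by ring] at this
    exact A4.ne hN.b₂_unit

lemma not_inE0_iff {P : W.Point} : ¬InE0 hN.toIntCoeff P ↔ xVal A P < 1 := by
  rw [hN.inE0_iff, not_le]

variable [DecidableEq K] [DecidableEq (ResidueField A)]

omit [DecidableEq (ResidueField A)] in
/-- The product formula for the abscissae of `P + Q` and `P - Q`. -/
lemma xVal_mul {x₁ y₁ x₂ y₂ : K} (h₁ : W.Nonsingular x₁ y₁) (h₂ : W.Nonsingular x₂ y₂)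
    (hx : x₁ ≠ x₂) :
    xVal A (Point.some _ _ h₁ + Point.some _ _ h₂) *
        xVal A (Point.some _ _ h₁ - Point.some _ _ h₂) * A.valuation (x₁ - x₂) ^ 2 =
      A.valuation (x₁ * x₂ - W.a₄) ^ 2 := by
  obtain ⟨y₃, h₃, e₃⟩ := add_some_of_X_ne h₁ h₂ hx
  obtain ⟨y₄, h₄, e₄⟩ := sub_some_of_X_ne h₁ h₂ hx
  rw [e₃, e₄, xVal_some, xVal_some, ← map_mul, ← map_pow, ← map_mul,
    addX_mul_subX h₁.1 h₂.1 hx, hN.b₄_eq, hN.b₆_eq, hN.b₈_eq, ← map_pow]
  congr 1
  ring

/-- An odd torsion point outside `E₀` has abscissa of valuation strictly between that of `a₄`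
and `1`. -/
lemma u_lt_xVal {p : ℕ} (hp : Odd p) {P : W.Point} (hP : p • P = 0)
    (h0 : ¬InE0 hN.toIntCoeff P) : A.valuation W.a₄ < xVal A P := by
  by_contra hle
  rw [not_lt] at hle
  suffices h2 : InE0 hN.toIntCoeff ((2 : ℕ) • P) by
    apply h0
    obtain ⟨k, hk⟩ := hp
    have e : P = (k + 1) • ((2 : ℕ) • P) := by
      rw [← mul_nsmul', show (k + 1) * 2 = p + 1 by omega, add_nsmul, hP, one_nsmul, zero_add]
    rw [e]
    exact (mem_e0Subgroup hN.toIntCoeff).mp (nsmul_mem ((mem_e0Subgroup _).mpr h2) _)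
  rcases P with _ | ⟨x, y, h⟩
  · exact absurd trivial h0
  rw [xVal_some] at hle
  by_cases hψ : psi W x y = 0
  · rw [two_nsmul_some_of_psi_eq_zero h hψ]; exact inE0_zero _
  obtain ⟨y₃, h₃, e₃⟩ := two_nsmul_some h hψ
  rw [e₃, hN.inE0_iff, xVal_some]
  have e := congrArg A.valuation (addX_self_mul_psi_sq h.1 hψ)
  rw [hN.b₄_eq, hN.b₆_eq, hN.b₈_eq,
    show x ^ 4 - 2 * W.a₄ * x ^ 2 - 2 * 0 * x - -W.a₄ ^ 2 = (x ^ 2 - W.a₄) ^ 2 by ring,
    map_mul, map_pow, map_pow] at e
  have hu1 : A.valuation (x ^ 2 - W.a₄) = A.valuation W.a₄ := by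
    refine A.valuation.map_sub_eq_of_lt_right ?_
    rw [map_pow]
    exact (pow_le_pow_left₀ zero_le hle 2).trans_lt
      (pow_lt_self_of_lt_one₀ hN.u_pos hN.a₄_lt one_lt_two)
  rw [hu1] at e
  have hψle : A.valuation (psi W x y) ^ 2 ≤ A.valuation W.a₄ ^ 2 := by
    rw [← map_pow, psi_sq h.1, hN.b₄_eq, hN.b₆_eq, add_zero]
    have hx1 : A.valuation x ≤ 1 := hle.trans hN.a₄_lt.le
    refine A.valuation.map_add_le (A.valuation.map_add_le ?_ ?_) ?_
    · rw [map_mul, map_pow]
      exact (mul_le_of_le_one_left' (val_le_one (natCast_mem A 4))).trans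
        ((pow_le_pow_left₀ zero_le hle 3).trans
          (pow_le_pow_of_le_one zero_le hN.a₄_lt.le (by norm_num)))
    · rw [map_mul, hN.b₂_unit, one_mul, map_pow]
      exact pow_le_pow_left₀ zero_le hle 2
    · rw [map_mul, show (2 : K) * (2 * W.a₄) = 4 * W.a₄ by ring, map_mul, sq]
      exact mul_le_mul' (mul_le_of_le_one_left' (val_le_one (natCast_mem A 4))) hle
  by_contra hc
  rw [not_le] at hc
  have hp2 : (0 : A.ValueGroup) < A.valuation (psi W x y) ^ 2 :=
    pow_pos (A.valuation.pos_iff.mpr hψ) 2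
  exact absurd e.symm.le (not_le.mpr ((mul_lt_of_lt_one_left hp2 hc).trans_le hψle))

end NodeModel

end FLTAgent.LocalEC
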