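import Fermat.Agent.LocalEC.Node

/-!
Torsion points of odd prime order at a node: the valuation of the abscissa.
-/

set_option autoImplicit false

namespace FLTAgent.LocalEC

open WeierstrassCurve WeierstrassCurve.Affine IsLocalRing

variable {K : Type*} [Field K] [DecidableEq K] {A : ValuationSubring K}
  {W : WeierstrassCurve.Affine K} [DecidableEq (ResidueField A)]

omit [DecidableEq K] [DecidableEq (ResidueField A)] in
private lemma xVal_eq_pos {P : W.Point} (hP : xVal A P < 1) :
    ∃ x y h, P = Point.some x y h ∧ A.valuation x = xVal A P := by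
  rcases P with _ | ⟨x, y, h⟩
  · exact absurd hP (lt_irrefl 1)
  · exact ⟨x, y, h, rfl, rfl⟩

namespace NodeModel

variable (hN : NodeModel A W)
include hN

variable {p : ℕ} [Fact p.Prime]

/-- Multiples prime to `p` of a `p`-torsion point outside `E₀` are outside `E₀`. -/
lemma not_inE0_nsmul {P : W.Point} (hP : p • P = 0) (h0 : ¬InE0 hN.toIntCoeff P) {k : ℕ}
    (hk : ¬p ∣ k) : ¬InE0 hN.toIntCoeff (k • P) := by
  intro hc
  apply h0
  have hco : Nat.gcd k p = 1 :=
    Nat.Coprime.symm ((Fact.out : p.Prime).coprime_iff_not_dvd.mpr hk)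
  have hb := Nat.gcd_eq_gcd_ab k p
  rw [hco] at hb
  have e : P = Nat.gcdA k p • (k • P) := by
    calc P = ((1 : ℕ) : ℤ) • P := by rw [Nat.cast_one, one_zsmul]
      _ = ((k : ℤ) * Nat.gcdA k p + (p : ℤ) * Nat.gcdB k p) • P := by rw [hb]
      _ = Nat.gcdA k p • (k • P) := by
        rw [add_zsmul, mul_comm (k : ℤ), mul_smul, mul_comm (p : ℤ), mul_smul, natCast_zsmul,
          natCast_zsmul, hP, zsmul_zero, add_zero]
  rw [e]
  exact (mem_e0Subgroup hN.toIntCoeff).mp (zsmul_mem ((mem_e0Subgroup _).mpr hc) _)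

omit [DecidableEq (ResidueField A)] in
/-- The recursion for the valuations of the abscissae of the multiples of the point whose
abscissa is largest. -/
private lemma xVal_nsmul_aux (hp2 : p ≠ 2) {P : W.Point} (hP : p • P = 0) {t : A.ValueGroup}
    (ht : xVal A P = t)
    (hbad : ∀ k : ℕ, ¬p ∣ k → A.valuation W.a₄ < xVal A (k • P) ∧ xVal A (k • P) < 1)
    (hmax : ∀ k : ℕ, ¬p ∣ k → xVal A (k • P) ≤ t) :
    ∀ m : ℕ, 1 ≤ m → m ≤ p - 1 →
      (A.valuation W.a₄ < t ^ m → xVal A (m • P) = t ^ m) ∧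
      (t ^ m ≤ A.valuation W.a₄ → t ^ m * xVal A (m • P) = A.valuation W.a₄ ^ 2) := by
  have hp5 : 3 ≤ p := (Fact.out : p.Prime).two_le.lt_of_ne (Ne.symm hp2)
  have hndvd : ∀ {k : ℕ}, 0 < k → k < p → ¬p ∣ k := fun h h' hd =>
    absurd (Nat.le_of_dvd h hd) (not_le.mpr h')
  have h1 := hbad 1 (hndvd one_pos (by omega))
  rw [one_nsmul, ht] at h1
  obtain ⟨htu, ht1⟩ := h1
  set u := A.valuation W.a₄ with hu
  have hu0 : 0 < u := hN.u_pos
  have hu1 : u < 1 := hN.a₄_lt
  have ht0 : 0 < t := hu0.trans htu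
  obtain ⟨x, y, h, rfl, hx⟩ := xVal_eq_pos (ht.trans_lt ht1)
  rw [xVal_some] at hx
  rw [xVal_some] at ht
  set P : W.Point := Point.some x y h
  intro m
  induction m using Nat.strong_induction_on with
  | _ m IH =>
    intro hm1 hmp
    -- the value `t ^ m = u` would give a point whose value is `u`
    rcases lt_or_eq_of_le hm1 with hm2 | rfl
    swap
    · rw [one_nsmul, pow_one, xVal_some, ht]
      exact ⟨fun _ => rfl, fun hle => absurd hle (not_le.mpr htu)⟩
    obtain ⟨n, rfl⟩ : ∃ n, m = n + 2 := ⟨m - 2, by omega⟩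
    rcases Nat.eq_zero_or_pos n with rfl | hn
    · -- duplication
      simp only [Nat.zero_add]
      obtain ⟨hG1, hG2⟩ := hbad 2 (hndvd two_pos (by omega))
      have hψ : A.valuation (psi W x y) = t := by
        rw [hN.val_psi h.1 (by rw [ht]; exact htu) (by rw [ht]; exact ht1), ht]
      have hψ0 : psi W x y ≠ 0 := by
        intro h0; rw [h0, map_zero] at hψ; exact ht0.ne hψ
      obtain ⟨y₃, h₃, e₃⟩ := two_nsmul_some h hψ0
      have e := congrArg A.valuation (addX_self_mul_psi_sq h.1 hψ0)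
      rw [hN.b₄_eq, hN.b₆_eq, hN.b₈_eq,
        show x ^ 4 - 2 * W.a₄ * x ^ 2 - 2 * 0 * x - -W.a₄ ^ 2 = (x ^ 2 - W.a₄) ^ 2 by ring,
        map_mul, map_pow, map_pow, hψ] at e
      rw [e₃, xVal_some] at hG1 hG2 ⊢
      generalize A.valuation (W.addX x x (tanNum W x y / psi W x y)) = G at e hG1 hG2 ⊢
      have hx2 : A.valuation (x ^ 2) = t ^ 2 := by rw [map_pow, ht]
      rcases lt_trichotomy u (t ^ 2) with hlt | heq | hgt
      · refine ⟨fun _ => ?_, fun hle => absurd hle (not_le.mpr hlt)⟩
        rw [A.valuation.map_sub_eq_of_lt_left (by rw [hx2]; exact hlt), hx2, sq (t ^ 2)] at e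
        exact mul_right_cancel₀ (pow_ne_zero 2 ht0.ne') e
      · exfalso
        refine absurd hG1 (not_lt.mpr ?_)
        have hle : A.valuation (x ^ 2 - W.a₄) ≤ u :=
          A.valuation.map_sub_le (by rw [hx2, heq]) le_rfl
        refine le_of_mul_le_mul_right ?_ hu0
        calc G * u = G * t ^ 2 := by rw [heq]
          _ ≤ u ^ 2 := e.trans_le (pow_le_pow_left₀ zero_le hle 2)
          _ = u * u := sq u
      · refine ⟨fun hlt => absurd hlt (not_lt.mpr hgt.le), fun _ => ?_⟩
        rw [A.valuation.map_sub_eq_of_lt_right (by rw [hx2]; exact hgt)] at e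
        rw [mul_comm]
        exact e
    -- the general step from `n + 1` and `n` to `n + 2`
    obtain ⟨IHm, IHm'⟩ := IH (n + 1) (by omega) (by omega) (by omega)
    obtain ⟨IHl, IHl'⟩ := IH n (by omega) hn (by omega)
    obtain ⟨hG1, hG2⟩ := hbad (n + 2) (hndvd (by omega) (by omega))
    obtain ⟨hF1, hF2⟩ := hbad (n + 1) (hndvd (by omega) (by omega))
    obtain ⟨hH1, hH2⟩ := hbad n (hndvd hn (by omega))
    have hFt := hmax (n + 1) (hndvd (by omega) (by omega))
    obtain ⟨xm, ym, hm, hQ, hxm⟩ := xVal_eq_pos hF2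
    have hne : xm ≠ x := by
      intro e
      have hQ' : ((n + 1) • P = P) ∨ ((n + 1) • P = -P) := by
        rw [hQ]; exact Point.X_eq_iff.mp e
      rcases hQ' with e' | e'
      · rw [add_nsmul, one_nsmul, add_eq_right] at e'
        rw [e', xVal_zero] at hH2
        exact lt_irrefl 1 hH2
      · rw [← add_eq_zero_iff_eq_neg, ← succ_nsmul] at e'
        rw [e', xVal_zero] at hG2
        exact lt_irrefl 1 hG2
    have key := hN.xVal_mul hm h hne
    have eG : Point.some xm ym hm + Point.some x y h = (n + 2) • P := by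
      rw [← hQ, ← succ_nsmul]
    have eH : Point.some xm ym hm - Point.some x y h = n • P := by
      rw [← hQ, succ_nsmul, add_sub_cancel_right]
    rw [eG, eH] at key
    have hd : A.valuation (xm - x) ≤ t :=
      A.valuation.map_sub_le (hxm ▸ hFt) ht.le
    have hprod : A.valuation (xm * x) = xVal A ((n + 1) • P) * t := by rw [map_mul, hxm, ht]
    generalize xVal A ((n + 2) • P) = G at key hG1 hG2 ⊢
    generalize xVal A ((n + 1) • P) = F at IHm IHm' hF1 hF2 hFt hxm hprod
    generalize xVal A (n • P) = H at key IHl IHl' hH1 hH2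
    have hpow : ∀ k : ℕ, (0 : A.ValueGroup) < t ^ k := fun k => pow_pos ht0 k
    have htm : u ≠ t ^ (n + 1) := by
      intro e
      refine hF1.ne' (mul_left_cancel₀ hu0.ne' ?_)
      rw [← sq]; nth_rewrite 1 [e]; exact IHm' e.ge
    have htl : u ≠ t ^ n := by
      intro e
      refine hH1.ne' (mul_left_cancel₀ hu0.ne' ?_)
      rw [← sq]; nth_rewrite 1 [e]; exact IHl' e.ge
    have hstep : t ^ (n + 2) = t ^ (n + 1) * t := pow_succ t (n + 1)
    have hdec : t ^ (n + 1) < t ^ n := pow_lt_pow_right_of_lt_one₀ ht0 ht1 (by omega)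
    have hdec' : t ^ (n + 2) < t ^ (n + 1) := pow_lt_pow_right_of_lt_one₀ ht0 ht1 (by omega)
    rcases hFt.lt_or_eq with hFt' | hFt'
    · have hdt : A.valuation (xm - x) = t := by
        rw [A.valuation.map_sub_eq_of_lt_right (by rw [hxm, ht]; exact hFt'), ht]
      rw [hdt] at key
      rcases htm.lt_or_gt with hlt | hgt
      · -- increasing part
        have hF := IHm hlt
        have hH := IHl (hlt.trans hdec)
        rw [hF, ← hstep] at hprod
        rw [hH] at key
        have key' : G * t ^ (n + 2) = A.valuation (xm * x - W.a₄) ^ 2 := by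
          rw [← key, mul_assoc, ← pow_add]
        rcases lt_trichotomy u (t ^ (n + 2)) with h' | h' | h'
        · refine ⟨fun _ => ?_, fun hle => absurd hle (not_le.mpr h')⟩
          rw [A.valuation.map_sub_eq_of_lt_left (by rw [hprod]; exact h'), hprod,
            sq] at key'
          exact mul_right_cancel₀ (hpow _).ne' key'
        · exfalso
          refine absurd hG1 (not_lt.mpr ?_)
          have hle : A.valuation (xm * x - W.a₄) ≤ u :=
            A.valuation.map_sub_le (by rw [hprod, h']) le_rfl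
          refine le_of_mul_le_mul_right ?_ hu0
          calc G * u = G * t ^ (n + 2) := by rw [h']
            _ ≤ u ^ 2 := key'.trans_le (pow_le_pow_left₀ zero_le hle 2)
            _ = u * u := sq u
        · refine ⟨fun hl => absurd hl (not_lt.mpr h'.le), fun _ => ?_⟩
          rw [A.valuation.map_sub_eq_of_lt_right (by rw [hprod]; exact h')] at key'
          rw [mul_comm]; exact key'
      · -- decreasing part
        have hF := IHm' hgt.le
        refine ⟨fun hl => absurd (hl.trans hdec') (not_lt.mpr hgt.le), fun _ => ?_⟩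
        rcases htl.lt_or_gt with hlt' | hgt'
        · have hH := IHl hlt'
          rw [hH] at key
          have hlt2 : A.valuation (xm * x) < u := by
            rw [hprod]
            refine (mul_lt_mul_iff_right₀ (hpow n)).mp ?_
            calc t ^ n * (F * t) = u ^ 2 := by rw [← hF, pow_succ]; ac_rfl
              _ = u * u := sq u
              _ < t ^ n * u := mul_lt_mul_of_pos_right hlt' hu0
          rw [A.valuation.map_sub_eq_of_lt_right hlt2] at key
          rw [← key, mul_assoc, ← pow_add, mul_comm]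
        · have hH := IHl' hgt'.le
          have hgt2 : u < A.valuation (xm * x) := by
            rw [hprod]
            refine (mul_lt_mul_iff_right₀ (hpow n)).mp ?_
            calc t ^ n * u < u * u := mul_lt_mul_of_pos_right hgt' hu0
              _ = u ^ 2 := (sq u).symm
              _ = t ^ n * (F * t) := by rw [← hF, pow_succ]; ac_rfl
          rw [A.valuation.map_sub_eq_of_lt_left hgt2, hprod, mul_pow] at key
          have key2 : G * H = F ^ 2 := mul_right_cancel₀ (pow_ne_zero 2 ht0.ne') key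
          refine mul_right_cancel₀ (pow_ne_zero 2 hu0.ne') ?_
          calc t ^ (n + 2) * G * u ^ 2 = t ^ (n + 2) * G * (t ^ n * H) := by rw [hH]
            _ = (t ^ (n + 2) * t ^ n) * (G * H) := by ac_rfl
            _ = (t ^ (n + 1) * F) ^ 2 := by
              rw [key2, ← pow_add, mul_pow, ← pow_mul]; congr 2; omega
            _ = u ^ 2 * u ^ 2 := by rw [hF, sq (u ^ 2)]
    · -- the largest value cannot come back before `p - 1`
      exfalso
      rw [hFt'] at hprod IHm IHm'
      have hgt : t ^ (n + 1) ≤ u := by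
        by_contra hc
        rw [not_le] at hc
        have : t = t ^ (n + 1) := IHm hc
        exact (pow_lt_self_of_lt_one₀ ht0 ht1 (by omega)).ne this.symm
      have hu2 : t ^ (n + 2) = u ^ 2 := by rw [hstep]; exact IHm' hgt
      refine absurd hG2 (not_lt.mpr ?_)
      rcases lt_or_eq_of_le (show 1 ≤ n from hn) with hn2 | hn1
      · have hlow : t ^ n ≤ u := by
          by_contra hc
          rw [not_le] at hc
          have hlt : u ^ 2 < (t ^ n) ^ 2 := pow_lt_pow_left₀ hc zero_le two_ne_zero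
          rw [← hu2, ← pow_mul] at hlt
          exact absurd hlt (not_lt.mpr (pow_le_pow_of_le_one zero_le ht1.le (by omega)))
        have hH : H = t ^ 2 := by
          refine mul_left_cancel₀ (hpow n).ne' ?_
          rw [IHl' hlow, ← pow_add, hu2]
        have hut : u < t * t := by
          refine lt_of_le_of_ne ?_ ?_
          · refine (pow_le_pow_iff_left₀ zero_le zero_le two_ne_zero).mp ?_
            rw [← hu2, ← sq, ← pow_mul]
            exact pow_le_pow_of_le_one zero_le ht1.le (by omega)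
          · rw [← sq, ← hH]; exact hH1.ne
        rw [A.valuation.map_sub_eq_of_lt_left
          (show A.valuation W.a₄ < A.valuation (xm * x) by rw [hprod]; exact hut), hprod, hH,
          ← sq] at key
        refine le_of_mul_le_mul_right ?_ (pow_pos (pow_pos ht0 2) 2)
        calc 1 * (t ^ 2) ^ 2 = G * t ^ 2 * A.valuation (xm - x) ^ 2 := by rw [one_mul, key]
          _ ≤ G * t ^ 2 * t ^ 2 := mul_le_mul_right (pow_le_pow_left₀ zero_le hd 2) _
          _ = G * (t ^ 2) ^ 2 := by rw [mul_assoc, ← sq]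
      · obtain rfl : n = 1 := hn1.symm
        have htu' : u < t ^ 1 := by rwa [pow_one]
        have hH : H = t := (IHl htu').trans (pow_one t)
        have hlt : t * t < u := by
          rw [← sq]; exact lt_of_le_of_ne hgt htm.symm
        rw [A.valuation.map_sub_eq_of_lt_right
          (show A.valuation (xm * x) < A.valuation W.a₄ by rw [hprod]; exact hlt), hH, ← hu,
          ← hu2] at key
        refine le_of_mul_le_mul_right ?_ (hpow 3)
        calc 1 * t ^ 3 = G * t * A.valuation (xm - x) ^ 2 := by rw [one_mul, key]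
          _ ≤ G * t * t ^ 2 := mul_le_mul_right (pow_le_pow_left₀ zero_le hd 2) _
          _ = G * t ^ 3 := by rw [mul_assoc, ← pow_succ']

/-- **The component of a `p`-torsion point.** Outside `E₀` the `p`-th power of the abscissa of a
`p`-torsion point has the valuation of an even power of `a₄`. -/
theorem exists_xVal_pow_eq (hp2 : p ≠ 2) {P : W.Point} (hP : p • P = 0)
    (h0 : ¬InE0 hN.toIntCoeff P) :
    ∃ k : ℕ, 1 ≤ k ∧ 2 * k < p ∧ xVal A P ^ p = A.valuation W.a₄ ^ (2 * k) := by
  classical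
  have hpp : p.Prime := Fact.out
  have hodd : Odd p := hpp.odd_of_ne_two hp2
  have hp3 : 3 ≤ p := hpp.two_le.lt_of_ne (Ne.symm hp2)
  have hndvd : ∀ {k : ℕ}, 0 < k → k < p → ¬p ∣ k := fun h h' hd =>
    absurd (Nat.le_of_dvd h hd) (not_le.mpr h')
  obtain ⟨j, hj, hjmax⟩ := Finset.exists_max_image (Finset.Ico 1 p) (fun k => xVal A (k • P))
    ⟨1, Finset.mem_Ico.mpr ⟨le_rfl, hpp.one_lt⟩⟩
  rw [Finset.mem_Ico] at hj
  have hmod : ∀ k : ℕ, k • P = (k % p) • P := fun k => by
    conv_lhs => rw [← Nat.mod_add_div k p, add_nsmul, mul_nsmul, hP, nsmul_zero, add_zero]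
  set Q := j • P with hQ
  have hQp : p • Q = 0 := by rw [hQ, smul_comm, hP, nsmul_zero]
  have hjp : ¬p ∣ j := hndvd (by omega) hj.2
  have hbad : ∀ k : ℕ, ¬p ∣ k → A.valuation W.a₄ < xVal A (k • Q) ∧ xVal A (k • Q) < 1 := by
    intro k hk
    have hb := hN.not_inE0_nsmul hQp (hN.not_inE0_nsmul hP h0 hjp) hk
    refine ⟨hN.u_lt_xVal hodd ?_ hb, hN.not_inE0_iff.mp hb⟩
    rw [smul_comm, hQp, nsmul_zero]
  have hmax : ∀ k : ℕ, ¬p ∣ k → xVal A (k • Q) ≤ xVal A Q := by
    intro k hk
    rw [hQ, ← mul_nsmul', hmod]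
    refine hjmax _ (Finset.mem_Ico.mpr ⟨?_, Nat.mod_lt _ hpp.pos⟩)
    rw [Nat.one_le_iff_ne_zero, ne_eq, ← Nat.dvd_iff_mod_eq_zero, hpp.dvd_mul]
    exact fun h => h.elim hk hjp
  have aux := hN.xVal_nsmul_aux hp2 hQp rfl hbad hmax
  set u := A.valuation W.a₄
  set t := xVal A Q with ht
  have h1 := hbad 1 (hndvd one_pos (by omega))
  rw [one_nsmul, ← ht] at h1
  have ht0 : 0 < t := hN.u_pos.trans h1.1
  have hend : t ^ p = u ^ 2 := by
    obtain ⟨ha, hb⟩ := aux (p - 1) (by omega) le_rfl
    have hneg : (p - 1) • Q = -Q := by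
      rw [eq_neg_iff_add_eq_zero, ← succ_nsmul, Nat.sub_add_cancel hpp.one_le, hQp]
    rw [hneg, xVal_neg, ← ht] at ha hb
    have hle : t ^ (p - 1) ≤ u := by
      by_contra hc
      rw [not_le] at hc
      exact (pow_lt_self_of_lt_one₀ ht0 h1.2 (by omega)).ne (ha hc).symm
    rw [← hb hle, ← pow_succ, Nat.sub_add_cancel hpp.one_le]
  obtain ⟨m, hm⟩ : ∃ m : ℕ, P = m • Q := by
    have hco : Nat.Coprime j p := (hpp.coprime_iff_not_dvd.mpr hjp).symm
    obtain ⟨m, -, hm⟩ := Nat.exists_mul_mod_eq_one_of_coprime hco hpp.one_lt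
    exact ⟨m, by rw [hQ, ← mul_nsmul', hmod, mul_comm, hm, one_nsmul]⟩
  have hm' : P = (m % p) • Q := by
    rw [hm]; conv_lhs => rw [← Nat.mod_add_div m p, add_nsmul, mul_nsmul, hQp, nsmul_zero, add_zero]
  have hm0 : m % p ≠ 0 := by
    intro e; rw [e, zero_nsmul] at hm'; exact h0 (hm' ▸ inE0_zero _)
  have hmlt : m % p < p := Nat.mod_lt _ hpp.pos
  obtain ⟨ha, hb⟩ := aux (m % p) (by omega) (by omega)
  rw [← hm'] at ha hb
  have hgt : u < xVal A P := hN.u_lt_xVal hodd hP h0
  have hlt : xVal A P < 1 := hN.not_inE0_iff.mp h0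
  have key : ∃ k : ℕ, xVal A P ^ p = u ^ (2 * k) := by
    by_cases hc : u < t ^ (m % p)
    · exact ⟨m % p, by rw [ha hc, ← pow_mul, mul_comm, pow_mul, hend, ← pow_mul]⟩
    · refine ⟨p - m % p, mul_left_cancel₀ (pow_ne_zero (2 * (m % p)) hN.u_pos.ne') ?_⟩
      calc u ^ (2 * (m % p)) * xVal A P ^ p = (t ^ p) ^ (m % p) * xVal A P ^ p := by
            rw [hend, ← pow_mul]
        _ = (t ^ (m % p) * xVal A P) ^ p := by rw [← pow_mul, mul_comm p, pow_mul, ← mul_pow]
        _ = u ^ (2 * p) := by rw [hb (not_lt.mp hc), ← pow_mul]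
        _ = u ^ (2 * (m % p)) * u ^ (2 * (p - m % p)) := by
          rw [← pow_add]; congr 1; omega
  obtain ⟨k, hk⟩ := key
  refine ⟨k, ?_, ?_, hk⟩
  · by_contra hc
    rw [show k = 0 by omega, mul_zero, pow_zero] at hk
    exact (pow_lt_one₀ zero_le hlt hpp.ne_zero).ne hk
  · by_contra hc
    exact absurd (pow_lt_pow_left₀ hgt zero_le hpp.ne_zero)
      (not_lt.mpr (hk.trans_le (pow_le_pow_of_le_one zero_le hN.a₄_lt.le (by omega))))

end NodeModel

end FLTAgent.LocalEC
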