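import Fermat.Agent.LocalEC.Kernel

/-!
The points with nonsingular reduction and the reduction homomorphism.
-/

set_option autoImplicit false

namespace FLTAgent.LocalEC

open WeierstrassCurve WeierstrassCurve.Affine IsLocalRing

variable {K : Type*} [Field K] {A : ValuationSubring K} {W : WeierstrassCurve.Affine K}

namespace IntCoeff

variable (hW : IntCoeff A W)

/-- `psi` computed in `A`. -/
def psiA (x y : A) : A := 2 * y + hW.model.a₁ * x + hW.model.a₃

/-- `tanNum` computed in `A`. -/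
def tanA (x y : A) : A := 3 * x ^ 2 + 2 * hW.model.a₂ * x + hW.model.a₄ - hW.model.a₁ * y

lemma coe_psiA (x y : A) : (hW.psiA x y : K) = psi W x y := rfl

lemma coe_tanA (x y : A) : (hW.tanA x y : K) = tanNum W x y := rfl

lemma residue_psiA (x y : A) :
    residue A (hW.psiA x y) = psi hW.redCurve (residue A x) (residue A y) := by
  simp [psi, psiA, redCurve, map_ofNat]

lemma residue_tanA (x y : A) :
    residue A (hW.tanA x y) = tanNum hW.redCurve (residue A x) (residue A y) := by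
  simp [tanNum, tanA, redCurve, map_ofNat]

lemma redCurve_nonsingular_iff {x y : A} (h : W.Equation (x : K) y) :
    hW.redCurve.Nonsingular (residue A x) (residue A y) ↔
      A.valuation (psi W x y) = 1 ∨ A.valuation (tanNum W x y) = 1 := by
  have e : hW.redCurve.a₁ * residue A y - (3 * residue A x ^ 2 +
      2 * hW.redCurve.a₂ * residue A x + hW.redCurve.a₄) = -residue A (hW.tanA x y) := by
    rw [hW.residue_tanA]; simp only [tanNum]; ring
  rw [nonsingular_iff', and_iff_right (hW.equation_residue h), e, neg_ne_zero, or_comm]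
  refine or_congr ?_ ?_
  · rw [← hW.coe_psiA, ← residue_ne_zero_iff_val_eq_one, hW.residue_psiA]; rfl
  · rw [← hW.coe_tanA, ← residue_ne_zero_iff_val_eq_one]

end IntCoeff

/-- `P` reduces to a nonsingular point. -/
def InE0 (hW : IntCoeff A W) : W.Point → Prop
  | .zero => True
  | .some x y _ => x ∉ A ∨ ∃ (hx : x ∈ A) (hy : y ∈ A),
      hW.redCurve.Nonsingular (residue A ⟨x, hx⟩) (residue A ⟨y, hy⟩)

variable (hW : IntCoeff A W)

lemma inE0_zero : InE0 hW (0 : W.Point) := trivial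

lemma inE0_some_iff {x y : K} {h : W.Nonsingular x y} :
    InE0 hW (Point.some x y h) ↔ x ∉ A ∨ ∃ (hx : x ∈ A) (hy : y ∈ A),
      hW.redCurve.Nonsingular (residue A ⟨x, hx⟩) (residue A ⟨y, hy⟩) := Iff.rfl

lemma inE0_of_inE1 {P : W.Point} (h : InE1 A P) : InE0 hW P := by
  rcases P with _ | ⟨x, y, hP⟩
  · exact trivial
  · exact Or.inl h

lemma residue_negY (x y : A) (hy : W.negY (x : K) y ∈ A) :
    residue A ⟨W.negY (x : K) y, hy⟩ = hW.redCurve.negY (residue A x) (residue A y) := by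
  have : (⟨W.negY (x : K) y, hy⟩ : A) = hW.model.negY x y := Subtype.ext rfl
  rw [this, IntCoeff.redCurve, map_negY]

lemma inE0_neg {P : W.Point} (h : InE0 hW P) : InE0 hW (-P) := by
  rcases P with _ | ⟨x, y, hP⟩
  · exact trivial
  · rw [Point.neg_some, inE0_some_iff]
    rcases h with h | ⟨hx, hy, hns⟩
    · exact Or.inl h
    · have hy' : W.negY x y ∈ A := hW.y_mem ((equation_neg x y).mpr hP.1) hx
      refine Or.inr ⟨hx, hy', ?_⟩
      rw [residue_negY hW ⟨x, hx⟩ ⟨y, hy⟩ hy', nonsingular_neg]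
      exact hns

lemma inE0_neg_iff {P : W.Point} : InE0 hW (-P) ↔ InE0 hW P :=
  ⟨fun h => neg_neg P ▸ inE0_neg hW h, inE0_neg hW⟩

open scoped Classical in
/-- The reduction map; zero on `E₁` and on points with singular reduction. -/
noncomputable def red : W.Point → hW.redCurve.Point
  | .zero => 0
  | .some x y _ =>
    if h : ∃ (hx : x ∈ A) (hy : y ∈ A),
      hW.redCurve.Nonsingular (residue A ⟨x, hx⟩) (residue A ⟨y, hy⟩) then
      Point.some _ _ h.choose_spec.choose_spec else 0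

@[simp] lemma red_zero : red hW (0 : W.Point) = 0 := rfl

lemma red_some {x y : K} {h : W.Nonsingular x y} (hx : x ∈ A) (hy : y ∈ A)
    (hns : hW.redCurve.Nonsingular (residue A ⟨x, hx⟩) (residue A ⟨y, hy⟩)) :
    red hW (Point.some x y h) = Point.some _ _ hns := by
  simp only [red]
  rw [dif_pos ⟨hx, hy, hns⟩]

lemma red_of_inE1 {P : W.Point} (h : InE1 A P) : red hW P = 0 := by
  rcases P with _ | ⟨x, y, hP⟩
  · rfl
  · simp only [red]
    exact dif_neg fun ⟨hx, _⟩ => h hx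

lemma red_neg (P : W.Point) (h : InE0 hW P) : red hW (-P) = -red hW P := by
  rcases P with _ | ⟨x, y, hP⟩
  · rfl
  · rcases h with h | ⟨hx, hy, hns⟩
    · rw [red_of_inE1 hW (P := Point.some x y hP) h,
        red_of_inE1 hW ((inE1_neg (P := Point.some x y hP)).mpr h), Point.neg_zero]
    · have hy' : W.negY x y ∈ A := hW.y_mem ((equation_neg x y).mpr hP.1) hx
      have e := residue_negY hW ⟨x, hx⟩ ⟨y, hy⟩ hy'
      rw [Point.neg_some, red_some hW hx hy' (e ▸ (nonsingular_neg ..).mpr hns),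
        red_some hW hx hy hns, Point.neg_some, Point.some.injEq]
      exact ⟨rfl, e⟩

lemma inE1_iff_red_eq_zero {P : W.Point} (h : InE0 hW P) : InE1 A P ↔ red hW P = 0 := by
  refine ⟨red_of_inE1 hW, fun e => ?_⟩
  rcases P with _ | ⟨x, y, hP⟩
  · exact trivial
  · rcases h with h | ⟨hx, hy, hns⟩
    · exact h
    · rw [red_some hW hx hy hns] at e
      exact absurd e (Point.some_ne_zero _)

variable [DecidableEq K]

/-- Integral points with the same nonsingular reduction differ by an element of `E₁`. -/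
lemma sub_inE1_of_residue_eq {x₁ y₁ x₂ y₂ : A} (h₁ : W.Nonsingular (x₁ : K) y₁)
    (h₂ : W.Nonsingular (x₂ : K) y₂) (hx : residue A x₁ = residue A x₂)
    (hy : residue A y₁ = residue A y₂)
    (hns : hW.redCurve.Nonsingular (residue A x₁) (residue A y₁)) :
    InE1 A (Point.some _ _ h₁ - Point.some _ _ h₂) := by
  have dx := (residue_eq_iff_val_sub_lt_one _ _).mp hx
  have dy := (residue_eq_iff_val_sub_lt_one _ _).mp hy
  by_cases hψ : A.valuation (psi W (x₁ : K) y₁) = 1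
  · exact sub_inE1_of_val_lt hW h₁ h₂ x₁.2 x₂.2 (hψ ▸ dx) (hψ ▸ dy)
  have htan : A.valuation (tanNum W (x₁ : K) y₁) = 1 :=
    ((hW.redCurve_nonsingular_iff h₁.1).mp hns).resolve_left hψ
  have hψ' : A.valuation (psi W (x₁ : K) y₁) < 1 :=
    lt_of_le_of_ne (val_le_one (hW.psi_mem x₁.2 y₁.2)) hψ
  by_cases hxx : (x₁ : K) = x₂
  · rcases Y_eq_of_X_eq h₁.1 h₂.1 hxx with e | e
    · have : Point.some _ _ h₁ = Point.some _ _ h₂ := by rw [Point.some.injEq]; exact ⟨hxx, e⟩
      rw [this, sub_self]; exact inE1_zero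
    · have : Point.some _ _ h₁ = -Point.some _ _ h₂ := by
        rw [Point.neg_some, Point.some.injEq]; exact ⟨hxx, e⟩
      have h2 : Point.some _ _ h₁ - Point.some _ _ h₂ = (2 : ℕ) • Point.some _ _ h₁ := by
        rw [two_nsmul, sub_eq_add_neg, ← this]
      rw [h2]
      by_cases h0 : psi W (x₁ : K) y₁ = 0
      · rw [two_nsmul_some_of_psi_eq_zero h₁ h0]; exact inE1_zero
      · obtain ⟨y₃, h₃, e₃⟩ := two_nsmul_some h₁ h0
        rw [e₃, inE1_some_iff, not_mem_iff_one_lt_val]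
        refine one_lt_val_addX hW x₁.2 x₁.2 ?_
        rw [map_div₀, htan, one_lt_div₀ (A.valuation.pos_iff.mpr h0)]
        exact hψ'
  · obtain ⟨y₃, h₃, e₃⟩ := sub_some_of_X_ne h₁ h₂ hxx
    rw [e₃, inE1_some_iff, not_mem_iff_one_lt_val]
    refine one_lt_val_addX hW x₁.2 x₂.2 ?_
    have e₁ := h₁.1
    have e₂ := h₂.1
    rw [equation_iff] at e₁ e₂
    set d : K := (x₁ : K) - x₂ with hd
    set D' : K := ((y₁ : K) - y₂) + W.a₁ * d with hD'
    set M : K := (x₁ : K) ^ 2 + x₁ * x₂ + (x₂ : K) ^ 2 + W.a₂ * (x₁ + x₂) + W.a₄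
      - W.a₁ * W.negY x₂ y₂ with hM
    set N : K := (y₁ : K) + y₂ + W.a₁ * x₂ + W.a₃ with hN
    have hd0 : d ≠ 0 := sub_ne_zero.mpr hxx
    have key : N * D' = d * M := by
      simp only [hN, hD', hM, hd, negY]; linear_combination e₁ - e₂
    have hDlt : A.valuation D' < 1 := by
      refine A.valuation.map_add_lt dy ?_
      rw [map_mul]
      exact (mul_le_of_le_one_left' (val_le_one hW.mem₁)).trans_lt dx
    have hMsub : A.valuation (M - tanNum W (x₁ : K) y₁) < 1 := by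
      have : M - tanNum W (x₁ : K) y₁ =
          ((x₂ : K) - x₁) * (2 * x₁ + x₂ + W.a₂ - W.a₁ ^ 2) +
            W.a₁ * psi W (x₁ : K) y₁ + W.a₁ * ((y₂ : K) - y₁) + (-2 * W.a₁ ^ 2 * 0) +
            2 * W.a₁ ^ 2 * ((x₂ : K) - x₁) := by
        simp only [hM, tanNum, psi, negY]; ring
      rw [this]
      have dx' : A.valuation ((x₂ : K) - x₁) < 1 := by rwa [A.valuation.map_sub_swap]
      have dy' : A.valuation ((y₂ : K) - y₁) < 1 := by rwa [A.valuation.map_sub_swap]
      refine A.valuation.map_add_lt (A.valuation.map_add_lt (A.valuation.map_add_lt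
        (A.valuation.map_add_lt ?_ ?_) ?_) ?_) ?_
      · rw [map_mul]
        refine (mul_le_of_le_one_right' (val_le_one ?_)).trans_lt dx'
        exact sub_mem (add_mem (add_mem (mul_mem (natCast_mem A 2) x₁.2) x₂.2) hW.mem₂)
          (pow_mem hW.mem₁ 2)
      · rw [map_mul]; exact (mul_le_of_le_one_left' (val_le_one hW.mem₁)).trans_lt hψ'
      · rw [map_mul]; exact (mul_le_of_le_one_left' (val_le_one hW.mem₁)).trans_lt dy'
      · simp
      · rw [map_mul]
        exact (mul_le_of_le_one_left'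
          (val_le_one (mul_mem (natCast_mem A 2) (pow_mem hW.mem₁ 2)))).trans_lt dx'
    have hMv : A.valuation M = 1 := by
      have hlt : A.valuation (M - tanNum W (x₁ : K) y₁) < A.valuation (tanNum W (x₁ : K) y₁) :=
        htan.symm ▸ hMsub
      have := A.valuation.map_add_eq_of_lt_right hlt
      rwa [sub_add_cancel, htan] at this
    have hD0 : D' ≠ 0 := by
      intro h0
      rw [h0, mul_zero] at key
      rcases mul_eq_zero.mp key.symm with h | h
      · exact hd0 h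
      · rw [h, map_zero] at hMv; exact zero_ne_one hMv
    have hfrac : N / d = M / D' := by
      rw [div_eq_div_iff hd0 hD0, key, mul_comm]
    rw [hfrac, map_div₀, hMv, one_lt_div₀ (A.valuation.pos_iff.mpr hD0)]
    exact hDlt

omit [DecidableEq K] in
lemma exists_div (a b : A) (hb : residue A b ≠ 0) :
    ∃ l : A, (l : K) = (a : K) / b ∧ residue A l = residue A a / residue A b := by
  have hu : IsUnit b := by
    rw [ValuationSubring.valuation_eq_one_iff]; exact val_eq_one_of_residue_ne_zero hb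
  refine ⟨a * ↑(hu.unit⁻¹), ?_, ?_⟩
  · have h1 : ((b : K)) * ((↑(hu.unit⁻¹) : A) : K) = 1 := by
      exact congrArg Subtype.val (IsUnit.mul_val_inv hu)
    have hb0 : (b : K) ≠ 0 := left_ne_zero_of_mul (h1.symm ▸ one_ne_zero)
    simp only [MulMemClass.coe_mul]
    rw [eq_div_iff hb0]
    linear_combination (a : K) * h1
  · rw [eq_div_iff hb, ← map_mul, mul_assoc, IsUnit.val_inv_mul hu, mul_one]

variable [DecidableEq (ResidueField A)]

/-- The slope of the line through two integral points reduces to the slope of the reduced points,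
unless the latter are opposite. -/
lemma slope_residue {x₁ y₁ x₂ y₂ : A} (h₁ : W.Equation (x₁ : K) y₁) (h₂ : W.Equation (x₂ : K) y₂)
    (hne : ¬(residue A x₁ = residue A x₂ ∧
      residue A y₁ = hW.redCurve.negY (residue A x₂) (residue A y₂))) :
    ¬((x₁ : K) = x₂ ∧ (y₁ : K) = W.negY x₂ y₂) ∧
      ∃ l : A, W.slope (x₁ : K) x₂ y₁ y₂ = l ∧
        residue A l = hW.redCurve.slope (residue A x₁) (residue A x₂) (residue A y₁)
          (residue A y₂) := by
  have hK : ¬((x₁ : K) = x₂ ∧ (y₁ : K) = W.negY x₂ y₂) := by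
    rintro ⟨ex, ey⟩
    apply hne
    obtain rfl : x₁ = x₂ := Subtype.ext ex
    refine ⟨rfl, ?_⟩
    have hm : W.negY (x₁ : K) y₂ ∈ A := ey ▸ y₁.2
    rw [← residue_negY hW x₁ y₂ hm]
    exact congrArg _ (Subtype.ext ey)
  refine ⟨hK, ?_⟩
  by_cases hx : residue A x₁ = residue A x₂
  · have hy : residue A y₁ ≠ hW.redCurve.negY (residue A x₂) (residue A y₂) := fun e => hne ⟨hx, e⟩
    have hyeq := Y_eq_of_Y_ne (hW.equation_residue h₁) (hW.equation_residue h₂) hx hy
    have hψ : residue A (hW.psiA x₁ y₁) ≠ 0 := by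
      rw [hW.residue_psiA, ← y_sub_negY, sub_ne_zero]
      rw [← hx, ← hyeq] at hy
      exact hy
    by_cases hxx : (x₁ : K) = x₂
    · have hyK : (y₁ : K) ≠ W.negY x₂ y₂ := fun e => hK ⟨hxx, e⟩
      obtain ⟨l, hl, hlr⟩ := exists_div (hW.tanA x₁ y₁) (hW.psiA x₁ y₁) hψ
      refine ⟨l, ?_, ?_⟩
      · rw [hl, slope_of_Y_ne hxx hyK, y_sub_negY]; rfl
      · rw [hlr, slope_of_Y_ne hx hy, y_sub_negY, hW.residue_psiA, hW.residue_tanA]; rfl
    · set D : A := y₁ + y₂ + hW.model.a₁ * x₁ + hW.model.a₃ with hD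
      have hDr : residue A D = residue A (hW.psiA x₁ y₁) := by
        simp only [hD, IntCoeff.psiA, map_add, map_mul, map_ofNat, hyeq]; ring
      obtain ⟨l, hl, hlr⟩ := exists_div
        (x₁ ^ 2 + x₁ * x₂ + x₂ ^ 2 + hW.model.a₂ * (x₁ + x₂) + hW.model.a₄ - hW.model.a₁ * y₂)
        D (hDr ▸ hψ)
      refine ⟨l, ?_, ?_⟩
      · rw [hl, slope_of_X_ne hxx]
        have hD0 : ((D : A) : K) ≠ 0 := by
          intro h0; apply hψ; rw [← hDr, residue_eq_zero_iff_val_lt_one, h0, map_zero]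
          exact zero_lt_one
        rw [equation_iff] at h₁ h₂
        rw [div_eq_div_iff (sub_ne_zero.mpr hxx) hD0]
        show _ * ((y₁ : K) + y₂ + W.a₁ * x₁ + W.a₃) =
          ((x₁ : K) ^ 2 + x₁ * x₂ + (x₂ : K) ^ 2 + W.a₂ * (x₁ + x₂) + W.a₄ - W.a₁ * y₂) * _
        linear_combination h₁ - h₂
      · rw [hlr, slope_of_Y_ne hx hy, y_sub_negY, hDr, hW.residue_psiA]
        congr 1
        simp only [map_sub, map_add, map_mul, map_pow, ← hx, ← hyeq, IntCoeff.redCurve,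
          WeierstrassCurve.map_a₁, WeierstrassCurve.map_a₂, WeierstrassCurve.map_a₄]
        ring
  · obtain ⟨l, hl, hlr⟩ := exists_div (y₁ - y₂) (x₁ - x₂) (by rwa [map_sub, sub_ne_zero])
    refine ⟨l, ?_, ?_⟩
    · have hxx : (x₁ : K) ≠ x₂ := fun e => hx (congrArg _ (Subtype.ext e))
      rw [hl, slope_of_X_ne hxx]; rfl
    · rw [hlr, slope_of_X_ne hx, map_sub, map_sub]

/-- Integral points whose sum is integral with the expected reduction. -/
lemma add_residue {x₁ y₁ x₂ y₂ : A} (h₁ : W.Nonsingular (x₁ : K) y₁)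
    (h₂ : W.Nonsingular (x₂ : K) y₂)
    (hne : ¬(residue A x₁ = residue A x₂ ∧
      residue A y₁ = hW.redCurve.negY (residue A x₂) (residue A y₂))) :
    ∃ (x₃ y₃ : A) (h₃ : W.Nonsingular (x₃ : K) y₃),
      Point.some _ _ h₁ + Point.some _ _ h₂ = Point.some _ _ h₃ ∧
      residue A x₃ = hW.redCurve.addX (residue A x₁) (residue A x₂)
        (hW.redCurve.slope (residue A x₁) (residue A x₂) (residue A y₁) (residue A y₂)) ∧
      residue A y₃ = hW.redCurve.addY (residue A x₁) (residue A x₂) (residue A y₁)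
        (hW.redCurve.slope (residue A x₁) (residue A x₂) (residue A y₁) (residue A y₂)) := by
  obtain ⟨hK, l, hl, hlr⟩ := slope_residue hW h₁.1 h₂.1 hne
  have ex : W.addX (x₁ : K) x₂ (W.slope (x₁ : K) x₂ y₁ y₂) = (hW.model.addX x₁ x₂ l : A) := by
    rw [hl]; exact map_addX (W' := hW.model) (f := A.subtype) x₁ x₂ l
  have ey : W.addY (x₁ : K) x₂ y₁ (W.slope (x₁ : K) x₂ y₁ y₂) =
      (hW.model.addY x₁ x₂ y₁ l : A) := by
    rw [hl]; exact map_addY (W' := hW.model) (f := A.subtype) x₁ y₁ x₂ l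
  have hn := nonsingular_add h₁ h₂ hK
  rw [ex, ey] at hn
  refine ⟨_, _, hn, ?_, ?_, ?_⟩
  · rw [Point.add_some hK, Point.some.injEq]; exact ⟨ex, ey⟩
  · rw [← hlr]; exact (map_addX (W' := hW.model) (f := residue A) x₁ x₂ l).symm
  · rw [← hlr]; exact (map_addY (W' := hW.model) (f := residue A) x₁ y₁ x₂ l).symm

/-- The integral case of additivity of the reduction. -/
lemma red_add_of_integral {x₁ y₁ x₂ y₂ : A} (h₁ : W.Nonsingular (x₁ : K) y₁)
    (h₂ : W.Nonsingular (x₂ : K) y₂)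
    (n₁ : hW.redCurve.Nonsingular (residue A x₁) (residue A y₁))
    (n₂ : hW.redCurve.Nonsingular (residue A x₂) (residue A y₂)) :
    InE0 hW (Point.some _ _ h₁ + Point.some _ _ h₂) ∧
      red hW (Point.some _ _ h₁ + Point.some _ _ h₂) =
        Point.some _ _ n₁ + Point.some _ _ n₂ := by
  by_cases hne : residue A x₁ = residue A x₂ ∧
      residue A y₁ = hW.redCurve.negY (residue A x₂) (residue A y₂)
  · have hy₂' : W.negY (x₂ : K) y₂ ∈ A := hW.y_mem ((equation_neg _ _).mpr h₂.1) x₂.2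
    have hh := sub_inE1_of_residue_eq hW h₁ (x₂ := x₂) (y₂ := ⟨W.negY (x₂ : K) y₂, hy₂'⟩)
      ((nonsingular_neg ..).mpr h₂) hne.1 (hne.2.trans (residue_negY hW x₂ y₂ hy₂').symm) n₁
    have hneg : Point.some _ _ ((nonsingular_neg ..).mpr h₂) = -Point.some _ _ h₂ := rfl
    rw [hneg, sub_neg_eq_add] at hh
    exact ⟨inE0_of_inE1 hW hh,
      (red_of_inE1 hW hh).trans (Point.add_of_Y_eq hne.1 hne.2).symm⟩
  · obtain ⟨x₃, y₃, h₃, e, ex, ey⟩ := add_residue hW h₁ h₂ hne
    have n₃ : hW.redCurve.Nonsingular (residue A x₃) (residue A y₃) := by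
      rw [ex, ey]; exact nonsingular_add n₁ n₂ hne
    rw [e]
    refine ⟨Or.inr ⟨x₃.2, y₃.2, n₃⟩, ?_⟩
    rw [red_some hW x₃.2 y₃.2 n₃, Point.add_some hne, Point.some.injEq]
    exact ⟨ex, ey⟩

/-- A point of `E₁` does not change the reduction. -/
lemma red_add_of_inE1 {P Q : W.Point} (hP : InE1 A P) (hQ : InE0 hW Q) :
    InE0 hW (P + Q) ∧ red hW (P + Q) = red hW Q := by
  by_cases hQ1 : InE1 A Q
  · have := inE1_add hW hP hQ1
    exact ⟨inE0_of_inE1 hW this, by rw [red_of_inE1 hW this, red_of_inE1 hW hQ1]⟩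
  have hR := not_inE1_add hW hP hQ1
  have hPeq : P = (P + Q) + -Q := by abel
  generalize P + Q = R at hR hPeq ⊢
  subst hPeq
  rcases R with _ | ⟨xR, yR, hnR⟩
  · exact absurd inE1_zero hR
  rcases Q with _ | ⟨xQ, yQ, hnQ⟩
  · exact absurd inE1_zero hQ1
  obtain ⟨hxQ, hyQ, nQ⟩ := hQ.resolve_left hQ1
  have hxR : xR ∈ A := not_not.mp hR
  have hyR := hW.y_mem hnR.1 hxR
  have hyQ' : W.negY xQ yQ ∈ A := hW.y_mem ((equation_neg _ _).mpr hnQ.1) hxQ
  have eQ := residue_negY hW ⟨xQ, hxQ⟩ ⟨yQ, hyQ⟩ hyQ'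
  rw [Point.neg_some] at hP
  by_cases hxr : residue A ⟨xR, hxR⟩ = residue A ⟨xQ, hxQ⟩
  · have nR : hW.redCurve.Nonsingular (residue A ⟨xR, hxR⟩) (residue A ⟨yR, hyR⟩) := by
      rcases Y_eq_of_X_eq (hW.equation_residue (x := ⟨xR, hxR⟩) (y := ⟨yR, hyR⟩) hnR.1)
        (hW.equation_residue (x := ⟨xQ, hxQ⟩) (y := ⟨yQ, hyQ⟩) hnQ.1) hxr with h | h
      · rw [hxr, h]; exact nQ
      · rw [hxr, h, nonsingular_neg]; exact nQ
    refine ⟨Or.inr ⟨hxR, hyR, nR⟩, ?_⟩
    have key := (red_add_of_integral hW (x₁ := ⟨xR, hxR⟩) (y₁ := ⟨yR, hyR⟩)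
      (x₂ := ⟨xQ, hxQ⟩) (y₂ := ⟨W.negY xQ yQ, hyQ'⟩) hnR ((nonsingular_neg ..).mpr hnQ)
      nR (eQ ▸ (nonsingular_neg ..).mpr nQ)).2
    rw [red_of_inE1 hW hP] at key
    rw [red_some hW hxR hyR nR, red_some hW hxQ hyQ nQ]
    have h2 : -Point.some _ _ nQ = Point.some _ _ (eQ ▸ (nonsingular_neg ..).mpr nQ :
        hW.redCurve.Nonsingular (residue A ⟨xQ, hxQ⟩) (residue A ⟨W.negY xQ yQ, hyQ'⟩)) := by
      rw [Point.neg_some, Point.some.injEq]; exact ⟨rfl, eQ.symm⟩
    rw [← h2, ← sub_eq_add_neg] at key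
    exact sub_eq_zero.mp key.symm
  · exfalso
    obtain ⟨x₃, y₃, h₃, e, -, -⟩ := add_residue hW (x₁ := ⟨xR, hxR⟩) (y₁ := ⟨yR, hyR⟩)
      (x₂ := ⟨xQ, hxQ⟩) (y₂ := ⟨W.negY xQ yQ, hyQ'⟩) hnR ((nonsingular_neg ..).mpr hnQ)
      (fun h => hxr h.1)
    rw [e] at hP
    exact hP x₃.2

theorem inE0_add {P Q : W.Point} (hP : InE0 hW P) (hQ : InE0 hW Q) :
    InE0 hW (P + Q) ∧ red hW (P + Q) = red hW P + red hW Q := by
  by_cases h1 : InE1 A P
  · rw [red_of_inE1 hW h1, zero_add]; exact red_add_of_inE1 hW h1 hQ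
  by_cases h2 : InE1 A Q
  · rw [red_of_inE1 hW h2, add_zero, add_comm]; exact red_add_of_inE1 hW h2 hP
  rcases P with _ | ⟨x₁, y₁, h₁⟩
  · exact absurd inE1_zero h1
  rcases Q with _ | ⟨x₂, y₂, h₂⟩
  · exact absurd inE1_zero h2
  obtain ⟨hx₁, hy₁, n₁⟩ := hP.resolve_left h1
  obtain ⟨hx₂, hy₂, n₂⟩ := hQ.resolve_left h2
  rw [red_some hW hx₁ hy₁ n₁, red_some hW hx₂ hy₂ n₂]
  exact red_add_of_integral hW (x₁ := ⟨x₁, hx₁⟩) (y₁ := ⟨y₁, hy₁⟩) (x₂ := ⟨x₂, hx₂⟩)
    (y₂ := ⟨y₂, hy₂⟩) h₁ h₂ n₁ n₂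

/-- The subgroup `E₀`. -/
noncomputable def e0Subgroup : AddSubgroup W.Point where
  carrier := {P : W.Point | InE0 hW P}
  zero_mem' := inE0_zero hW
  add_mem' := fun {P Q} (hP : InE0 hW P) (hQ : InE0 hW Q) => (inE0_add hW hP hQ).1
  neg_mem' := fun {P} (h : InE0 hW P) => inE0_neg hW h

lemma mem_e0Subgroup {P : W.Point} : P ∈ e0Subgroup hW ↔ InE0 hW P := Iff.rfl

/-- Reduction as a homomorphism on `E₀`. -/
noncomputable def redHom : e0Subgroup hW →+ hW.redCurve.Point where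
  toFun P := red hW (P : W.Point)
  map_zero' := rfl
  map_add' P Q := (inE0_add hW P.2 Q.2).2

lemma redHom_apply (P : e0Subgroup hW) : redHom hW P = red hW (P : W.Point) := rfl

lemma redHom_eq_zero_iff (P : e0Subgroup hW) : redHom hW P = 0 ↔ InE1 A (P : W.Point) :=
  (inE1_iff_red_eq_zero hW P.2).symm

lemma sub_inE1_of_red_eq {P Q : W.Point} (hP : InE0 hW P) (hQ : InE0 hW Q)
    (h : red hW P = red hW Q) : InE1 A (P - Q) := by
  have := (redHom_eq_zero_iff hW (⟨P, hP⟩ - ⟨Q, hQ⟩)).mp (by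
    rw [map_sub, redHom_apply, redHom_apply, sub_eq_zero]; exact h)
  simpa using this

end FLTAgent.LocalEC
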