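import Fermat.Agent.LocalEC.Formulas
import Mathlib.RingTheory.Valuation.ValuationSubring
import Mathlib.RingTheory.LocalRing.ResidueField.Basic

/-!
Integrality helpers for Weierstrass curves over a field with a valuation subring.
-/

set_option autoImplicit false

namespace FLTAgent.LocalEC

open WeierstrassCurve WeierstrassCurve.Affine IsLocalRing

variable {K : Type*} [Field K] {A : ValuationSubring K}

lemma not_mem_iff_one_lt_val {x : K} : x ∉ A ↔ 1 < A.valuation x := by
  rw [← A.valuation_le_one_iff, not_le]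

lemma val_le_one {x : K} (h : x ∈ A) : A.valuation x ≤ 1 := (A.valuation_le_one_iff x).mpr h

lemma mem_of_val_le_one {x : K} (h : A.valuation x ≤ 1) : x ∈ A := (A.valuation_le_one_iff x).mp h

lemma residue_eq_zero_iff_val_lt_one (a : A) : residue A a = 0 ↔ A.valuation (a : K) < 1 := by
  rw [residue_eq_zero_iff, A.valuation_lt_one_iff]

lemma residue_eq_iff_val_sub_lt_one (a b : A) :
    residue A a = residue A b ↔ A.valuation ((a : K) - b) < 1 := by
  rw [← sub_eq_zero, ← map_sub, residue_eq_zero_iff_val_lt_one]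
  rfl

lemma val_eq_one_of_residue_ne_zero {a : A} (h : residue A a ≠ 0) : A.valuation (a : K) = 1 := by
  rw [ne_eq, residue_eq_zero_iff_val_lt_one] at h
  exact le_antisymm (A.valuation_le_one a) (not_lt.mp h)

lemma residue_ne_zero_iff_val_eq_one (a : A) : residue A a ≠ 0 ↔ A.valuation (a : K) = 1 :=
  ⟨val_eq_one_of_residue_ne_zero, fun h => by
    rw [ne_eq, residue_eq_zero_iff_val_lt_one, h]; exact lt_irrefl 1⟩

/-- A root of a monic quadratic with integral coefficients is integral. -/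
lemma mem_of_sq_add_mul {a c y : K} (ha : a ∈ A) (hc : c ∈ A) (h : y ^ 2 + a * y = c) : y ∈ A := by
  by_contra hy
  rw [not_mem_iff_one_lt_val] at hy
  have h1 : A.valuation (a * y) < A.valuation (y ^ 2) := by
    rw [map_mul, map_pow, sq]
    refine mul_lt_mul_of_pos_right ((val_le_one ha).trans_lt hy) (lt_trans zero_lt_one hy)
  have h2 : A.valuation c = A.valuation (y ^ 2) := by
    rw [← h, A.valuation.map_add_eq_of_lt_left h1]
  have h3 : (1 : A.ValueGroup) < A.valuation (y ^ 2) := by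
    rw [map_pow]; exact one_lt_pow₀ hy two_ne_zero
  exact absurd (val_le_one hc) (not_le.mpr (h2 ▸ h3))

/-- Both roots of `X² - sX + q` are integral when `s` and `q` are. -/
lemma mem_of_add_mem_of_mul_mem {a b : K} (hs : a + b ∈ A) (hq : a * b ∈ A) : a ∈ A ∧ b ∈ A :=
  ⟨mem_of_sq_add_mul (A.neg_mem _ hs) (A.neg_mem _ hq) (by ring),
    mem_of_sq_add_mul (A.neg_mem _ hs) (A.neg_mem _ hq) (by ring)⟩

/-- The coefficients of `W` lie in `A`. -/
structure IntCoeff (A : ValuationSubring K) (W : WeierstrassCurve.Affine K) : Prop where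
  mem₁ : W.a₁ ∈ A
  mem₂ : W.a₂ ∈ A
  mem₃ : W.a₃ ∈ A
  mem₄ : W.a₄ ∈ A
  mem₆ : W.a₆ ∈ A

variable {W : WeierstrassCurve.Affine K}

namespace IntCoeff

variable (hW : IntCoeff A W)

/-- The model of `W` over `A`. -/
def model : WeierstrassCurve.Affine A :=
  ⟨⟨W.a₁, hW.mem₁⟩, ⟨W.a₂, hW.mem₂⟩, ⟨W.a₃, hW.mem₃⟩, ⟨W.a₄, hW.mem₄⟩, ⟨W.a₆, hW.mem₆⟩⟩

lemma model_map : hW.model.map A.subtype = W := rfl

/-- The reduction of `W`. -/
noncomputable def redCurve : WeierstrassCurve.Affine (ResidueField A) := hW.model.map (residue A)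

include hW

lemma mem_b₂ : W.b₂ ∈ A := by
  rw [← model_map hW, WeierstrassCurve.map_b₂]; exact (hW.model.b₂).2

lemma mem_b₄ : W.b₄ ∈ A := by
  rw [← model_map hW, WeierstrassCurve.map_b₄]; exact (hW.model.b₄).2

lemma mem_b₆ : W.b₆ ∈ A := by
  rw [← model_map hW, WeierstrassCurve.map_b₆]; exact (hW.model.b₆).2

lemma mem_b₈ : W.b₈ ∈ A := by
  rw [← model_map hW, WeierstrassCurve.map_b₈]; exact (hW.model.b₈).2

/-- The ordinate of an integral abscissa is integral. -/
lemma y_mem {x y : K} (h : W.Equation x y) (hx : x ∈ A) : y ∈ A := by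
  rw [equation_iff] at h
  refine mem_of_sq_add_mul (a := W.a₁ * x + W.a₃)
    (c := x ^ 3 + W.a₂ * x ^ 2 + W.a₄ * x + W.a₆) ?_ ?_ (by linear_combination h)
  · exact A.add_mem _ _ (A.mul_mem _ _ hW.mem₁ hx) hW.mem₃
  · exact A.add_mem _ _ (A.add_mem _ _ (A.add_mem _ _ (pow_mem hx 3)
      (A.mul_mem _ _ hW.mem₂ (pow_mem hx 2))) (A.mul_mem _ _ hW.mem₄ hx)) hW.mem₆

lemma psi_mem {x y : K} (hx : x ∈ A) (hy : y ∈ A) : psi W x y ∈ A :=
  A.add_mem _ _ (A.add_mem _ _ (A.mul_mem _ _ (natCast_mem A 2) hy)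
    (A.mul_mem _ _ hW.mem₁ hx)) hW.mem₃

lemma tanNum_mem {x y : K} (hx : x ∈ A) (hy : y ∈ A) : tanNum W x y ∈ A :=
  sub_mem (A.add_mem _ _ (A.add_mem _ _ (A.mul_mem _ _ (natCast_mem A 3) (pow_mem hx 2))
    (A.mul_mem _ _ (A.mul_mem _ _ (natCast_mem A 2) hW.mem₂) hx)) hW.mem₄)
    (A.mul_mem _ _ hW.mem₁ hy)

lemma equation_residue {x y : A} (h : W.Equation (x : K) y) :
    hW.redCurve.Equation (residue A x) (residue A y) := by
  have : hW.model.Equation x y := by
    rw [← hW.model.map_equation A.subtype_injective]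
    exact h
  exact this.map (residue A)

end IntCoeff

end FLTAgent.LocalEC
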